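/-
PROGRAMME MP (row 38 via S44), chapter TAU (helper9): **THE good-reduction datum of `X₀(M₀)` along
`padicPlace p`** (`4 ∣ M₀`, `p ∤ M₀`).

`goodDatum hpM h4 : RedDatum Qbar (X0.FF M₀) (kA (padicPlace p)) (k · F̃_{M₀})` is helper1's
`FF/IFACE/Inst1.redDatum` on the concrete two-chart model `ModelInstFinal4.twoCharts_final` with the
Hauptmodul `t = tq 4 8` (charts `S0f`, `S1f` : `B = chart A t`, `chart A t⁻¹`; the cusp exports are
chosen once and for all by `Classical.choose`).  This is the datum of level `M₀` used by the chapters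
TAU (the two degeneracy maps `α_p`, `β_p` to `MainDatum6.datum`), FUNC, FIN.

* `goodT`, `goodDatum`; `goodDatum_r`, `goodDatum_G`, `goodDatum_red`, `goodDatum_A` (all `rfl`);
* `goodT_S0_B`, `goodT_S1_B` : the chart rings are `chart A t`, `chart A t⁻¹`; `goodT_S0_s`, `goodT_S1_s`;
* `goodDatum_red_surjective`.
-/
import Mathlib
import Fermat.Agent.ES.TOP.ModelAtFinal8
import Fermat.Agent.FF.IFACE.NSInst9
import Fermat.Agent.FF.BASE.Place2

set_option autoImplicit false
set_option linter.unusedSectionVars false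
set_option linter.style.longLine false
set_option synthInstance.maxHeartbeats 400000

open AlgebraicCurve ModularCurve IntermediateField
open scoped MatrixGroups

noncomputable section

namespace Fermat.Agent.MP.TAU.GoodDatum9

open Fermat.Agent.RED.Interface4 Fermat.Agent.RED.BASE Fermat.Agent.RED.BASE.Hauptmodul12
  Fermat.Agent.RED.BASE.Interface12 Fermat.Agent.RED.PUR.ChartGeneric22
  Fermat.Agent.ES.RED Fermat.Agent.ES.RED.ModelInstFinal4 Fermat.Agent.ES.RED.TwoCharts8
  Fermat.Agent.ES.RED.Contract8 Fermat.Agent.ES.RED.GaussRing15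
  Fermat.Agent.FF.RED.RedDatum7 Fermat.Agent.FF.IFACE.Inst1 Fermat.Agent.FF.IFACE.GaussVal1
  Fermat.Agent.FF.BASE.Place2 Fermat.Agent.X0.FF

variable {p M₀ : ℕ} [Fact p.Prime] [NeZero M₀] (hpM : ¬ p ∣ M₀) (h4 : 4 ∣ M₀)

include h4 in
/-- the Hauptmodul `tq 4 8` lies in `F_{M₀}`. -/
theorem tMem4 : TMem 4 8 M₀ := tMem_of_dvd baseHyp_four h4

/-- the cusp exports, chosen once and for all. -/
def cv4 : SL(2, ℤ) → Option Fermat.Agent.X0.Kbar :=
  Classical.choose (BaseCases3.exists_cuspExports baseHyp_four M₀ h4)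

theorem hcv4 : Fermat.Agent.RED.BASE.MainCusp12.CuspExports 4 8 M₀ (cv4 h4) :=
  Classical.choose_spec (BaseCases3.exists_cuspExports baseHyp_four M₀ h4)

/-- **the two-chart model of `X₀(M₀)` along `padicPlace p`.** -/
def goodT : TwoCharts (padicPlace p) (Fermat.Agent.ES.RED.SpecialInv25.isGen_tF 4 8 M₀ (tMem4 h4))
    ↥(modularFunctionFieldFullC (kA (padicPlace p)) M₀) :=
  twoCharts_final 4 8 M₀ p hpM (tMem4 h4) (tGenBase' baseHyp_four) (padicPlace p)
    (liesOverPrime (ℓ := p)) baseHyp_four h4 (cv4 h4) (hcv4 h4)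

theorem goodT_S0 : (goodT hpM h4).S0 =
    S0f 4 8 M₀ p hpM (tMem4 h4) (tGenBase' baseHyp_four) (padicPlace p) (liesOverPrime (ℓ := p)) :=
  rfl

theorem goodT_S1 : (goodT hpM h4).S1 =
    S1f 4 8 M₀ p hpM (tMem4 h4) (tGenBase' baseHyp_four) (padicPlace p) (liesOverPrime (ℓ := p)) :=
  rfl

theorem goodT_S0_s : (goodT hpM h4).S0.s = tF M₀ (tMem4 h4) := rfl

theorem goodT_S1_s : (goodT hpM h4).S1.s = (tF M₀ (tMem4 h4))⁻¹ := rfl

theorem goodT_S0_B : (goodT hpM h4).S0.B = (chart ↥(padicPlace p) (tF M₀ (tMem4 h4))).toSubring :=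
  rfl

theorem goodT_S1_B : (goodT hpM h4).S1.B = (chart ↥(padicPlace p) (tF M₀ (tMem4 h4))⁻¹).toSubring :=
  rfl

/-- **THE good-reduction datum of `X₀(M₀)` along `padicPlace p`.** -/
def goodDatum : RedDatum Qbar (X0.FF M₀) (kA (padicPlace p))
    ↥(modularFunctionFieldFullC (kA (padicPlace p)) M₀) :=
  redDatum 4 8 p hpM (tMem4 h4) (tGenBase' baseHyp_four) (padicPlace p) (liesOverPrime (ℓ := p))
    (goodT hpM h4)
    (coeffChart0_final 4 8 M₀ p hpM (tMem4 h4) (tGenBase' baseHyp_four) (padicPlace p)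
      (liesOverPrime (ℓ := p)))
    (coeffChart1_final 4 8 M₀ p hpM (tMem4 h4) (tGenBase' baseHyp_four) (padicPlace p)
      (liesOverPrime (ℓ := p)))
    rfl
    (peelA0_final 4 8 M₀ p hpM (tMem4 h4) (tGenBase' baseHyp_four) (padicPlace p)
      (liesOverPrime (ℓ := p)) baseHyp_four h4 (cv4 h4) (hcv4 h4))
    (peelA1_final 4 8 M₀ p hpM (tMem4 h4) (tGenBase' baseHyp_four) (padicPlace p)
      (liesOverPrime (ℓ := p)) baseHyp_four h4 (cv4 h4) (hcv4 h4))

@[simp] theorem goodDatum_A : (goodDatum hpM h4).A = padicPlace p := rfl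

@[simp] theorem goodDatum_r : (goodDatum hpM h4).r = (goodT hpM h4).r := rfl

@[simp] theorem goodDatum_res : (goodDatum hpM h4).res = resA (padicPlace p) := rfl

@[simp] theorem goodDatum_G :
    (goodDatum hpM h4).G = fracRing (gaussRedN (padicPlace p) (resA (padicPlace p)) M₀) := rfl

@[simp] theorem goodDatum_red :
    (goodDatum hpM h4).red = fracRed (gaussRedN (padicPlace p) (resA (padicPlace p)) M₀) := rfl

/-- the reduction of the good datum is surjective. -/
theorem goodDatum_red_surjective : Function.Surjective (goodDatum hpM h4).red :=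
  Fermat.Agent.FF.IFACE.NSInst9.red_surjective 4 8 p hpM (tMem4 h4) (tGenBase' baseHyp_four)
    (padicPlace p) (liesOverPrime (ℓ := p)) (goodT hpM h4) _ _ rfl _ _

end Fermat.Agent.MP.TAU.GoodDatum9
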