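/-
PROGRAMME MP (row 38 via S44), chapter TAU (helper3): **slopes of functions at the branches of the
nodes, and the map `τ : J[p] → (ℤ/p)^E`**, abstractly over helper9's `SemiRedDatum`.

* `sl S Q f` : the order at `Q` of the normalised reduction of `f ≠ 0` on the side `S` (independent of
  the normaliser: `sl_eq`); `sl_mul`, `sl_inv`, `sl_pow`, `sl_zpow`, `sl_const`: `f ↦ sl S Q f` is a
  homomorphism `Fˣ → ℤ` killing the constants;
* `slS 𝔻 e f`, `slT 𝔻 e f` : the slopes of `f` at the two branches of the node `e`;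
  `slS_add_slT` = (N1) of `ORD/ANN/Node3`;
* `Kum H p y` : a **Kummer pair** of the class `y` : a divisor `D` of degree `0` in `y` and `f ≠ 0` with
  `div f = p • D`; `exists_kum` (for `p • y = 0`), `Kum.compare` (two Kummer pairs of the same class:
  `f' = c · f · h ^ p`), `Kum.add`, `Kum.neg`, `Kum.zero`;
* `tau 𝔻 p y : E → ZMod p` : `τ(y)_e = slS 𝔻 e f mod p` for ANY Kummer pair `(D, f)` of `y` (`tau_eq`);
  `tau_add`, `tau_neg`, `tau_zero'`, `tauHom 𝔻 p : Pic0.torsion L F p →+ (E → ZMod p)`;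
* `exists_kum_const_of_mem_kerRed`, `tau_eq_zero_of_mem_kerRed` : a class of the kernel of reduction
  killed by `p` has a Kummer function which (after ONE scaling) is a unit with the same constant
  reduction on every component; in particular `τ = 0` on `kerRed ∩ J[p]`;
* `dvd_ord_nred` : if `τ(y) = 0`, the divisor of every normalised reduction of a Kummer function of `y`
  is divisible by `p` (at the smooth points by `compat`, at the source branches by `τ = 0`, at the target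
  branches by (N1)).
-/
import Mathlib
import Fermat.Agent.ORD.KERN.KerN9

set_option autoImplicit false
set_option linter.unusedSectionVars false
set_option linter.style.longLine false

namespace Fermat.Agent.MP.TAU.TauDefs3

open AlgebraicCurve Fermat.Agent.X0.FF Fermat.Agent.RR.LSpace Fermat.Agent.MW.EMB.Value6
open Fermat.Agent.ORD.ANN.Side3 Fermat.Agent.ORD.ANN.Node3 Fermat.Agent.ORD.ANN.SemiRed3
open Fermat.Agent.ORD.SEMIRED.SemiRedDatum9 Fermat.Agent.ORD.SEMIRED.ToSemiRed9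
open Fermat.Agent.ORD.REDN.DiscC9 Fermat.Agent.ORD.KERN.KerDefs9 Fermat.Agent.ORD.KERN.KerN9

noncomputable section

/-! ### the slope of a function at a point of a component -/

section Slope

variable {L k F Ft : Type*} [Field L] [Field k] [Field F] [Algebra L F] [Field Ft] [Algebra k Ft]
variable {B : Base L k} (S : Side B F Ft) (Q : Place k Ft)

/-- a nonzero constant multiple has the same order. -/
theorem ord_algebraMap_mul {a : k} (ha : a ≠ 0) (g : Ft) :
    Q.ord (algebraMap k Ft a * g) = Q.ord g := by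
  by_cases hg : g = 0
  · rw [hg, mul_zero]
  · rw [Q.ord_mul ((map_ne_zero _).mpr ha) hg, ffp_ord_algebraMap, zero_add]

open Classical in
/-- **the slope** of `f` at the point `Q` of the component `S` : the order at `Q` of the normalised
reduction of `f` (`0` for `f = 0`). -/
def sl (f : F) : ℤ :=
  if hf : f = 0 then 0 else Q.ord (S.nred (S.exists_isNorm hf).choose f)

theorem sl_zero : sl S Q (0 : F) = 0 := by
  classical
  rw [sl, dif_pos rfl]

variable {S}

/-- the slope does not depend on the normaliser. -/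
theorem sl_eq {c : L} {f : F} (h : S.IsNorm c f) : sl S Q f = Q.ord (S.nred c f) := by
  classical
  have hf : f ≠ 0 := h.ne_zero
  rw [sl, dif_neg hf]
  have h0 := (S.exists_isNorm hf).choose_spec
  obtain ⟨hU, hcmp⟩ := h.compare h0
  rw [hcmp, ord_algebraMap_mul Q hU.resL_ne_zero]

variable (S)

theorem sl_mul {f g : F} (hf : f ≠ 0) (hg : g ≠ 0) : sl S Q (f * g) = sl S Q f + sl S Q g := by
  obtain ⟨c, hc⟩ := S.exists_isNorm hf
  obtain ⟨d, hd⟩ := S.exists_isNorm hg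
  have h := hc.mul hd
  rw [sl_eq Q h.1, h.2, sl_eq Q hc, sl_eq Q hd, Q.ord_mul hc.nred_ne_zero hd.nred_ne_zero]

theorem sl_inv (f : F) : sl S Q f⁻¹ = -sl S Q f := by
  by_cases hf : f = 0
  · rw [hf, inv_zero, sl_zero, neg_zero]
  obtain ⟨c, hc⟩ := S.exists_isNorm hf
  have h := hc.inv
  rw [sl_eq Q h.1, h.2, sl_eq Q hc, Place.ord_inv]

theorem sl_one : sl S Q (1 : F) = 0 := by
  have h := Side.isNorm_one_one (S := S)
  rw [sl_eq Q h.1, h.2, Place.ord_one]

theorem sl_div {f g : F} (hf : f ≠ 0) (hg : g ≠ 0) : sl S Q (f / g) = sl S Q f - sl S Q g := by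
  rw [div_eq_mul_inv, sl_mul S Q hf (inv_ne_zero hg), sl_inv, sub_eq_add_neg]

theorem sl_zpow (f : F) (n : ℤ) : sl S Q (f ^ n) = n * sl S Q f := by
  by_cases hf : f = 0
  · by_cases hn : n = 0
    · rw [hn, zpow_zero, sl_one, zero_mul]
    · rw [hf, zero_zpow n hn, sl_zero, mul_zero]
  obtain ⟨c, hc⟩ := S.exists_isNorm hf
  have h := hc.zpow n
  rw [sl_eq Q h.1, h.2, sl_eq Q hc, Place.ord_zpow]

theorem sl_pow (f : F) (n : ℕ) : sl S Q (f ^ n) = n * sl S Q f := by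
  have := sl_zpow S Q f n
  rwa [zpow_natCast] at this

/-- constants have slope `0`. -/
theorem sl_const (c : L) : sl S Q (algebraMap L F c) = 0 := by
  by_cases hc : c = 0
  · rw [hc, map_zero, sl_zero]
  have hU : B.IsU (c⁻¹ * c) := by rw [inv_mul_cancel₀ hc]; exact Base.isU_one
  have h := Side.isNorm_const (S := S) (c := c⁻¹) (d := c) hU
  rw [sl_eq Q h.1, h.2, ffp_ord_algebraMap]

theorem sl_const_mul (c : L) (hc : c ≠ 0) (f : F) : sl S Q (algebraMap L F c * f) = sl S Q f := by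
  by_cases hf : f = 0
  · rw [hf, mul_zero]
  rw [sl_mul S Q ((map_ne_zero _).mpr hc) hf, sl_const, zero_add]

theorem sl_prod {α : Type*} (s : Finset α) (f : α → F) (hf : ∀ i ∈ s, f i ≠ 0) :
    sl S Q (∏ i ∈ s, f i) = ∑ i ∈ s, sl S Q (f i) := by
  classical
  induction s using Finset.induction_on with
  | empty => rw [Finset.prod_empty, Finset.sum_empty, sl_one]
  | insert a s ha ih =>
    have hfs : ∀ i ∈ s, f i ≠ 0 := fun i hi => hf i (Finset.mem_insert_of_mem hi)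
    rw [Finset.prod_insert ha, Finset.sum_insert ha,
      sl_mul S Q (hf a (Finset.mem_insert_self a s)) (Finset.prod_ne_zero_iff.mpr hfs), ih hfs]

end Slope

/-! ### the slopes at the two branches of a node -/

variable {L F k Ft : Type*} [Field L] [Field F] [Algebra L F] [Field k] [Field Ft] [Algebra k Ft]
variable {ι E : Type*} (𝔻 : SemiRedDatum L F k Ft ι E)

/-- the slope of `f` at the source branch of the node `e`. -/
def slS (e : E) (f : F) : ℤ := sl (𝔻.side (𝔻.src e)) (𝔻.Qs e) f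

/-- the slope of `f` at the target branch of the node `e`. -/
def slT (e : E) (f : F) : ℤ := sl (𝔻.side (𝔻.tgt e)) (𝔻.Qt e) f

theorem slS_eq {e : E} {c : L} {f : F} (h : (𝔻.side (𝔻.src e)).IsNorm c f) :
    slS 𝔻 e f = (𝔻.Qs e).ord ((𝔻.side (𝔻.src e)).nred c f) := sl_eq _ h

theorem slT_eq {e : E} {c : L} {f : F} (h : (𝔻.side (𝔻.tgt e)).IsNorm c f) :
    slT 𝔻 e f = (𝔻.Qt e).ord ((𝔻.side (𝔻.tgt e)).nred c f) := sl_eq _ h

theorem slS_mul (e : E) {f g : F} (hf : f ≠ 0) (hg : g ≠ 0) :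
    slS 𝔻 e (f * g) = slS 𝔻 e f + slS 𝔻 e g := sl_mul _ _ hf hg

theorem slT_mul (e : E) {f g : F} (hf : f ≠ 0) (hg : g ≠ 0) :
    slT 𝔻 e (f * g) = slT 𝔻 e f + slT 𝔻 e g := sl_mul _ _ hf hg

theorem slS_inv (e : E) (f : F) : slS 𝔻 e f⁻¹ = -slS 𝔻 e f := sl_inv _ _ f

theorem slT_inv (e : E) (f : F) : slT 𝔻 e f⁻¹ = -slT 𝔻 e f := sl_inv _ _ f

theorem slS_pow (e : E) (f : F) (n : ℕ) : slS 𝔻 e (f ^ n) = n * slS 𝔻 e f := sl_pow _ _ f n

theorem slT_pow (e : E) (f : F) (n : ℕ) : slT 𝔻 e (f ^ n) = n * slT 𝔻 e f := sl_pow _ _ f n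

theorem slS_zpow (e : E) (f : F) (n : ℤ) : slS 𝔻 e (f ^ n) = n * slS 𝔻 e f := sl_zpow _ _ f n

theorem slT_zpow (e : E) (f : F) (n : ℤ) : slT 𝔻 e (f ^ n) = n * slT 𝔻 e f := sl_zpow _ _ f n

theorem slS_const (e : E) (c : L) : slS 𝔻 e (algebraMap L F c) = 0 := sl_const _ _ c

theorem slT_const (e : E) (c : L) : slT 𝔻 e (algebraMap L F c) = 0 := sl_const _ _ c

theorem slS_const_mul (e : E) {c : L} (hc : c ≠ 0) (f : F) :
    slS 𝔻 e (algebraMap L F c * f) = slS 𝔻 e f := sl_const_mul _ _ c hc f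

theorem slT_const_mul (e : E) {c : L} (hc : c ≠ 0) (f : F) :
    slT 𝔻 e (algebraMap L F c * f) = slT 𝔻 e f := sl_const_mul _ _ c hc f

/-- **(N1)**: the two slopes of `f` at a node add up to the degree of `div f` on the annulus. -/
theorem slS_add_slT (e : E) {f : F} (hf : f ≠ 0) :
    slS 𝔻 e f + slT 𝔻 e f = ∑ P ∈ (𝔻.node e).supp hf, P.ord f := by
  obtain ⟨c, hc⟩ := (𝔻.side (𝔻.src e)).exists_isNorm hf
  obtain ⟨c', hc'⟩ := (𝔻.side (𝔻.tgt e)).exists_isNorm hf
  rw [slS_eq 𝔻 hc, slT_eq 𝔻 hc']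
  exact (𝔻.node e).slope_add hf hc hc'

/-! ### Kummer pairs -/

/-- A **Kummer pair** of the class `y` : a divisor `D` of degree `0` in the class `y` and a function
`f ≠ 0` with `div f = p • D`. -/
structure Kum (p : ℕ) (y : Pic0 L F) where
  D : Divisor.degZero (K := L) (F := F)
  f : F
  f_ne : f ≠ 0
  div_eq : ∀ P : Place L F, (p : ℤ) * (D : Divisor L F) P = P.ord f
  mk_eq : Pic0.mk D = y

/-- every class killed by `p` has a Kummer pair. -/
theorem exists_kum {p : ℕ} {y : Pic0 L F} (hy : p • y = 0) : Nonempty (Kum p y) := by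
  obtain ⟨⟨Dx, hDx⟩, rfl⟩ := Pic0.mk_surjective y
  have hmD : p • Dx ∈ Divisor.principal (K := L) (F := F) := by
    have h1 : Pic0.mk (p • (⟨Dx, hDx⟩ : Divisor.degZero (K := L) (F := F))) = 0 := by
      rw [← hy]; rfl
    have h2 := (QuotientAddGroup.eq_zero_iff _).mp h1
    rw [AddSubgroup.mem_addSubgroupOf] at h2
    simpa using h2
  obtain ⟨fx, hfx0, hfxD⟩ := hmD
  exact ⟨⟨⟨Dx, hDx⟩, fx, hfx0, fun P => by rw [← hfxD P]; simp, rfl⟩⟩

namespace Kum

variable {p : ℕ} {y y' : Pic0 L F}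

/-- **two Kummer pairs of the same class**: `f' = c · f · h ^ p`. -/
theorem compare (H : LHyp L F) (K K' : Kum p y) :
    ∃ (h : F) (c : L), h ≠ 0 ∧ c ≠ 0 ∧ K'.f = algebraMap L F c * (K.f * h ^ p) := by
  have heq : Pic0.mk K.D = Pic0.mk K'.D := K.mk_eq.trans K'.mk_eq.symm
  rw [Fermat.Agent.FF.KER.Ker0.NSSystem.mk_eq_mk_iff] at heq
  obtain ⟨h, hh0, hh⟩ := heq
  have hg0 : K.f * h ^ p ≠ 0 := mul_ne_zero K.f_ne (pow_ne_zero _ hh0)
  have hq0 : K'.f / (K.f * h ^ p) ≠ 0 := div_ne_zero K'.f_ne hg0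
  have hord : ∀ P : Place L F, P.ord (K'.f / (K.f * h ^ p)) = 0 := by
    intro P
    have h1 := hh P
    rw [Finsupp.sub_apply] at h1
    have h2 : P.ord (h ^ p) = (p : ℤ) * P.ord h := by
      have := P.ord_zpow h p
      rwa [zpow_natCast] at this
    rw [div_eq_mul_inv, P.ord_mul K'.f_ne (inv_ne_zero hg0), Place.ord_inv,
      P.ord_mul K.f_ne (pow_ne_zero _ hh0), h2, ← K.div_eq P, ← K'.div_eq P, ← h1]
    ring
  obtain ⟨c, hc⟩ := eq_algebraMap_of_forall_ord_nonneg H (f := K'.f / (K.f * h ^ p))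
    (fun P => by rw [hord P])
  have hc0 : c ≠ 0 := by
    rintro rfl
    rw [map_zero] at hc
    exact hq0 hc
  refine ⟨h, c, hh0, hc0, ?_⟩
  rw [← hc, div_mul_cancel₀ _ hg0]

/-- the sum of two Kummer pairs. -/
def add (K : Kum p y) (K' : Kum p y') : Kum p (y + y') where
  D := K.D + K'.D
  f := K.f * K'.f
  f_ne := mul_ne_zero K.f_ne K'.f_ne
  div_eq P := by
    rw [P.ord_mul K.f_ne K'.f_ne, ← K.div_eq P, ← K'.div_eq P]
    show (p : ℤ) * ((K.D : Divisor L F) + (K'.D : Divisor L F)) P = _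
    rw [Finsupp.add_apply]
    ring
  mk_eq := by rw [Pic0.mk_add, K.mk_eq, K'.mk_eq]

@[simp] theorem add_f (K : Kum p y) (K' : Kum p y') : (K.add K').f = K.f * K'.f := rfl

/-- the opposite of a Kummer pair. -/
def neg (K : Kum p y) : Kum p (-y) where
  D := -K.D
  f := K.f⁻¹
  f_ne := inv_ne_zero K.f_ne
  div_eq P := by
    rw [Place.ord_inv, ← K.div_eq P]
    show (p : ℤ) * (-(K.D : Divisor L F)) P = _
    rw [Finsupp.neg_apply]
    ring
  mk_eq := by
    have h : Pic0.mk (-K.D) = -Pic0.mk K.D := rfl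
    rw [h, K.mk_eq]

@[simp] theorem neg_f (K : Kum p y) : K.neg.f = K.f⁻¹ := rfl

/-- the trivial Kummer pair. -/
def zero (p : ℕ) : Kum p (0 : Pic0 L F) where
  D := 0
  f := 1
  f_ne := one_ne_zero
  div_eq P := by simp
  mk_eq := rfl

@[simp] theorem zero_f (p : ℕ) : (zero p : Kum p (0 : Pic0 L F)).f = 1 := rfl

/-- integer multiples of a Kummer pair (the Kummer function of `n • y` is `f ^ n`). -/
def zsmul (K : Kum p y) (n : ℤ) : Kum p (n • y) where
  D := n • K.D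
  f := K.f ^ n
  f_ne := zpow_ne_zero n K.f_ne
  div_eq P := by
    rw [Place.ord_zpow, ← K.div_eq P]
    show (p : ℤ) * (n • (K.D : Divisor L F)) P = _
    rw [Finsupp.smul_apply, smul_eq_mul]
    ring
  mk_eq := by
    have h : Pic0.mk (n • K.D) = n • Pic0.mk K.D := rfl
    rw [h, K.mk_eq]

@[simp] theorem zsmul_f (K : Kum p y) (n : ℤ) : (K.zsmul n).f = K.f ^ n := rfl

end Kum

/-! ### the map `τ` -/

open Classical in
/-- **the map `τ`**: `τ(y)_e` is the slope at the source branch of the node `e` of a Kummer function of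
`y`, modulo `p` (`0` if `y` has no Kummer pair). -/
def tau (p : ℕ) (y : Pic0 L F) : E → ZMod p :=
  if h : Nonempty (Kum p y) then fun e => ((slS 𝔻 e h.some.f : ℤ) : ZMod p) else 0

/-- `τ(y)` can be computed with any Kummer pair. -/
theorem tau_eq {p : ℕ} {y : Pic0 L F} (K : Kum p y) (e : E) :
    tau 𝔻 p y e = ((slS 𝔻 e K.f : ℤ) : ZMod p) := by
  classical
  have hne : Nonempty (Kum p y) := ⟨K⟩
  rw [tau, dif_pos hne]
  obtain ⟨h, c, hh0, hc0, hf⟩ := Kum.compare 𝔻.HL hne.some K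
  show ((slS 𝔻 e hne.some.f : ℤ) : ZMod p) = _
  rw [hf, slS_const_mul 𝔻 e hc0, slS_mul 𝔻 e hne.some.f_ne (pow_ne_zero _ hh0), slS_pow]
  push_cast
  rw [ZMod.natCast_self, zero_mul, add_zero]

theorem tau_add {p : ℕ} {y y' : Pic0 L F} (hy : p • y = 0) (hy' : p • y' = 0) :
    tau 𝔻 p (y + y') = tau 𝔻 p y + tau 𝔻 p y' := by
  obtain ⟨K⟩ := exists_kum hy
  obtain ⟨K'⟩ := exists_kum hy'
  funext e
  rw [Pi.add_apply, tau_eq 𝔻 (K.add K'), tau_eq 𝔻 K, tau_eq 𝔻 K', Kum.add_f,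
    slS_mul 𝔻 e K.f_ne K'.f_ne]
  push_cast
  rfl

theorem tau_zero' (p : ℕ) : tau 𝔻 p (0 : Pic0 L F) = 0 := by
  funext e
  rw [tau_eq 𝔻 (Kum.zero p), Kum.zero_f, slS, sl_one]
  simp

theorem tau_neg {p : ℕ} {y : Pic0 L F} (hy : p • y = 0) : tau 𝔻 p (-y) = -tau 𝔻 p y := by
  obtain ⟨K⟩ := exists_kum hy
  funext e
  rw [Pi.neg_apply, tau_eq 𝔻 K.neg, tau_eq 𝔻 K, Kum.neg_f, slS_inv]
  push_cast
  rfl

theorem tau_zsmul {p : ℕ} {y : Pic0 L F} (hy : p • y = 0) (n : ℤ) :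
    tau 𝔻 p (n • y) = n • tau 𝔻 p y := by
  obtain ⟨K⟩ := exists_kum hy
  funext e
  rw [Pi.smul_apply, tau_eq 𝔻 (K.zsmul n), tau_eq 𝔻 K, Kum.zsmul_f, slS_zpow]
  push_cast
  rw [zsmul_eq_mul]

/-- **`τ` as a homomorphism** on the `p`-torsion. -/
def tauHom (p : ℕ) : Pic0.torsion L F p →+ (E → ZMod p) where
  toFun y := tau 𝔻 p (y : Pic0 L F)
  map_zero' := tau_zero' 𝔻 p
  map_add' y y' := by
    have hy : p • (y : Pic0 L F) = 0 := by
      have := Pic0.mem_torsion.mp y.2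
      rwa [natCast_zsmul] at this
    have hy' : p • (y' : Pic0 L F) = 0 := by
      have := Pic0.mem_torsion.mp y'.2
      rwa [natCast_zsmul] at this
    exact tau_add 𝔻 hy hy'

@[simp] theorem tauHom_apply (p : ℕ) (y : Pic0.torsion L F p) :
    tauHom 𝔻 p y = tau 𝔻 p (y : Pic0 L F) := rfl

/-! ### `τ` kills the kernel of reduction -/

variable {𝔻} {g : ℕ}

/-- **Kummer functions of the kernel of reduction**: a class of `kerRed` killed by `p` has a Kummer
pair `(D, f)` with `D` off the annuli with zero fibre sums and `f`, after ONE scaling, a unit with the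
SAME constant reduction on every component. -/
theorem exists_kum_const_of_mem_kerRed [Finite ι] [Nonempty ι] (S : NSSystemN 𝔻 g) {p : ℕ}
    {y : Pic0 L F} (hy : y ∈ kerRed 𝔻) (hpy : p • y = 0) :
    ∃ (K : Kum p y) (c : L) (a : k), OffAnn 𝔻 (K.D : Divisor L F) ∧
      Finsupp.mapDomain 𝔻.r (K.D : Divisor L F) = 0 ∧ c ≠ 0 ∧ a ≠ 0 ∧
      ∀ v, (𝔻.side v).IsNorm c K.f ∧ (𝔻.side v).nred c K.f = algebraMap k Ft a := by
  obtain ⟨D', hann, hr, rfl⟩ := hy
  -- `p • D'` is principal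
  have hmD : p • (D' : Divisor L F) ∈ Divisor.principal (K := L) (F := F) := by
    have h1 : Pic0.mk (p • D') = 0 := by
      rw [← hpy]; rfl
    have h2 := (QuotientAddGroup.eq_zero_iff _).mp h1
    rw [AddSubgroup.mem_addSubgroupOf] at h2
    simpa using h2
  obtain ⟨f, hf0, hfD⟩ := hmD
  have hdiv : ∀ P : Place L F, (p : ℤ) * (D' : Divisor L F) P = P.ord f := by
    intro P
    rw [← hfD P]
    simp
  set B : Divisor L F := p • (D' : Divisor L F) - S.D0 with hB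
  have hBann : OffAnn 𝔻 B := by
    have h1 : OffAnn 𝔻 (p • (D' : Divisor L F)) := by
      have := hann.zsmul (p : ℤ)
      rwa [natCast_zsmul] at this
    exact h1.sub S.offAnn_D0
  have hBr : Finsupp.mapDomain 𝔻.r B = -S.redDiv := by
    rw [hB, Fermat.Agent.FF.KER.Ker0.mapDomain_sub', S.mapDomain_D0]
    have h1 : Finsupp.mapDomain 𝔻.r (p • (D' : Divisor L F)) =
        p • Finsupp.mapDomain 𝔻.r (D' : Divisor L F) :=
      map_nsmul (Finsupp.mapDomain.addMonoidHom 𝔻.r) p _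
    rw [h1, hr, smul_zero, zero_sub]
  have hsB : ∀ P : Place L F, B P ≤ P.ord f := by
    intro P
    rw [hB, Finsupp.sub_apply, ← hdiv P]
    have h1 := S.D0_nonneg P
    simp only [Finsupp.coe_zero, Pi.zero_apply] at h1
    have h2 : (p • (D' : Divisor L F)) P = (p : ℤ) * (D' : Divisor L F) P := by
      rw [Finsupp.smul_apply, nsmul_eq_mul]
    rw [h2]
    omega
  obtain ⟨c, a, hc0, ha0, hca⟩ := exists_const_red S B hBann hBr hf0 hsB
  exact ⟨⟨D', f, hf0, hdiv, rfl⟩, c, a, hann, hr, hc0, ha0, hca⟩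

/-- **`τ` vanishes on `kerRed ∩ J[p]`.** -/
theorem tau_eq_zero_of_mem_kerRed [Finite ι] [Nonempty ι] (S : NSSystemN 𝔻 g) {p : ℕ}
    {y : Pic0 L F} (hy : y ∈ kerRed 𝔻) (hpy : p • y = 0) : tau 𝔻 p y = 0 := by
  obtain ⟨K, c, a, -, -, -, ha0, hca⟩ := exists_kum_const_of_mem_kerRed S hy hpy
  funext e
  rw [tau_eq 𝔻 K, slS_eq 𝔻 (hca (𝔻.src e)).1, (hca (𝔻.src e)).2, ffp_ord_algebraMap]
  simp

/-! ### divisibility of the reduced divisors on `ker τ` -/

variable (𝔻)

/-- the degree of `div f` on the annulus of `e` is divisible by `p` for a Kummer function `f`. -/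
theorem dvd_sum_supp {p : ℕ} {y : Pic0 L F} (K : Kum p y) (e : E) :
    (p : ℤ) ∣ ∑ P ∈ (𝔻.node e).supp K.f_ne, P.ord K.f := by
  refine Finset.dvd_sum fun P _ => ?_
  rw [← K.div_eq P]
  exact dvd_mul_right _ _

/-- on `ker τ` the slopes at the source branches are divisible by `p`. -/
theorem dvd_slS {p : ℕ} [NeZero p] {y : Pic0 L F} (K : Kum p y) (hτ : tau 𝔻 p y = 0) (e : E) :
    (p : ℤ) ∣ slS 𝔻 e K.f := by
  have h := congrFun hτ e
  rw [tau_eq 𝔻 K, Pi.zero_apply] at h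
  exact (ZMod.intCast_zmod_eq_zero_iff_dvd _ p).mp h

/-- on `ker τ` the slopes at the target branches are divisible by `p` (by (N1)). -/
theorem dvd_slT {p : ℕ} [NeZero p] {y : Pic0 L F} (K : Kum p y) (hτ : tau 𝔻 p y = 0) (e : E) :
    (p : ℤ) ∣ slT 𝔻 e K.f := by
  have h1 := slS_add_slT 𝔻 e K.f_ne
  have h2 := dvd_sum_supp 𝔻 K e
  have h3 := dvd_slS 𝔻 K hτ e
  have : slT 𝔻 e K.f = (∑ P ∈ (𝔻.node e).supp K.f_ne, P.ord K.f) - slS 𝔻 e K.f := by omega
  rw [this]
  exact dvd_sub h2 h3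

/-- **On `ker τ` the divisor of every normalised reduction of a Kummer function is divisible by `p`.** -/
theorem dvd_ord_nred {p : ℕ} [NeZero p] {y : Pic0 L F} (K : Kum p y) (hτ : tau 𝔻 p y = 0) {v : ι}
    {c : L} (hc : (𝔻.side v).IsNorm c K.f) (Q : Place k Ft) :
    (p : ℤ) ∣ Q.ord ((𝔻.side v).nred c K.f) := by
  by_cases hbr : 𝔻.IsBranch v Q
  · rcases hbr with ⟨e, rfl, rfl⟩ | ⟨e, rfl, rfl⟩
    · rw [← slS_eq 𝔻 hc]
      exact dvd_slS 𝔻 K hτ e
    · rw [← slT_eq 𝔻 hc]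
      exact dvd_slT 𝔻 K hτ e
  · rw [← mapDomain_divOf_of_isNorm 𝔻 K.f_ne hc hbr]
    have hD : divOf 𝔻.HL K.f_ne = (p : ℤ) • (K.D : Divisor L F) := by
      ext P
      rw [divOf_apply, Finsupp.smul_apply, smul_eq_mul, K.div_eq P]
    rw [hD]
    have h1 : Finsupp.mapDomain 𝔻.r ((p : ℤ) • (K.D : Divisor L F)) =
        (p : ℤ) • Finsupp.mapDomain 𝔻.r (K.D : Divisor L F) :=
      map_zsmul (Finsupp.mapDomain.addMonoidHom 𝔻.r) (p : ℤ) _
    rw [h1, Finsupp.smul_apply, smul_eq_mul]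
    exact dvd_mul_right _ _

end

end Fermat.Agent.MP.TAU.TauDefs3
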