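/-
PROGRAMME MP (row 38 via S44), chapter TAU (helper3): **criteria for membership in the kernel of
reduction which do NOT need a representative off the annuli.**

A class `y ∈ J[p]` with `τ(y) = 0` has, a priori, NO representative off the node annuli (that is the
vanishing of its image in the component group); what it has (chapter `GoodRep3`) is a **flat Kummer
pair**: `(D, f)`, `div f = p • D`, ONE constant `c` normalising `f` on every component and slope `0`
at every branch.  Such a `D` may meet the annuli, but only in the way the twisted NS lemma allows.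

* `annSum_eq_sum`, `annProd_eq_prod`, `annSum_sub_offAnn`, `annProd_sub_offAnn`,
  `annSum_nsmul`, `annProd_nsmul` : bookkeeping for helper3's `SemiRed.annSum`, `SemiRed.annProd`;
* `mem_kerRed_of_twisted` (K1') : the twisted NS lemma + `KerN9.exists_kap_eq_of_twisted` as a
  membership criterion: `Z` of degree `0` (annulus points allowed), a tuple `h` of nonzero functions on
  the components, units at the branches, (a) `fibSum Z = div h` at the smooth points, (b) degree `0`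
  and unit torus coordinate on every annulus, (c) branch values of `h` differ by the residue of the
  torus coordinate  ⟹  `[Z] ∈ kerRed 𝔻`;
* `Flat K c` : the Kummer pair `K` is flat with normaliser `c`;
  `Flat.annSum_eq_zero` (N1), `Flat.isU_annProd` (N2), `Flat.branch_values` (N3):
  `f̄_tgt(Qt e) = res(annProd_e D)^p · f̄_src(Qs e)`;
* `mem_kerRed_of_flat` (CRIT) : `K` flat, `A` a divisor of degree `0` off the annuli, `h` a tuple,
  units at the branches, with (a') `fibSum (D − A) = div h` at the smooth points and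
  (c') `h_tgt(Qt e)^p · f̄_src(Qs e) = h_src(Qs e)^p · f̄_tgt(Qt e)`  ⟹  `[D − A] ∈ kerRed 𝔻`
  (`char k = p`: Frobenius is injective, "the torus has no `p`-torsion").
-/
import Mathlib
import Fermat.Agent.MP.TAU.TauDefs3
import Fermat.Agent.ORD.ANN.TwistedNSAdapt2

set_option autoImplicit false
set_option linter.unusedSectionVars false
set_option linter.style.longLine false

namespace Fermat.Agent.MP.TAU.KumCrit3

open AlgebraicCurve Fermat.Agent.X0.FF Fermat.Agent.RR.LSpace Fermat.Agent.MW.EMB.Value6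
open Fermat.Agent.ORD.ANN.Side3 Fermat.Agent.ORD.ANN.Node3 Fermat.Agent.ORD.ANN.SemiRed3
open Fermat.Agent.ORD.ANN.TwistedNSAdapt2
open Fermat.Agent.ORD.SEMIRED.SemiRedDatum9 Fermat.Agent.ORD.SEMIRED.ToSemiRed9
open Fermat.Agent.ORD.REDN.DiscC9 Fermat.Agent.ORD.KERN.KerDefs9 Fermat.Agent.ORD.KERN.KerN9
open Fermat.Agent.MP.TAU.TauDefs3

noncomputable section

variable {L F k Ft : Type*} [Field L] [Field F] [Algebra L F] [Field k] [Field Ft] [Algebra k Ft]
variable {ι E : Type*} (𝔻 : SemiRedDatum L F k Ft ι E)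

/-! ### bookkeeping for `annSum` and `annProd` -/

open Classical in
/-- the annulus sum over any finite set containing the support. -/
theorem annSum_eq_sum (Z : Divisor L F) (e : E) (s : Finset (Place L F)) (hs : Z.support ⊆ s) :
    (toSemiRed 𝔻).annSum Z e = ∑ P ∈ s.filter (fun P => P ∈ (𝔻.node e).ann), Z P := by
  unfold SemiRed.annSum
  refine Finset.sum_subset (Finset.filter_subset_filter _ hs) fun P hP hnP => ?_
  rw [Finset.mem_filter] at hP hnP
  by_contra hne
  exact hnP ⟨Finsupp.mem_support_iff.mpr hne, hP.2⟩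

open Classical in
/-- the torus coordinate over any finite set containing the support. -/
theorem annProd_eq_prod (Z : Divisor L F) (e : E) (s : Finset (Place L F)) (hs : Z.support ⊆ s) :
    (toSemiRed 𝔻).annProd Z e =
      ∏ P ∈ s.filter (fun P => P ∈ (𝔻.node e).ann), (𝔻.node e).a P ^ Z P := by
  unfold SemiRed.annProd
  refine Finset.prod_subset (Finset.filter_subset_filter _ hs) fun P hP hnP => ?_
  rw [Finset.mem_filter] at hP hnP
  have h0 : Z P = 0 := by
    by_contra hne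
    exact hnP ⟨Finsupp.mem_support_iff.mpr hne, hP.2⟩
  rw [h0, zpow_zero]

theorem mem_ann_iff {e : E} {P : Place L F} : P ∈ (𝔻.node e).ann ↔ 𝔻.r P = Sum.inr e :=
  𝔻.r_ann e P

open Classical in
/-- subtracting a divisor off the annuli does not change the annulus sums. -/
theorem annSum_sub_offAnn (Z A : Divisor L F) (hA : OffAnn 𝔻 A) (e : E) :
    (toSemiRed 𝔻).annSum (Z - A) e = (toSemiRed 𝔻).annSum Z e := by
  rw [annSum_eq_sum 𝔻 (Z - A) e (Z.support ∪ A.support) (by
      intro P hP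
      rw [Finsupp.mem_support_iff, Finsupp.sub_apply] at hP
      rw [Finset.mem_union, Finsupp.mem_support_iff, Finsupp.mem_support_iff]
      by_contra hcon
      push Not at hcon
      rw [hcon.1, hcon.2, sub_zero] at hP
      exact hP rfl),
    annSum_eq_sum 𝔻 Z e (Z.support ∪ A.support) Finset.subset_union_left]
  refine Finset.sum_congr rfl fun P hP => ?_
  rw [Finset.mem_filter] at hP
  rw [Finsupp.sub_apply, hA P e ((mem_ann_iff 𝔻).mp hP.2), sub_zero]

open Classical in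
/-- subtracting a divisor off the annuli does not change the torus coordinates. -/
theorem annProd_sub_offAnn (Z A : Divisor L F) (hA : OffAnn 𝔻 A) (e : E) :
    (toSemiRed 𝔻).annProd (Z - A) e = (toSemiRed 𝔻).annProd Z e := by
  rw [annProd_eq_prod 𝔻 (Z - A) e (Z.support ∪ A.support) (by
      intro P hP
      rw [Finsupp.mem_support_iff, Finsupp.sub_apply] at hP
      rw [Finset.mem_union, Finsupp.mem_support_iff, Finsupp.mem_support_iff]
      by_contra hcon
      push Not at hcon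
      rw [hcon.1, hcon.2, sub_zero] at hP
      exact hP rfl),
    annProd_eq_prod 𝔻 Z e (Z.support ∪ A.support) Finset.subset_union_left]
  refine Finset.prod_congr rfl fun P hP => ?_
  rw [Finset.mem_filter] at hP
  rw [Finsupp.sub_apply, hA P e ((mem_ann_iff 𝔻).mp hP.2), sub_zero]

open Classical in
theorem annSum_zsmul (Z : Divisor L F) (n : ℤ) (e : E) :
    (toSemiRed 𝔻).annSum (n • Z) e = n * (toSemiRed 𝔻).annSum Z e := by
  rw [annSum_eq_sum 𝔻 (n • Z) e Z.support Finsupp.support_smul, annSum_eq_sum 𝔻 Z e Z.support le_rfl,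
    Finset.mul_sum]
  refine Finset.sum_congr rfl fun P _ => ?_
  rw [Finsupp.smul_apply, smul_eq_mul]

open Classical in
theorem annProd_zsmul (Z : Divisor L F) (n : ℤ) (e : E) :
    (toSemiRed 𝔻).annProd (n • Z) e = (toSemiRed 𝔻).annProd Z e ^ n := by
  rw [annProd_eq_prod 𝔻 (n • Z) e Z.support Finsupp.support_smul,
    annProd_eq_prod 𝔻 Z e Z.support le_rfl, ← Finset.prod_zpow]
  refine Finset.prod_congr rfl fun P _ => ?_
  rw [Finsupp.smul_apply, smul_eq_mul, mul_comm, zpow_mul]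

open Classical in
/-- the annulus sum of `div f`. -/
theorem annSum_divOf {f : F} (hf : f ≠ 0) (e : E) :
    (toSemiRed 𝔻).annSum (divOf 𝔻.HL hf) e = ∑ P ∈ (𝔻.node e).supp hf, P.ord f := by
  unfold SemiRed.annSum NodeChart.supp
  refine Finset.sum_congr rfl fun P _ => ?_
  rw [divOf_apply]

open Classical in
/-- the torus coordinate of `div f`. -/
theorem annProd_divOf {f : F} (hf : f ≠ 0) (e : E) :
    (toSemiRed 𝔻).annProd (divOf 𝔻.HL hf) e =
      ∏ P ∈ (𝔻.node e).supp hf, (𝔻.node e).a P ^ P.ord f := by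
  unfold SemiRed.annProd NodeChart.supp
  refine Finset.prod_congr rfl fun P _ => ?_
  rw [divOf_apply]
  rfl

/-! ### (K1') the twisted criterion -/

variable {𝔻} {g : ℕ}

/-- **(K1') the twisted NS lemma as a membership criterion** — annulus points allowed. -/
theorem mem_kerRed_of_twisted [Finite ι] [Nonempty ι] (S : NSSystemN 𝔻 g)
    (hRR : ∀ E' : Divisor L F, Divisor.degree E' = g → ∃ f : F, f ≠ 0 ∧ ∀ P, -(E' P) ≤ P.ord f)
    (Z : Divisor.degZero (K := L) (F := F)) (h : ι → Ft) (hh0 : ∀ v, h v ≠ 0)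
    (hbs : ∀ e, (𝔻.Qs e).ord (h (𝔻.src e)) = 0) (hbt : ∀ e, (𝔻.Qt e).ord (h (𝔻.tgt e)) = 0)
    (ha : ∀ v Q, 𝔻.IsSm v Q →
      Finsupp.mapDomain 𝔻.r (Z : Divisor L F) (Sum.inl (v, Q)) = Q.ord (h v))
    (hb1 : ∀ e, (toSemiRed 𝔻).annSum (Z : Divisor L F) e = 0)
    (hb2 : ∀ e, 𝔻.B.IsU ((toSemiRed 𝔻).annProd (Z : Divisor L F) e))
    (hc : ∀ e, valF 𝔻.Hk (𝔻.Qt e) (h (𝔻.tgt e)) =
      𝔻.B.resL ((toSemiRed 𝔻).annProd (Z : Divisor L F) e) * valF 𝔻.Hk (𝔻.Qs e) (h (𝔻.src e))) :
    Pic0.mk Z ∈ kerRed 𝔻 := by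
  have hRR' : ∀ D : Divisor L F, Divisor.degree D = Divisor.degree S.D0 →
      ∃ (φ : F) (hφ : φ ≠ 0), 0 ≤ D + divOf 𝔻.HL hφ := by
    intro D hD
    rw [S.degree_D0] at hD
    obtain ⟨f, hf, hfD⟩ := hRR D hD
    refine ⟨f, hf, fun P => ?_⟩
    rw [Finsupp.add_apply, divOf_apply]
    have := hfD P
    simp only [Finsupp.coe_zero, Pi.zero_apply]
    omega
  obtain ⟨φ, hφ, hE0, hEsm, hEfib⟩ := twistedNS (toSemiRed 𝔻) S.D0 S.D0_nonneg
    (fun P hP => S.smooth_of_D0_ne_zero hP) S.nonSpecial_D0 hRR' (Z : Divisor L F)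
    (Divisor.mem_degZero.mp Z.2) h hh0 hbs hbt
    (fun v Q hQ => by
      rw [toSemiRed_fibSum]
      exact ha v Q ((toSemiRed_nonBranch_iff 𝔻).mp hQ))
    hb1 hb2 hc
  obtain ⟨T, hT⟩ := exists_kap_eq_of_twisted S Z hφ hE0 hEsm hEfib
  rw [← hT]
  exact kap_mem_kerRed S T

/-! ### flat Kummer pairs -/

/-- the residue of a power of an element of `A`. -/
theorem resL_pow {B : Base L k} {z : L} (hz : B.IsU z) (n : ℕ) : B.resL (z ^ n) = B.resL z ^ n := by
  induction n with
  | zero => rw [pow_zero, pow_zero, B.resL_one]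
  | succ n ih => rw [pow_succ, pow_succ, B.resL_mul (B.A.pow_mem hz.mem n) hz.mem, ih]

/-- the Kummer pair `K` is **flat** with normaliser `c` : `c` normalises `K.f` on every component and
all the slopes of `K.f` vanish. -/
structure Flat (𝔻 : SemiRedDatum L F k Ft ι E) {p : ℕ} {y : Pic0 L F} (K : Kum p y) (c : L) : Prop where
  isNorm : ∀ v, (𝔻.side v).IsNorm c K.f
  slS : ∀ e, (𝔻.Qs e).ord ((𝔻.side (𝔻.src e)).nred c K.f) = 0
  slT : ∀ e, (𝔻.Qt e).ord ((𝔻.side (𝔻.tgt e)).nred c K.f) = 0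

namespace Flat

variable {p : ℕ} {y : Pic0 L F} {K : Kum p y} {c : L}

theorem divOf_eq (𝔻 : SemiRedDatum L F k Ft ι E) (K : Kum p y) :
    divOf 𝔻.HL K.f_ne = (p : ℤ) • (K.D : Divisor L F) := by
  ext P
  rw [divOf_apply, Finsupp.smul_apply, smul_eq_mul, K.div_eq P]

/-- (N1): a flat Kummer divisor has degree `0` on every annulus. -/
theorem annSum_eq_zero [NeZero p] (hK : Flat 𝔻 K c) (e : E) :
    (toSemiRed 𝔻).annSum (K.D : Divisor L F) e = 0 := by
  have h1 := (𝔻.node e).slope_add K.f_ne (hK.isNorm (𝔻.src e)) (hK.isNorm (𝔻.tgt e))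
  rw [hK.slS e, hK.slT e, add_zero, ← annSum_divOf 𝔻 K.f_ne e, divOf_eq 𝔻 K, annSum_zsmul] at h1
  have hp : (p : ℤ) ≠ 0 := by exact_mod_cast NeZero.ne p
  rcases mul_eq_zero.mp h1.symm with h | h
  · exact absurd h hp
  · exact h

/-- the torus coordinate of `div f` for a flat Kummer pair is the `p`-th power of that of `D`. -/
theorem annProd_pow (𝔻 : SemiRedDatum L F k Ft ι E) (K : Kum p y) (e : E) :
    ∏ P ∈ (𝔻.node e).supp K.f_ne, (𝔻.node e).a P ^ P.ord K.f =
      (toSemiRed 𝔻).annProd (K.D : Divisor L F) e ^ p := by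
  rw [← annProd_divOf 𝔻 K.f_ne e, divOf_eq 𝔻 K, annProd_zsmul, zpow_natCast]

/-- (N2): the torus coordinates of a flat Kummer divisor are units. -/
theorem isU_annProd [NeZero p] (hK : Flat 𝔻 K c) (e : E) :
    𝔻.B.IsU ((toSemiRed 𝔻).annProd (K.D : Divisor L F) e) := by
  have h3 := ((𝔻.node e).lead_jump K.f_ne (hK.isNorm (𝔻.src e)) (hK.isNorm (𝔻.tgt e))
    (hK.slS e) (hK.slT e)).1
  have hc0 : c ≠ 0 := (hK.isNorm (𝔻.src e)).c_ne_zero
  rw [div_self hc0, one_mul, annProd_pow 𝔻 K e] at h3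
  -- `|z| ^ p = 1` implies `|z| = 1`
  unfold Base.IsU at h3 ⊢
  rw [map_pow] at h3
  exact (pow_eq_one_iff_of_nonneg zero_le (NeZero.ne p)).mp h3

/-- (N3): the branch values of the reductions of a flat Kummer function. -/
theorem branch_values [NeZero p] (hK : Flat 𝔻 K c) (e : E) :
    valF 𝔻.Hk (𝔻.Qt e) ((𝔻.side (𝔻.tgt e)).nred c K.f) =
      𝔻.B.resL ((toSemiRed 𝔻).annProd (K.D : Divisor L F) e) ^ p *
        valF 𝔻.Hk (𝔻.Qs e) ((𝔻.side (𝔻.src e)).nred c K.f) := by
  have h3 := ((𝔻.node e).lead_jump K.f_ne (hK.isNorm (𝔻.src e)) (hK.isNorm (𝔻.tgt e))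
    (hK.slS e) (hK.slT e)).2
  have hc0 : c ≠ 0 := (hK.isNorm (𝔻.src e)).c_ne_zero
  rw [div_self hc0, one_mul, annProd_pow 𝔻 K e] at h3
  rw [h3]
  congr 1
  exact resL_pow (hK.isU_annProd e) p

end Flat

/-! ### (CRIT) -/

/-- **(CRIT)**: a flat Kummer divisor minus a divisor off the annuli lies in the kernel of reduction as
soon as its smooth part reduces to the divisor of a tuple `h`, units at the branches, whose branch values
satisfy the `p`-th power relation (c') with the branch values of the Kummer function. -/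
theorem mem_kerRed_of_flat [Finite ι] [Nonempty ι] (S : NSSystemN 𝔻 g)
    (hRR : ∀ E' : Divisor L F, Divisor.degree E' = g → ∃ f : F, f ≠ 0 ∧ ∀ P, -(E' P) ≤ P.ord f)
    {p : ℕ} [Fact p.Prime] [CharP k p] {y : Pic0 L F} {K : Kum p y} {c : L} (hK : Flat 𝔻 K c)
    (A : Divisor.degZero (K := L) (F := F)) (hA : OffAnn 𝔻 (A : Divisor L F))
    (h : ι → Ft) (hh0 : ∀ v, h v ≠ 0)
    (hbs : ∀ e, (𝔻.Qs e).ord (h (𝔻.src e)) = 0) (hbt : ∀ e, (𝔻.Qt e).ord (h (𝔻.tgt e)) = 0)
    (ha : ∀ v Q, 𝔻.IsSm v Q →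
      Finsupp.mapDomain 𝔻.r ((K.D : Divisor L F) - (A : Divisor L F)) (Sum.inl (v, Q)) =
        Q.ord (h v))
    (hc : ∀ e, valF 𝔻.Hk (𝔻.Qt e) (h (𝔻.tgt e)) ^ p *
        valF 𝔻.Hk (𝔻.Qs e) ((𝔻.side (𝔻.src e)).nred c K.f) =
      valF 𝔻.Hk (𝔻.Qs e) (h (𝔻.src e)) ^ p *
        valF 𝔻.Hk (𝔻.Qt e) ((𝔻.side (𝔻.tgt e)).nred c K.f)) :
    Pic0.mk (K.D - A) ∈ kerRed 𝔻 := by
  have hp0 : NeZero p := ⟨(Fact.out : p.Prime).ne_zero⟩
  have hcoe : ((K.D - A : Divisor.degZero (K := L) (F := F)) : Divisor L F) =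
      (K.D : Divisor L F) - (A : Divisor L F) := rfl
  refine mem_kerRed_of_twisted S hRR (K.D - A) h hh0 hbs hbt
    (fun v Q hQ => by rw [hcoe]; exact ha v Q hQ)
    (fun e => by rw [hcoe, annSum_sub_offAnn 𝔻 _ _ hA]; exact hK.annSum_eq_zero e)
    (fun e => by rw [hcoe, annProd_sub_offAnn 𝔻 _ _ hA]; exact hK.isU_annProd e)
    (fun e => ?_)
  rw [hcoe, annProd_sub_offAnn 𝔻 _ _ hA]
  set z := 𝔻.B.resL ((toSemiRed 𝔻).annProd (K.D : Divisor L F) e) with hz
  have h1 := hK.branch_values e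
  rw [← hz] at h1
  have h2 := hc e
  rw [h1] at h2
  -- the source branch value of the Kummer function is nonzero
  have hs0 : valF 𝔻.Hk (𝔻.Qs e) ((𝔻.side (𝔻.src e)).nred c K.f) ≠ 0 :=
    valF_ne_zero_of_ord_eq_zero 𝔻.Hk _ (hK.isNorm (𝔻.src e)).nred_ne_zero (hK.slS e)
  have h3 : valF 𝔻.Hk (𝔻.Qt e) (h (𝔻.tgt e)) ^ p =
      (z * valF 𝔻.Hk (𝔻.Qs e) (h (𝔻.src e))) ^ p := by
    apply mul_right_cancel₀ hs0
    rw [h2, mul_pow]
    ring
  exact frobenius_inj k p h3

end

end Fermat.Agent.MP.TAU.KumCrit3
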