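/-
PROGRAMME MP (row 38 via S44), chapter TAU (helper9): **the specialisation maps of a semistable model
and of a good two-chart model are compatible along a covering** (abstract form).

Good level: `F0 / ℚ̄` with a two-chart model `T : TwoCharts A hx0 Ft0` (`ES/RED/TwoCharts8`), reduction
map `T.r`.  Bad level: a component `S` (Gauss ring `G`, reduction `red : G → Ft`) of a model of `F / ℚ̄`
and a *branch* `(C, χ, Q')` on it (`PtsDict3.IsBranch`: a local ring of the model, its residue map and the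
corresponding place of `Ft`).  `φ : F0 →ₐ F` a finite covering which maps a chart ring `S'.B` of the good
model into `C`, with `red (φ b) = bar (S'.red b)`, and `ψQ` a place of `Ft0` "under `Q'` along `bar`"
(`f ∈ O_{ψQ} ↔ bar f ∈ O_{Q'}`, `(bar f)(Q') = f(ψQ)`).

* `valueHom_eq_valF`, `valF_restrictAlong` : bridges between the value maps of `ES/RED` and `MW/EMB`, and
  the value of a pulled-back function at a place over `P`;
* `red_mem_ψ`, `valF_ψ` : `S'.red b ∈ O_{ψQ}` with value `χ (φ b)`;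
* `inChart_restrict`, `chi_restrict` : a place `P'` of the disc of `C` restricts to a place of the chart
  `S'` with centre `b ↦ χ (φ b)`;
* **`r_restrict_eq0`, `r_restrict_eq1`** : `T.r (P'|F0) = ψQ`;
* **`ψ_eq_of_branches0`, `ψ_eq_of_branches1`** : two branches of the SAME closed point (a node) lie over
  the same point of the good fibre.
-/
import Mathlib
import Fermat.Agent.ORD.IFACEN.PtsDict3
import Fermat.Agent.ORD.IFACEN.DiscPlaces8
import Fermat.Agent.ES.RED.TwoCharts8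
import Fermat.Prelude.Def_AlgebraicCurve_Correspondence

set_option autoImplicit false
set_option linter.unusedSectionVars false
set_option linter.style.longLine false

namespace Fermat.Agent.MP.TAU.ChartComp9

open AlgebraicCurve Fermat.Agent.X0.FF Fermat.Agent.RR.LSpace Fermat.Agent.MW.EMB.Value6
open Fermat.Agent.ES.RED.PlaceValue13 Fermat.Agent.ES.RED.Contract8 Fermat.Agent.ES.RED.TwoCharts8
open Fermat.Agent.ORD.IFACEN.PtsDict3 Fermat.Agent.ORD.IFACEN.DiscSys8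
  Fermat.Agent.ORD.IFACEN.DiscPlaces8

noncomputable section

/-! ### bridges -/

section Bridge

variable {K F : Type*} [Field K] [IsAlgClosed K] [Field F] [Algebra K F]

/-- the value map of `ES/RED/PlaceValue13` is the value map of `MW/EMB/Value6`. -/
theorem valueHom_eq_valF {x : F} (hx : IsGen K x) (H : LHyp K F) (v : Place K F)
    (f : v.toValuationSubring) : valueHom hx v f = valF H v (f : F) :=
  (valF_unique H v f.2 _ ((valueHom_eq_iff hx v f _).mp rfl)).symm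

end Bridge

theorem pos_of_natCast_mul_pos {e : ℕ} {m : ℤ} (h : 0 < (e : ℤ) * m) : 0 < m := by
  have he : (0 : ℤ) ≤ e := Nat.cast_nonneg e
  by_contra hm
  have : (e : ℤ) * m ≤ 0 := mul_nonpos_of_nonneg_of_nonpos he (not_lt.mp hm)
  omega

section Restrict

variable {L F0 F : Type*} [Field L] [Field F0] [Field F] [Algebra L F0] [Algebra L F]
  (φ : F0 →ₐ[L] F) (hφ : φ.toRingHom.IsIntegral)

theorem mem_restrictAlong_iff (P' : Place L F) (f : F0) :
    f ∈ (P'.restrictAlong φ hφ).toValuationSubring ↔ φ f ∈ P'.toValuationSubring := Iff.rfl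

/-- the value of `f` at the place under `P'` is the value of `φ f` at `P'`. -/
theorem valF_restrictAlong (HL0 : LHyp L F0) (HL : LHyp L F) (P' : Place L F) {f : F0}
    (hf : φ f ∈ P'.toValuationSubring) :
    valF HL0 (P'.restrictAlong φ hφ) f = valF HL P' (φ f) := by
  set c := valF HL P' (φ f) with hc
  apply valF_unique HL0 _ ((mem_restrictAlong_iff φ hφ P' f).mpr hf) c
  by_cases hne : f = algebraMap L F0 c
  · exact Or.inl hne
  · right
    have hne' : φ f ≠ algebraMap L F (valF HL P' (φ f)) := by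
      intro h
      apply hne
      apply φ.toRingHom.injective
      show φ f = φ (algebraMap L F0 c)
      rw [φ.commutes, h]
    have h1 := ord_sub_valF_pos HL P' hf hne'
    have h2 := Place.ord_restrictAlong φ hφ P' (f - algebraMap L F0 c)
    rw [map_sub, φ.commutes] at h2
    rw [h2] at h1
    exact pos_of_natCast_mul_pos h1

end Restrict

/-! ### the setting -/

variable {L : Type*} [Field L] [IsAlgClosed L] {A : ValuationSubring L}
variable {F0 : Type*} [Field F0] [Algebra L F0] {x0 : F0} {hx0 : IsGen L x0}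
variable {Ft0 : Type*} [Field Ft0] [Algebra (kA A) Ft0]
variable {F : Type*} [Field F] [Algebra L F] {Ft : Type*} [Field Ft] [Algebra (kA A) Ft]

section Key

variable (S' : ChartSpec A hx0 Ft0) {G : Subring F} {red : G →+* Ft} {C : Subring F}
  {χ : C →+* kA A} {Q' : Place (kA A) Ft} (hbr : IsBranch A (resA A) G red C χ Q')
  (Hk : LHyp (kA A) Ft) (Hk0 : LHyp (kA A) Ft0)
  (φ : F0 →ₐ[L] F) (bar : Ft0 →+* Ft) (ψQ : Place (kA A) Ft0)
  (hmem : ∀ f : Ft0, f ∈ ψQ.toValuationSubring ↔ bar f ∈ Q'.toValuationSubring)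
  (hval : ∀ f : Ft0, f ∈ ψQ.toValuationSubring → valF Hk Q' (bar f) = valF Hk0 ψQ f)
  (hmap : ∀ b ∈ S'.B, φ b ∈ C)
  (hred : ∀ (b : F0) (hb : b ∈ S'.B), red ⟨φ b, hbr.le_G _ (hmap b hb)⟩ = bar (S'.red ⟨b, hb⟩))

include hbr hmem hred in
/-- the reduction of the chart ring is regular at `ψQ`. -/
theorem red_mem_ψ (b : ↥S'.B) : S'.red b ∈ ψQ.toValuationSubring := by
  rw [hmem, ← hred (b : F0) b.2]
  exact hbr.red_mem (hmap _ b.2)

include hbr hmem hval hred in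
/-- … with value the residue of `φ b` at the closed point. -/
theorem valF_ψ (b : ↥S'.B) : valF Hk0 ψQ (S'.red b) = χ ⟨φ (b : F0), hmap _ b.2⟩ := by
  rw [← hval _ (red_mem_ψ S' hbr φ bar ψQ hmem hmap hred b), ← hred (b : F0) b.2]
  exact hbr.valF_red Hk (hmap _ b.2)

end Key

/-! ### places of the disc -/

section Disc

variable (S' : ChartSpec A hx0 Ft0) {C : Subring F} {redC : C →+* Ft} {χ : C →+* kA A}
  {Q' : Place (kA A) Ft} (hsys : DiscSys A (resA A) C redC χ Q')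
  (HL : LHyp L F) (HL0 : LHyp L F0)
  (φ : F0 →ₐ[L] F) (hφ : φ.toRingHom.IsIntegral)
  (hmap : ∀ b ∈ S'.B, φ b ∈ C) {P' : Place L F} (hP' : InDisc C P')

include hsys HL HL0 hmap hP' in
/-- the place under a place of the disc lies in the chart. -/
theorem inChart_restrict : S'.InChart (P'.restrictAlong φ hφ) := by
  have hs : φ S'.s ∈ P'.toValuationSubring := hP' _ (hmap _ S'.s_mem)
  refine ⟨(mem_restrictAlong_iff φ hφ P' S'.s).mpr hs, ?_⟩
  rw [valueHom_eq_valF hx0 HL0, valF_restrictAlong φ hφ HL0 HL P' hs]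
  have h1 := valL_mem hsys HL hP' ⟨φ S'.s, hmap _ S'.s_mem⟩
  have h2 : valL HL hP' ⟨φ S'.s, hmap _ S'.s_mem⟩ = valF HL P' (φ S'.s) :=
    (valF_of_mem HL P' hs).symm
  rwa [h2] at h1

include hsys HL HL0 hmap hP' in
/-- the centre of the place under a place of the disc. -/
theorem chi_restrict (hP : S'.InChart (P'.restrictAlong φ hφ)) (b : ↥S'.B) :
    S'.chi (P'.restrictAlong φ hφ) hP b = χ ⟨φ (b : F0), hmap _ b.2⟩ := by
  have hb : φ (b : F0) ∈ P'.toValuationSubring := hP' _ (hmap _ b.2)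
  rw [ChartSpec.chi_apply, ← res_valA hsys HL hP' ⟨φ (b : F0), hmap _ b.2⟩]
  congr 1
  apply Subtype.ext
  rw [ChartSpec.coe_ev, valueHom_eq_valF hx0 HL0, coe_valA]
  show valF HL0 (P'.restrictAlong φ hφ) (b : F0) = _
  rw [valF_restrictAlong φ hφ HL0 HL P' hb]
  exact valF_of_mem HL P' hb

end Disc

/-! ### the specialisation maps are compatible -/

section Main

variable [IsAlgClosed (kA A)] (T : TwoCharts A hx0 Ft0) {xt0 : Ft0} (hxt0 : IsGen (kA A) xt0)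
  {G : Subring F} {red : G →+* Ft} {C : Subring F} (hle : C ≤ G)
  {χ : C →+* kA A} {Q' : Place (kA A) Ft}
  (hsys : DiscSys A (resA A) C (red.comp (Subring.inclusion hle)) χ Q')
  (HL : LHyp L F) (HL0 : LHyp L F0) (Hk : LHyp (kA A) Ft) (Hk0 : LHyp (kA A) Ft0)
  (φ : F0 →ₐ[L] F) (hφ : φ.toRingHom.IsIntegral) (bar : Ft0 →+* Ft) (ψQ : Place (kA A) Ft0)
  (hmem : ∀ f : Ft0, f ∈ ψQ.toValuationSubring ↔ bar f ∈ Q'.toValuationSubring)
  (hval : ∀ f : Ft0, f ∈ ψQ.toValuationSubring → valF Hk Q' (bar f) = valF Hk0 ψQ f)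
  {P' : Place L F} (hP' : InDisc C P')

include hxt0 hsys HL HL0 Hk Hk0 hmem hval hP' in
/-- **`T.r (P'|F0) = ψQ`**, chart `0`. -/
theorem r_restrict_eq0 (hmap : ∀ b ∈ T.S0.B, φ b ∈ C)
    (hred : ∀ (b : F0) (hb : b ∈ T.S0.B),
      red ⟨φ b, hle (hmap b hb)⟩ = bar (T.S0.red ⟨b, hb⟩)) :
    T.r (P'.restrictAlong φ hφ) = ψQ := by
  have hbr : IsBranch A (resA A) G red C χ Q' := IsBranch.of_discSys' hle hsys
  have hP := inChart_restrict T.S0 hsys HL HL0 φ hφ hmap hP'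
  rw [T.r_eq0 _ hP]
  symm
  refine eq_rAt hxt0 T.places0 T.tr0 _ hP ψQ
    (fun b => red_mem_ψ T.S0 hbr φ bar ψQ hmem hmap hred b) (fun b => ?_)
  rw [valueHom_eq_valF hxt0 Hk0, chi_restrict T.S0 hsys HL HL0 φ hφ hmap hP' hP b]
  exact valF_ψ T.S0 hbr Hk Hk0 φ bar ψQ hmem hval hmap hred b

include hxt0 hsys HL HL0 Hk Hk0 hmem hval hP' in
/-- **`T.r (P'|F0) = ψQ`**, chart `1`. -/
theorem r_restrict_eq1 (hmap : ∀ b ∈ T.S1.B, φ b ∈ C)
    (hred : ∀ (b : F0) (hb : b ∈ T.S1.B),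
      red ⟨φ b, hle (hmap b hb)⟩ = bar (T.S1.red ⟨b, hb⟩)) :
    T.r (P'.restrictAlong φ hφ) = ψQ := by
  have hbr : IsBranch A (resA A) G red C χ Q' := IsBranch.of_discSys' hle hsys
  have hP := inChart_restrict T.S1 hsys HL HL0 φ hφ hmap hP'
  rw [T.r_eq1 hxt0 _ hP]
  symm
  refine eq_rAt hxt0 T.places1 T.tr1 _ hP ψQ
    (fun b => red_mem_ψ T.S1 hbr φ bar ψQ hmem hmap hred b) (fun b => ?_)
  rw [valueHom_eq_valF hxt0 Hk0, chi_restrict T.S1 hsys HL HL0 φ hφ hmap hP' hP b]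
  exact valF_ψ T.S1 hbr Hk Hk0 φ bar ψQ hmem hval hmap hred b

end Main

/-! ### uniqueness of a place with given values on a chart -/

section Uniq

variable [IsAlgClosed (kA A)] (T : TwoCharts A hx0 Ft0) {xt0 : Ft0} (hxt0 : IsGen (kA A) xt0)
  (Hk0 : LHyp (kA A) Ft0) (hsurj : Function.Surjective T.r)

include hxt0 Hk0 hsurj in
/-- two places of the good fibre at which the reduction of the chart ring `B0` is regular with the
same values are equal. -/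
theorem place_eq_of_values0 (Qa Qb : Place (kA A) Ft0)
    (ha : ∀ b : ↥T.S0.B, T.S0.red b ∈ Qa.toValuationSubring)
    (hb : ∀ b : ↥T.S0.B, T.S0.red b ∈ Qb.toValuationSubring)
    (hab : ∀ b : ↥T.S0.B, valF Hk0 Qa (T.S0.red b) = valF Hk0 Qb (T.S0.red b)) : Qa = Qb := by
  obtain ⟨P0, hP0⟩ := hsurj Qa
  by_cases h0 : T.S0.InChart P0
  · have hQa : Qa = rAt T.places0 T.tr0 P0 h0 := by rw [← hP0, T.r_eq0 P0 h0]
    have hva : ∀ b : ↥T.S0.B, valF Hk0 Qa (T.S0.red b) = T.S0.chi P0 h0 b := by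
      intro b
      rw [← valueHom_eq_valF hxt0 Hk0 Qa ⟨T.S0.red b, ha b⟩]
      subst hQa
      exact valueHom_rAt hxt0 T.places0 T.tr0 P0 h0 b
    rw [hQa]
    symm
    refine eq_rAt hxt0 T.places0 T.tr0 P0 h0 Qb hb (fun b => ?_)
    rw [valueHom_eq_valF hxt0 Hk0, ← hab b, hva b]
  · exfalso
    have h1 : T.S1.InChart P0 := (T.inChart_or P0).resolve_left h0
    have hQa : Qa = rAt T.places1 T.tr1 P0 h1 := by rw [← hP0, T.r_eq1 hxt0 P0 h1]
    have hχ := T.chi1_s_eq_zero P0 h0 h1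
    have hm1 : T.S1.red T.S1.sB ∈ Qa.toValuationSubring := by
      rw [hQa]; exact red_mem_rAt T.places1 T.tr1 P0 h1 _
    have hv1 : valF Hk0 Qa (T.S1.red T.S1.sB) = 0 := by
      rw [← valueHom_eq_valF hxt0 Hk0 Qa ⟨_, hm1⟩, ← hχ]
      subst hQa
      exact valueHom_rAt hxt0 T.places1 T.tr1 P0 h1 _
    have hmul := valF_mul Hk0 Qa (ha T.S0.sB) hm1
    rw [T.red_s_mul, valF_one, hv1, mul_zero] at hmul
    exact one_ne_zero hmul

include hxt0 Hk0 hsurj in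
/-- the same for the chart ring `B1`. -/
theorem place_eq_of_values1 (Qa Qb : Place (kA A) Ft0)
    (ha : ∀ b : ↥T.S1.B, T.S1.red b ∈ Qa.toValuationSubring)
    (hb : ∀ b : ↥T.S1.B, T.S1.red b ∈ Qb.toValuationSubring)
    (hab : ∀ b : ↥T.S1.B, valF Hk0 Qa (T.S1.red b) = valF Hk0 Qb (T.S1.red b)) : Qa = Qb := by
  obtain ⟨P0, hP0⟩ := hsurj Qa
  by_cases h1 : T.S1.InChart P0
  · have hQa : Qa = rAt T.places1 T.tr1 P0 h1 := by rw [← hP0, T.r_eq1 hxt0 P0 h1]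
    have hva : ∀ b : ↥T.S1.B, valF Hk0 Qa (T.S1.red b) = T.S1.chi P0 h1 b := by
      intro b
      rw [← valueHom_eq_valF hxt0 Hk0 Qa ⟨T.S1.red b, ha b⟩]
      subst hQa
      exact valueHom_rAt hxt0 T.places1 T.tr1 P0 h1 b
    rw [hQa]
    symm
    refine eq_rAt hxt0 T.places1 T.tr1 P0 h1 Qb hb (fun b => ?_)
    rw [valueHom_eq_valF hxt0 Hk0, ← hab b, hva b]
  · exfalso
    have h0 : T.S0.InChart P0 := (T.inChart_or P0).resolve_right h1
    have hQa : Qa = rAt T.places0 T.tr0 P0 h0 := by rw [← hP0, T.r_eq0 P0 h0]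
    have hχ := T.chi0_s_eq_zero P0 h0 h1
    have hm0 : T.S0.red T.S0.sB ∈ Qa.toValuationSubring := by
      rw [hQa]; exact red_mem_rAt T.places0 T.tr0 P0 h0 _
    have hv0 : valF Hk0 Qa (T.S0.red T.S0.sB) = 0 := by
      rw [← valueHom_eq_valF hxt0 Hk0 Qa ⟨_, hm0⟩, ← hχ]
      subst hQa
      exact valueHom_rAt hxt0 T.places0 T.tr0 P0 h0 _
    have hmul := valF_mul Hk0 Qa hm0 (ha T.S1.sB)
    rw [T.red_s_mul, valF_one, hv0, zero_mul] at hmul
    exact one_ne_zero hmul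

end Uniq

/-! ### two branches of one closed point -/

section Node

variable [IsAlgClosed (kA A)] (T : TwoCharts A hx0 Ft0) {xt0 : Ft0} (hxt0 : IsGen (kA A) xt0)
  (Hk0 : LHyp (kA A) Ft0) (hsurj : Function.Surjective T.r)
  {G₁ G₂ : Subring F} {red₁ : G₁ →+* Ft} {red₂ : G₂ →+* Ft} {C : Subring F} {χ : C →+* kA A}
  {Q₁ Q₂ : Place (kA A) Ft}
  (hbr₁ : IsBranch A (resA A) G₁ red₁ C χ Q₁) (hbr₂ : IsBranch A (resA A) G₂ red₂ C χ Q₂)
  (Hk : LHyp (kA A) Ft) (φ : F0 →ₐ[L] F)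
  (bar₁ bar₂ : Ft0 →+* Ft) (ψ₁ ψ₂ : Place (kA A) Ft0)
  (hmem₁ : ∀ f : Ft0, f ∈ ψ₁.toValuationSubring ↔ bar₁ f ∈ Q₁.toValuationSubring)
  (hval₁ : ∀ f : Ft0, f ∈ ψ₁.toValuationSubring → valF Hk Q₁ (bar₁ f) = valF Hk0 ψ₁ f)
  (hmem₂ : ∀ f : Ft0, f ∈ ψ₂.toValuationSubring ↔ bar₂ f ∈ Q₂.toValuationSubring)
  (hval₂ : ∀ f : Ft0, f ∈ ψ₂.toValuationSubring → valF Hk Q₂ (bar₂ f) = valF Hk0 ψ₂ f)

include hxt0 Hk0 hsurj hbr₁ hbr₂ Hk hmem₁ hval₁ hmem₂ hval₂ in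
/-- **the two branches of a node lie over the same point of the good fibre**, chart `0`. -/
theorem ψ_eq_of_branches0 (hmap : ∀ b ∈ T.S0.B, φ b ∈ C)
    (hred₁ : ∀ (b : F0) (hb : b ∈ T.S0.B),
      red₁ ⟨φ b, hbr₁.le_G _ (hmap b hb)⟩ = bar₁ (T.S0.red ⟨b, hb⟩))
    (hred₂ : ∀ (b : F0) (hb : b ∈ T.S0.B),
      red₂ ⟨φ b, hbr₂.le_G _ (hmap b hb)⟩ = bar₂ (T.S0.red ⟨b, hb⟩)) : ψ₁ = ψ₂ := by
  refine place_eq_of_values0 T hxt0 Hk0 hsurj ψ₁ ψ₂
    (fun b => red_mem_ψ T.S0 hbr₁ φ bar₁ ψ₁ hmem₁ hmap hred₁ b)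
    (fun b => red_mem_ψ T.S0 hbr₂ φ bar₂ ψ₂ hmem₂ hmap hred₂ b) (fun b => ?_)
  rw [valF_ψ T.S0 hbr₁ Hk Hk0 φ bar₁ ψ₁ hmem₁ hval₁ hmap hred₁ b,
    valF_ψ T.S0 hbr₂ Hk Hk0 φ bar₂ ψ₂ hmem₂ hval₂ hmap hred₂ b]

include hxt0 Hk0 hsurj hbr₁ hbr₂ Hk hmem₁ hval₁ hmem₂ hval₂ in
/-- **the two branches of a node lie over the same point of the good fibre**, chart `1`. -/
theorem ψ_eq_of_branches1 (hmap : ∀ b ∈ T.S1.B, φ b ∈ C)
    (hred₁ : ∀ (b : F0) (hb : b ∈ T.S1.B),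
      red₁ ⟨φ b, hbr₁.le_G _ (hmap b hb)⟩ = bar₁ (T.S1.red ⟨b, hb⟩))
    (hred₂ : ∀ (b : F0) (hb : b ∈ T.S1.B),
      red₂ ⟨φ b, hbr₂.le_G _ (hmap b hb)⟩ = bar₂ (T.S1.red ⟨b, hb⟩)) : ψ₁ = ψ₂ := by
  refine place_eq_of_values1 T hxt0 Hk0 hsurj ψ₁ ψ₂
    (fun b => red_mem_ψ T.S1 hbr₁ φ bar₁ ψ₁ hmem₁ hmap hred₁ b)
    (fun b => red_mem_ψ T.S1 hbr₂ φ bar₂ ψ₂ hmem₂ hmap hred₂ b) (fun b => ?_)
  rw [valF_ψ T.S1 hbr₁ Hk Hk0 φ bar₁ ψ₁ hmem₁ hval₁ hmap hred₁ b,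
    valF_ψ T.S1 hbr₂ Hk Hk0 φ bar₂ ψ₂ hmem₂ hval₂ hmap hred₂ b]

end Node

end

end Fermat.Agent.MP.TAU.ChartComp9
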