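/-
PROGRAMME MP (row 38 via S44), chapter TAU (helper9): **degeneracy maps from a good level compatible
with a semistable datum** — the hypothesis bundle `PDegen` and the reduction of pulled-back divisors.

`𝔻0 : RedDatum L F0 k Ft0` a good-reduction datum (level `M₀`), `𝔻 : SemiRedDatum L F k Ft ι E` a
semistable datum with exactly two components `v1 ≠ v2` (level `p M₀`).  A `PDegen 𝔻 𝔻0` is a field
embedding `φ : F0 → F` (a degeneracy map `α_p` or `β_p`) with

* the place below `down : Place L F → Place L F0` and the pull-back of divisors `pb` (`pb (div g) =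
  div (φ g)`, positivity, support, degree `n`);
* on every component `v` a ring homomorphism `bar v : Ft0 → Ft` with `red_v (φ g) = bar v (red0 g)`,
  a bijection `ψ v` from the places of `Ft` to the places of `Ft0` with `ord_{Q'} (bar v f) =
  e v · ord_{ψ v Q'} f` and `(bar v f)(Q') = f (ψ v Q')`;
* `r_compat` : a place in the smooth disc of `(v, Q')` lies over a place in the disc of `ψ v Q'`;
* `node_compat` : the two branches of a node lie over the same point of the good fibre.

Results (two components, `e v1 + e v2 = n`):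
* `isSm_of_ψ_eq` : the points over the image of a smooth point are smooth;
* `pb_single` : for a place `P` of `F0` whose reduction lies under smooth points only, the divisor
  `pb P` is off the annuli and its reduction on the component `v` is `e v · (ψ v)⁻¹ (r0 P)`;
* `push`, `mapDomain_pb_push`, `offAnn_pb_push` : the same for the push-forward of the part of a divisor
  on one component.
-/
import Mathlib
import Fermat.Agent.ORD.KERN.KerN9
import Fermat.Agent.FF.RED.RedDatum7

set_option autoImplicit false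
set_option linter.unusedSectionVars false
set_option linter.style.longLine false

namespace Fermat.Agent.MP.TAU.PDegen9

open AlgebraicCurve Fermat.Agent.X0.FF Fermat.Agent.RR.LSpace Fermat.Agent.MW.EMB.Value6
open Fermat.Agent.ORD.ANN.Side3 Fermat.Agent.ORD.ANN.Node3
open Fermat.Agent.ORD.SEMIRED.SemiRedDatum9
open Fermat.Agent.ORD.KERN.KerDefs9 Fermat.Agent.ORD.KERN.KerN9
open Fermat.Agent.FF.RED.RedDatum7
open Fermat.Agent.FF.KER.Ker0 (mapDomain_nonneg eq_zero_of_mapDomain_eq_zero mapDomain_sub')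

noncomputable section

variable {L F F0 k Ft Ft0 : Type*} [Field L] [Field F] [Algebra L F] [Field F0] [Algebra L F0]
  [Field k] [Field Ft] [Algebra k Ft] [Field Ft0] [Algebra k Ft0]
variable {ι E : Type*}

/-- **A degeneracy map from a good level, compatible with the reductions.** -/
structure PDegen (𝔻 : SemiRedDatum L F k Ft ι E) (𝔻0 : RedDatum L F0 k Ft0) where
  /-- the embedding of function fields -/
  φ : F0 →+* F
  /-- the place below -/
  down : Place L F → Place L F0
  /-- the pull-back of divisors -/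
  pb : Divisor L F0 →+ Divisor L F
  pb_divOf : ∀ (g : F0) (hg : g ≠ 0) (P' : Place L F), pb (divOf 𝔻0.HL hg) P' = P'.ord (φ g)
  pb_nonneg : ∀ D : Divisor L F0, 0 ≤ D → 0 ≤ pb D
  pb_supp : ∀ (D : Divisor L F0) (P' : Place L F), pb D P' ≠ 0 → D (down P') ≠ 0
  /-- the degree of the map -/
  n : ℕ
  degree_pb : ∀ D : Divisor L F0, Divisor.degree (pb D) = n * Divisor.degree D
  /-- the reduction of `φ` on the component `v` -/
  bar : ι → Ft0 →+* Ft
  mem_G : ∀ v (g : 𝔻0.G), φ (g : F0) ∈ 𝔻.G v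
  red_comm : ∀ v (g : 𝔻0.G), 𝔻.red v ⟨φ (g : F0), mem_G v g⟩ = bar v (𝔻0.red g)
  /-- the map of the component `v` to the good fibre, on points -/
  ψ : ι → Place k Ft → Place k Ft0
  ψ_bij : ∀ v, Function.Bijective (ψ v)
  /-- the (inseparable) degree on the component `v` -/
  e : ι → ℕ
  ord_bar : ∀ v (Q' : Place k Ft) (f : Ft0), Q'.ord (bar v f) = e v * (ψ v Q').ord f
  val_bar : ∀ v (Q' : Place k Ft) (f : Ft0), f ∈ (ψ v Q').toValuationSubring →
    valF 𝔻.Hk Q' (bar v f) = valF 𝔻0.Hk (ψ v Q') f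
  r_compat : ∀ (P' : Place L F) v Q', 𝔻.r P' = Sum.inl (v, Q') → 𝔻0.r (down P') = ψ v Q'
  node_compat : ∀ e, ψ (𝔻.src e) (𝔻.Qs e) = ψ (𝔻.tgt e) (𝔻.Qt e)

variable {𝔻 : SemiRedDatum L F k Ft ι E} {𝔻0 : RedDatum L F0 k Ft0}

/-! ### the reduction of a divisor on one component, as a divisor -/

section RedOn

variable (𝔻)

open Classical in
/-- the point of the component under a place (junk off the smooth discs). -/
def qOf (P' : Place L F) : Place k Ft :=
  match 𝔻.r P' with
  | Sum.inl (_, Q') => Q'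
  | Sum.inr _ => 𝔻.Hk.nonempty.some

theorem qOf_eq {P' : Place L F} {w : ι} {Q' : Place k Ft} (h : 𝔻.r P' = Sum.inl (w, Q')) :
    qOf 𝔻 P' = Q' := by
  unfold qOf
  rw [h]

open Classical in
/-- the reduction of the divisor `D` on the component `w`, as a divisor of the function field of the
component. -/
def redOn (D : Divisor L F) (w : ι) : Divisor k Ft :=
  ∑ P' ∈ D.support.filter (fun P' => ∃ Q', 𝔻.r P' = Sum.inl (w, Q')),
    Finsupp.single (qOf 𝔻 P') (D P')

open Classical in
theorem redOn_apply (D : Divisor L F) (w : ι) (Q' : Place k Ft) :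
    redOn 𝔻 D w Q' = Finsupp.mapDomain 𝔻.r D (Sum.inl (w, Q')) := by
  rw [redOn, Finsupp.finsetSum_apply, CompDatum.mapDomain_apply_eq_sum]
  have hterm : ∀ P' ∈ D.support.filter (fun P' => ∃ Q', 𝔻.r P' = Sum.inl (w, Q')),
      (Finsupp.single (qOf 𝔻 P') (D P') : Divisor k Ft) Q' =
        if 𝔻.r P' = Sum.inl (w, Q') then D P' else 0 := by
    intro P' hP'
    simp only [Finset.mem_filter] at hP'
    obtain ⟨Q'', hQ''⟩ := hP'.2
    rw [qOf_eq 𝔻 hQ'', Finsupp.single_apply]
    by_cases hc : Q'' = Q'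
    · subst hc
      rw [if_pos rfl, if_pos hQ'']
    · rw [if_neg hc, if_neg]
      rw [hQ'']
      intro h
      exact hc (congrArg Prod.snd (Sum.inl.inj h))
  rw [Finset.sum_congr rfl hterm, ← Finset.sum_filter]
  refine Finset.sum_congr ?_ fun _ _ => rfl
  ext P'
  simp only [Finset.mem_filter]
  constructor
  · rintro ⟨⟨h1, _⟩, h2⟩
    exact ⟨h1, h2⟩
  · rintro ⟨h1, h2⟩
    exact ⟨⟨h1, _, h2⟩, h2⟩

open Classical in
theorem degree_redOn (D : Divisor L F) (w : ι) :
    Divisor.degree (redOn 𝔻 D w) =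
      ∑ P' ∈ D.support.filter (fun P' => ∃ Q', 𝔻.r P' = Sum.inl (w, Q')), D P' := by
  rw [redOn, map_sum]
  exact Finset.sum_congr rfl fun P' _ => degree_single 𝔻.Hk _ _

end RedOn

namespace PDegen

variable (a : PDegen 𝔻 𝔻0)

/-- the transfer of points from the component `v` to the component `w` through the good fibre. -/
def tr (v w : ι) (Q' : Place k Ft) : Place k Ft :=
  (Equiv.ofBijective _ (a.ψ_bij w)).symm (a.ψ v Q')

theorem ψ_tr (v w : ι) (Q' : Place k Ft) : a.ψ w (a.tr v w Q') = a.ψ v Q' :=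
  (Equiv.ofBijective _ (a.ψ_bij w)).apply_symm_apply _

theorem tr_self (v : ι) (Q' : Place k Ft) : a.tr v v Q' = Q' :=
  (a.ψ_bij v).1 (a.ψ_tr v v Q')

theorem eq_tr_iff {v w : ι} {Q' Q'' : Place k Ft} : Q'' = a.tr v w Q' ↔ a.ψ w Q'' = a.ψ v Q' := by
  constructor
  · rintro rfl; exact a.ψ_tr v w Q'
  · intro h
    apply (a.ψ_bij w).1
    rw [h, a.ψ_tr]

theorem bar_injective (v : ι) : Function.Injective (a.bar v) := (a.bar v).injective

theorem bar_ne_zero (v : ι) {f : Ft0} (hf : f ≠ 0) : a.bar v f ≠ 0 := by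
  rwa [Ne, map_eq_zero]

theorem φ_ne_zero {g : F0} (hg : g ≠ 0) : a.φ g ≠ 0 := by
  rwa [Ne, map_eq_zero]

/-- `pb (div g) = div (φ g)`. -/
theorem pb_divOf_eq {g : F0} (hg : g ≠ 0) :
    a.pb (divOf 𝔻0.HL hg) = divOf 𝔻.HL (a.φ_ne_zero hg) := by
  ext P'
  rw [a.pb_divOf g hg P', divOf_apply]

section TwoComp

variable {v1 v2 : ι} (h12 : v1 ≠ v2) (hι : ∀ v : ι, v = v1 ∨ v = v2)

include a in
/-- there are no loops. -/
theorem src_ne_tgt (e : E) : 𝔻.src e ≠ 𝔻.tgt e := by
  intro hst
  have h1 : a.ψ (𝔻.src e) (𝔻.Qs e) = a.ψ (𝔻.src e) (𝔻.Qt e) :=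
    (a.node_compat e).trans (congrArg (fun v => a.ψ v (𝔻.Qt e)) hst.symm)
  exact 𝔻.branch_st e e hst ((a.ψ_bij _).1 h1)

include h12 hι in
/-- the points over the image of a smooth point are smooth. -/
theorem isSm_of_ψ_eq {v w : ι} {Q Q' : Place k Ft} (h : a.ψ v Q = a.ψ w Q') (hQ : 𝔻.IsSm v Q) :
    𝔻.IsSm w Q' := by
  by_cases hvw : v = w
  · subst hvw
    rw [← (a.ψ_bij v).1 h]; exact hQ
  -- two distinct components: every other component is `v` or `w`
  have hother : ∀ u : ι, u ≠ w → u = v := by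
    intro u hu
    rcases hι u with hu1 | hu2 <;> rcases hι v with hv1 | hv2 <;> rcases hι w with hw1 | hw2
    · exact absurd (hu1.trans hw1.symm) hu
    · exact hu1.trans hv1.symm
    · exact absurd (hu1.trans hw1.symm) hu
    · exact absurd (hv2.trans hw2.symm) hvw
    · exact absurd (hv1.trans hw1.symm) hvw
    · exact absurd (hu2.trans hw2.symm) hu
    · exact hu2.trans hv2.symm
    · exact absurd (hu2.trans hw2.symm) hu
  intro hbr
  rcases hbr with ⟨e, hs, hq⟩ | ⟨e, ht, hq⟩
  · -- `(w, Q')` is the source branch of `e`; the target is `v`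
    have htv : 𝔻.tgt e = v := hother _ (fun h' => a.src_ne_tgt e (hs.trans h'.symm))
    have h1 : a.ψ (𝔻.tgt e) (𝔻.Qt e) = a.ψ w Q' := by
      rw [← a.node_compat e]
      exact hq ▸ (congrArg (fun u => a.ψ u (𝔻.Qs e)) hs)
    subst htv
    have h2 : 𝔻.Qt e = Q := (a.ψ_bij _).1 (h1.trans h.symm)
    exact hQ (Or.inr ⟨e, rfl, h2⟩)
  · -- `(w, Q')` is the target branch of `e`; the source is `v`
    have hsv : 𝔻.src e = v := hother _ (fun h' => a.src_ne_tgt e (h'.trans ht.symm))
    have h1 : a.ψ (𝔻.src e) (𝔻.Qs e) = a.ψ w Q' := by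
      rw [a.node_compat e]
      exact hq ▸ (congrArg (fun u => a.ψ u (𝔻.Qt e)) ht)
    subst hsv
    have h2 : 𝔻.Qs e = Q := (a.ψ_bij _).1 (h1.trans h.symm)
    exact hQ (Or.inl ⟨e, rfl, h2⟩)

/-- a nonnegative finitely supported function with total `n` which already has total `n` on three
distinct points vanishes at the third. -/
theorem eq_zero_of_total {β : Type*} (m : β →₀ ℤ) (hm : 0 ≤ m) {n a1 a2 : ℤ} {x1 x2 y : β}
    (htot : m.sum (fun _ c => c) = n) (h1 : m x1 = a1) (h2 : m x2 = a2) (h12 : x1 ≠ x2)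
    (hy1 : y ≠ x1) (hy2 : y ≠ x2) (hn : a1 + a2 = n) : m y = 0 := by
  classical
  have hsub : ({x1, x2, y} : Finset β) ⊆ m.support ∪ {x1, x2, y} := Finset.subset_union_right
  have h3 : m.sum (fun _ c => c) = ∑ x ∈ m.support ∪ {x1, x2, y}, m x :=
    Finsupp.sum_of_support_subset m Finset.subset_union_left _ (fun _ _ => rfl)
  have h4 : ∑ x ∈ ({x1, x2, y} : Finset β), m x ≤ ∑ x ∈ m.support ∪ {x1, x2, y}, m x :=
    Finset.sum_le_sum_of_subset_of_nonneg hsub (fun x _ _ => hm x)
  have h5 : ∑ x ∈ ({x1, x2, y} : Finset β), m x = m x1 + m x2 + m y := by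
    rw [Finset.sum_insert (by
      rw [Finset.mem_insert, Finset.mem_singleton]
      rintro (h | h)
      · exact h12 h
      · exact hy1 h.symm), Finset.sum_insert (by
      rw [Finset.mem_singleton]
      exact fun h => hy2 h.symm), Finset.sum_singleton]
    ring
  have h6 := hm y
  simp only [Finsupp.coe_zero, Pi.zero_apply] at h6
  rw [h5, ← h3, htot, h1, h2] at h4
  omega

open Classical in
include h12 hι in
/-- **the pull-back of a place** whose reduction lies under smooth points only: it is off the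
annuli, and its reduction on the component `v` is `e v` times the point over `r0 P`. -/
theorem pb_single (hn : a.e v1 + a.e v2 = a.n) (P : Place L F0)
    (hgood : ∀ v Q', a.ψ v Q' = 𝔻0.r P → 𝔻.IsSm v Q') :
    OffAnn 𝔻 (a.pb (Finsupp.single P 1)) ∧
    ∀ v Q', Finsupp.mapDomain 𝔻.r (a.pb (Finsupp.single P 1)) (Sum.inl (v, Q')) =
      if a.ψ v Q' = 𝔻0.r P then (a.e v : ℤ) else 0 := by
  classical
  set T := a.pb (Finsupp.single P 1) with hT
  have hT0 : 0 ≤ T := a.pb_nonneg _ (by
    intro x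
    rw [Finsupp.single_apply]
    simp only [Finsupp.coe_zero, Pi.zero_apply]
    split_ifs <;> norm_num)
  have hdeg : Divisor.degree T = a.n := by
    rw [hT, a.degree_pb, degree_single 𝔻0.HL, mul_one]
  obtain ⟨u, hu1, hured, hu⟩ := 𝔻0.good P
  have hu0 : (u : F0) ≠ 0 := 𝔻0.coe_ne_zero_of_red_ne_zero hured
  -- the reduction of `u` has a simple zero at `r0 P`
  have hordQ0 : (𝔻0.r P).ord (𝔻0.red u) = 1 := by
    rw [← 𝔻0.fibre_sum u hured (𝔻0.r P), Finset.sum_eq_single P]
    · exact hu1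
    · intro P1 hP1 hne
      exact (hu P1 (Finset.mem_filter.mp hP1).2).2 hne
    · intro hP
      exfalso
      apply hP
      rw [Finset.mem_filter, Finsupp.mem_support_iff, divOf_apply, hu1]
      exact ⟨one_ne_zero, rfl⟩
  -- the rest of `div u`
  set R : Divisor L F0 := divOf 𝔻0.HL hu0 - Finsupp.single P 1 with hR
  have hRzero : ∀ P1, 𝔻0.r P1 = 𝔻0.r P → R P1 = 0 := by
    intro P1 h1
    rw [hR, Finsupp.sub_apply, divOf_apply, Finsupp.single_apply]
    by_cases h : P = P1
    · subst h; rw [if_pos rfl, hu1]; ring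
    · rw [if_neg h, (hu P1 h1).2 (Ne.symm h)]; ring
  have hsplit : divOf 𝔻.HL (a.φ_ne_zero hu0) = T + a.pb R := by
    rw [← a.pb_divOf_eq hu0, hT, ← map_add, hR, add_sub_cancel]
  -- the fibre sums of `T` over the points above `r0 P`
  have key : ∀ v Q', a.ψ v Q' = 𝔻0.r P →
      Finsupp.mapDomain 𝔻.r T (Sum.inl (v, Q')) = a.e v := by
    intro v Q' hQ'
    have hsm := hgood v Q' hQ'
    have hred : 𝔻.red v ⟨a.φ u, a.mem_G v u⟩ ≠ 0 := by
      rw [a.red_comm]; exact a.bar_ne_zero v hured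
    have h1 := 𝔻.compat v ⟨a.φ u, a.mem_G v u⟩ hred (divOf 𝔻.HL (a.φ_ne_zero hu0))
      (fun P' => divOf_apply _ _ _) Q' (𝔻.exists_r_of_isSm hsm)
    rw [a.red_comm, a.ord_bar, hQ', hordQ0, mul_one, hsplit, Finsupp.mapDomain_add,
      Finsupp.add_apply] at h1
    have h2 : Finsupp.mapDomain 𝔻.r (a.pb R) (Sum.inl (v, Q')) = 0 := by
      rw [CompDatum.mapDomain_apply_eq_sum]
      refine Finset.sum_eq_zero fun P'' hP'' => ?_
      simp only [Finset.mem_filter] at hP''
      have hr := hP''.2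
      by_contra hne
      apply a.pb_supp R P'' hne
      apply hRzero
      rw [a.r_compat P'' v Q' hr, hQ']
    rw [h2, add_zero] at h1
    exact h1
  obtain ⟨Q1, hQ1⟩ := (a.ψ_bij v1).2 (𝔻0.r P)
  obtain ⟨Q2, hQ2⟩ := (a.ψ_bij v2).2 (𝔻0.r P)
  set m := Finsupp.mapDomain 𝔻.r T with hm
  have hm0 : 0 ≤ m := mapDomain_nonneg 𝔻.r hT0
  have htot : m.sum (fun _ c => c) = a.n := by
    rw [hm, Finsupp.sum_mapDomain_index (fun _ => rfl) (fun _ _ _ => rfl), ← hdeg,
      degree_eq_sum 𝔻.HL]
    rfl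
  have hx12 : (Sum.inl (v1, Q1) : Pts ι E k Ft) ≠ Sum.inl (v2, Q2) := by
    intro h
    exact h12 (congrArg Prod.fst (Sum.inl.inj h))
  have hrest : ∀ y : Pts ι E k Ft, y ≠ Sum.inl (v1, Q1) → y ≠ Sum.inl (v2, Q2) → m y = 0 :=
    fun y hy1 hy2 => eq_zero_of_total m hm0 htot (key v1 Q1 hQ1) (key v2 Q2 hQ2) hx12 hy1 hy2
      (by exact_mod_cast hn)
  refine ⟨?_, ?_⟩
  · intro P' e he
    have h0 : m (Sum.inr e) = 0 := hrest _ (by simp) (by simp)
    exact eq_zero_of_mapDomain_eq_zero 𝔻.r hT0 h0 he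
  · intro v Q'
    split_ifs with h
    · exact key v Q' h
    · apply hrest
      · intro h'
        have h1 := Sum.inl.inj h'
        have hv : v = v1 := congrArg Prod.fst h1
        have hQ : Q' = Q1 := congrArg Prod.snd h1
        apply h
        rw [hv, hQ, hQ1]
      · intro h'
        have h1 := Sum.inl.inj h'
        have hv : v = v2 := congrArg Prod.fst h1
        have hQ : Q' = Q2 := congrArg Prod.snd h1
        apply h
        rw [hv, hQ, hQ2]

open Classical in
/-- the part of the divisor `D` on the component `w`, pushed down to the good level. -/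
def push (D : Divisor L F) (w : ι) : Divisor L F0 :=
  ∑ P' ∈ D.support.filter (fun P' => ∃ Q', 𝔻.r P' = Sum.inl (w, Q')),
    Finsupp.single (a.down P') (D P')

open Classical in
theorem degree_push (D : Divisor L F) (w : ι) :
    Divisor.degree (a.push D w) = Divisor.degree (redOn 𝔻 D w) := by
  rw [degree_redOn, push, map_sum]
  exact Finset.sum_congr rfl fun P' _ => degree_single 𝔻0.HL _ _

open Classical in
theorem pb_push_eq (D : Divisor L F) (w : ι) :
    a.pb (a.push D w) = ∑ P' ∈ D.support.filter (fun P' => ∃ Q', 𝔻.r P' = Sum.inl (w, Q')),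
      D P' • a.pb (Finsupp.single (a.down P') 1) := by
  rw [push, map_sum]
  refine Finset.sum_congr rfl fun P' _ => ?_
  rw [← map_zsmul, Finsupp.smul_single_one]

open Classical in
include h12 hι in
/-- **the pull-back of the push-forward of the part of `D` on the component `w`**: it is off the
annuli and its reduction on the component `v` is `e v` times the transfer of the reduction of `D` on
`w`. -/
theorem pb_push (hn : a.e v1 + a.e v2 = a.n) (D : Divisor L F) (w : ι) :
    OffAnn 𝔻 (a.pb (a.push D w)) ∧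
    ∀ v Q', Finsupp.mapDomain 𝔻.r (a.pb (a.push D w)) (Sum.inl (v, Q')) =
      a.e v * Finsupp.mapDomain 𝔻.r D (Sum.inl (w, a.tr v w Q')) := by
  have hgood : ∀ P' ∈ D.support.filter (fun P' => ∃ Q', 𝔻.r P' = Sum.inl (w, Q')),
      ∀ v Q', a.ψ v Q' = 𝔻0.r (a.down P') → 𝔻.IsSm v Q' := by
    intro P' hP' v Q' hQ'
    simp only [Finset.mem_filter] at hP'
    obtain ⟨Q'', hQ''⟩ := hP'.2
    have h1 : a.ψ w Q'' = a.ψ v Q' := by rw [hQ', a.r_compat P' w Q'' hQ'']
    exact a.isSm_of_ψ_eq h12 hι h1 (𝔻.isSm_of_r hQ'')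
  rw [a.pb_push_eq]
  refine ⟨?_, ?_⟩
  · exact offAnn_sum _ fun P' hP' =>
      ((a.pb_single h12 hι hn (a.down P') (hgood P' hP')).1).zsmul _
  · intro v Q'
    rw [Finsupp.mapDomain_finsetSum, Finsupp.finsetSum_apply]
    have hterm : ∀ P' ∈ D.support.filter (fun P' => ∃ Q', 𝔻.r P' = Sum.inl (w, Q')),
        Finsupp.mapDomain 𝔻.r (D P' • a.pb (Finsupp.single (a.down P') 1)) (Sum.inl (v, Q')) =
          if 𝔻.r P' = Sum.inl (w, a.tr v w Q') then D P' * a.e v else 0 := by
      intro P' hP'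
      rw [Finsupp.mapDomain_smul, Finsupp.smul_apply,
        (a.pb_single h12 hι hn (a.down P') (hgood P' hP')).2 v Q', smul_eq_mul]
      simp only [Finset.mem_filter] at hP'
      obtain ⟨Q'', hQ''⟩ := hP'.2
      have hiff : a.ψ v Q' = 𝔻0.r (a.down P') ↔ 𝔻.r P' = Sum.inl (w, a.tr v w Q') := by
        rw [a.r_compat P' w Q'' hQ'']
        constructor
        · intro h
          rw [hQ'', (a.eq_tr_iff).mpr h.symm]
        · intro h
          rw [hQ''] at h
          have h1 : Q'' = a.tr v w Q' := congrArg Prod.snd (Sum.inl.inj h)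
          exact ((a.eq_tr_iff).mp h1).symm
      by_cases hc : a.ψ v Q' = 𝔻0.r (a.down P')
      · rw [if_pos hc, if_pos (hiff.mp hc)]
      · rw [if_neg hc, if_neg (fun h => hc (hiff.mpr h)), mul_zero]
    rw [Finset.sum_congr rfl hterm, ← Finset.sum_filter, CompDatum.mapDomain_apply_eq_sum,
      Finset.mul_sum]
    refine Finset.sum_congr ?_ fun P' _ => mul_comm _ _
    ext P'
    simp only [Finset.mem_filter]
    constructor
    · rintro ⟨⟨h1, _⟩, h2⟩
      exact ⟨h1, h2⟩
    · rintro ⟨h1, h2⟩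
      exact ⟨⟨h1, _, h2⟩, h2⟩

end TwoComp

end PDegen

end

end Fermat.Agent.MP.TAU.PDegen9
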