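/-
PROGRAMME MP (row 38 via S44), chapter TAU (helper9): **a `PDegen` from chart-level data** (generic
builder).

Bad level: a two-chart model `𝔓 : PtsData (base A) F Ft ι E` with its semistable datum
`𝔓.toAssemblyData.toSemiRedDatum`.  Good level: a good-reduction datum `𝔻0 : RedDatum ℚ̄ F0 k Ft` whose
specialisation map is that of a two-chart model `T : TwoCharts A hx0 Ft`.  A finite covering
`φ : F0 →ₐ F` such that

* **(H1)** `φ` maps the chart rings `T.S0.B`, `T.S1.B` into `𝔓.B0`, `𝔓.B1`;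
* **(H2)** on every component `v`: `φ (𝔻0.G) ⊆ G_v`, `red_v ∘ φ = bar v ∘ red0` with `bar v` a semilinear
  power map (`SemiBar (bar v) (s v) (e v)`)

gives `build … : PDegen 𝔓.toAssemblyData.toSemiRedDatum 𝔻0` with `ψ v Q' = s v • Q'`.

* `chart_le_ringPts`; `r_compat_of`, `node_compat_of` (from `ChartComp9`); `pb_divOf_of` …; `build`.
-/
import Mathlib
import Fermat.Agent.MP.TAU.PDegen9
import Fermat.Agent.MP.TAU.SemiBar9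
import Fermat.Agent.MP.TAU.ChartComp9
import Fermat.Agent.ORD.IFACEN.PtsAssembly3
import Fermat.Agent.ORD.IFACEN.SideOne1

set_option autoImplicit false
set_option linter.unusedSectionVars false
set_option linter.unusedVariables false
set_option linter.style.longLine false

namespace Fermat.Agent.MP.TAU.Build9

open AlgebraicCurve Fermat.Agent.X0.FF Fermat.Agent.RR.LSpace Fermat.Agent.MW.EMB.Value6
open Fermat.Agent.ORD.ANN.Side3 Fermat.Agent.ORD.ANN.Node3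
open Fermat.Agent.ORD.SEMIRED.SemiRedDatum9
open Fermat.Agent.ORD.IFACEN.DiscSys8 Fermat.Agent.ORD.IFACEN.DiscPlaces8
  Fermat.Agent.ORD.IFACEN.LocAt8 Fermat.Agent.ORD.IFACEN.Centre8
  Fermat.Agent.ORD.IFACEN.SmoothAtlas8 Fermat.Agent.ORD.IFACEN.AtlasSplit6
  Fermat.Agent.ORD.IFACEN.AtlasPts6 Fermat.Agent.ORD.IFACEN.AssembleN9
  Fermat.Agent.ORD.IFACEN.PtsDict3 Fermat.Agent.ORD.IFACEN.PtsAssembly3
open Fermat.Agent.ORD.IFACEN.SideOne1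
open Fermat.Agent.RED.Interface4 Fermat.Agent.ES.RED.ChartIntegralA1
open Fermat.Agent.ES.RED.PlaceValue13 Fermat.Agent.ES.RED.TwoCharts8
open Fermat.Agent.FF.RED.RedDatum7
open Fermat.Agent.MP.TAU.PDegen9 Fermat.Agent.MP.TAU.SemiBar9 Fermat.Agent.MP.TAU.ChartComp9

noncomputable section

section RingPts

variable {L F k : Type*} [Field L] [Field F] [Algebra L F] [Field k]
variable {A : ValuationSubring L} [Algebra A F] [IsScalarTower A L F]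
variable {res : A →+* k} {B0 B1 : Subalgebra A F} {tinv : B1}

/-- the local ring of a closed point contains one of the two chart rings. -/
theorem chart_le_ringPts (x : Pts res B0 B1 tinv) :
    (∀ b ∈ B0, b ∈ ringPts x) ∨ (∀ b ∈ B1, b ∈ ringPts x) := by
  rcases x with x₀ | y
  · exact Or.inl fun b hb => le_locC B0 x₀.χ hb
  · exact Or.inr fun b hb => le_locC B1 y.1.χ hb

end RingPts

/-! ### the setting -/

variable {A : ValuationSubring Qbar} [IsAlgClosed (kA A)]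
variable {F0 : Type*} [Field F0] [Algebra Qbar F0] {x0 : F0} {hx0 : IsGen Qbar x0}
variable {F : Type*} [Field F] [Algebra Qbar F] {Ft : Type*} [Field Ft] [Algebra (kA A) Ft]
  [Algebra (base A).A F] [IsScalarTower (base A).A Qbar F]
variable {ι E : Type*} (𝔓 : PtsData (base A) F Ft ι E)
variable (T : TwoCharts A hx0 Ft) {xt0 : Ft} (hxt0 : IsGen (kA A) xt0)
  (HL0 : LHyp Qbar F0) (Hk0 : LHyp (kA A) Ft)
  (φ : F0 →ₐ[Qbar] F) (hφ : φ.toRingHom.IsIntegral)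
  (hmap0 : ∀ b ∈ T.S0.B, φ b ∈ 𝔓.B0) (hmap1 : ∀ b ∈ T.S1.B, φ b ∈ 𝔓.B1)

section Comp

variable (v : ι) {bar : Ft →+* Ft} {s : SemilinearAut (kA A) Ft} {e : ℕ} (hsb : SemiBar bar s e)
  (hred0 : ∀ (b : F0) (hb : b ∈ T.S0.B),
    (𝔓.side v).red ⟨φ b, 𝔓.le0 v _ (hmap0 b hb)⟩ = bar (T.S0.red ⟨b, hb⟩))
  (hred1 : ∀ (b : F0) (hb : b ∈ T.S1.B),
    (𝔓.side v).red ⟨φ b, 𝔓.le1 v _ (hmap1 b hb)⟩ = bar (T.S1.red ⟨b, hb⟩))

include hxt0 HL0 Hk0 hsb hred0 hred1 in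
/-- **`r_compat`** : a place in the smooth disc of `(v, Q')` lies over a place in the disc of
`s • Q'`. -/
theorem r_compat_of {P' : Place Qbar F} {Q' : Place (kA A) Ft}
    (h : 𝔓.atlas.r P' = Sum.inl (v, Q')) :
    T.r (P'.restrictAlong φ hφ) = s • Q' := by
  obtain ⟨x, hv, hQ, hdisc⟩ := 𝔓.atlas.exists_pt_of_r h
  have hv' : 𝔓.comp x = v := hv
  have hQ' : 𝔓.Q x = Q' := hQ
  subst hv' hQ'
  have hdisc' : InDisc (ringPts (𝔓.e.symm (Sum.inl x))) P' := hdisc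
  rcases chart_le_ringPts (𝔓.e.symm (Sum.inl x)) with h0 | h1
  · exact r_restrict_eq0 T hxt0 (𝔓.le_G x) (𝔓.sys' x) 𝔓.HL HL0 𝔓.Hk Hk0 φ hφ bar (s • 𝔓.Q x)
      (fun f => hsb.mem_iff (𝔓.Q x) f) (fun f hf => hsb.val_bar 𝔓.Hk (𝔓.Q x) hf) hdisc'
      (fun b hb => h0 _ (hmap0 b hb)) (fun b hb => hred0 b hb)
  · exact r_restrict_eq1 T hxt0 (𝔓.le_G x) (𝔓.sys' x) 𝔓.HL HL0 𝔓.Hk Hk0 φ hφ bar (s • 𝔓.Q x)
      (fun f => hsb.mem_iff (𝔓.Q x) f) (fun f hf => hsb.val_bar 𝔓.Hk (𝔓.Q x) hf) hdisc'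
      (fun b hb => h1 _ (hmap1 b hb)) (fun b hb => hred1 b hb)

end Comp

section Node

variable (hsurj : Function.Surjective T.r) (n : E)
  {bar₁ bar₂ : Ft →+* Ft} {s₁ s₂ : SemilinearAut (kA A) Ft} {e₁ e₂ : ℕ}
  (hsb₁ : SemiBar bar₁ s₁ e₁) (hsb₂ : SemiBar bar₂ s₂ e₂)
  (hred0₁ : ∀ (b : F0) (hb : b ∈ T.S0.B),
    (𝔓.side (𝔓.src n)).red ⟨φ b, 𝔓.le0 _ _ (hmap0 b hb)⟩ = bar₁ (T.S0.red ⟨b, hb⟩))
  (hred1₁ : ∀ (b : F0) (hb : b ∈ T.S1.B),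
    (𝔓.side (𝔓.src n)).red ⟨φ b, 𝔓.le1 _ _ (hmap1 b hb)⟩ = bar₁ (T.S1.red ⟨b, hb⟩))
  (hred0₂ : ∀ (b : F0) (hb : b ∈ T.S0.B),
    (𝔓.side (𝔓.tgt n)).red ⟨φ b, 𝔓.le0 _ _ (hmap0 b hb)⟩ = bar₂ (T.S0.red ⟨b, hb⟩))
  (hred1₂ : ∀ (b : F0) (hb : b ∈ T.S1.B),
    (𝔓.side (𝔓.tgt n)).red ⟨φ b, 𝔓.le1 _ _ (hmap1 b hb)⟩ = bar₂ (T.S1.red ⟨b, hb⟩))

include hxt0 Hk0 hsurj hsb₁ hsb₂ hred0₁ hred1₁ hred0₂ hred1₂ in
/-- **`node_compat`** : the two branches of a node lie over the same point of the good fibre. -/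
theorem node_compat_of : s₁ • 𝔓.Qs n = s₂ • 𝔓.Qt n := by
  rcases chart_le_ringPts (𝔓.e.symm (Sum.inr n)) with h0 | h1
  · exact ψ_eq_of_branches0 T hxt0 Hk0 hsurj (𝔓.branch_src n) (𝔓.branch_tgt n) 𝔓.Hk φ bar₁ bar₂
      (s₁ • 𝔓.Qs n) (s₂ • 𝔓.Qt n)
      (fun f => hsb₁.mem_iff (𝔓.Qs n) f) (fun f hf => hsb₁.val_bar 𝔓.Hk (𝔓.Qs n) hf)
      (fun f => hsb₂.mem_iff (𝔓.Qt n) f) (fun f hf => hsb₂.val_bar 𝔓.Hk (𝔓.Qt n) hf)
      (fun b hb => h0 _ (hmap0 b hb)) (fun b hb => hred0₁ b hb) (fun b hb => hred0₂ b hb)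
  · exact ψ_eq_of_branches1 T hxt0 Hk0 hsurj (𝔓.branch_src n) (𝔓.branch_tgt n) 𝔓.Hk φ bar₁ bar₂
      (s₁ • 𝔓.Qs n) (s₂ • 𝔓.Qt n)
      (fun f => hsb₁.mem_iff (𝔓.Qs n) f) (fun f hf => hsb₁.val_bar 𝔓.Hk (𝔓.Qs n) hf)
      (fun f => hsb₂.mem_iff (𝔓.Qt n) f) (fun f hf => hsb₂.val_bar 𝔓.Hk (𝔓.Qt n) hf)
      (fun b hb => h1 _ (hmap1 b hb)) (fun b hb => hred1₁ b hb) (fun b hb => hred1₂ b hb)

end Node

/-! ### the pull-back of divisors -/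

section Pb

variable [HasPrincipalDivisors Qbar F]

theorem pb_divOf_of {g : F0} (hg : g ≠ 0) (P' : Place Qbar F) :
    Divisor.pullbackAlong φ hφ (divOf HL0 hg) P' = P'.ord (φ g) := by
  rw [Divisor.pullbackAlong_apply, divOf_apply, Place.ord_restrictAlong φ hφ]

theorem pb_nonneg_of (D : Divisor Qbar F0) (hD : 0 ≤ D) : 0 ≤ Divisor.pullbackAlong φ hφ D := by
  intro P'
  rw [Divisor.pullbackAlong_apply]
  exact mul_nonneg (Nat.cast_nonneg _) (hD _)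

theorem pb_supp_of (D : Divisor Qbar F0) (P' : Place Qbar F)
    (h : Divisor.pullbackAlong φ hφ D P' ≠ 0) : D (P'.restrictAlong φ hφ) ≠ 0 := by
  intro h0
  apply h
  rw [Divisor.pullbackAlong_apply, h0, mul_zero]

end Pb

/-! ### the builder -/

section Build

variable [HasPrincipalDivisors Qbar F] (𝔻0 : RedDatum Qbar F0 (kA A) Ft)
  (hr : ∀ P, 𝔻0.r P = T.r P) (hsurj : Function.Surjective T.r)
  (hB0 : ∀ b ∈ T.S0.B, b ∈ 𝔻0.G) (hB1 : ∀ b ∈ T.S1.B, b ∈ 𝔻0.G)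
  (hS0 : ∀ (b : F0) (hb : b ∈ T.S0.B), T.S0.red ⟨b, hb⟩ = 𝔻0.red ⟨b, hB0 b hb⟩)
  (hS1 : ∀ (b : F0) (hb : b ∈ T.S1.B), T.S1.red ⟨b, hb⟩ = 𝔻0.red ⟨b, hB1 b hb⟩)
  (hFI : FundamentalIdentityAlong Qbar φ hφ)
  (bar : ι → Ft →+* Ft) (s : ι → SemilinearAut (kA A) Ft) (e : ι → ℕ)
  (hsb : ∀ v, SemiBar (bar v) (s v) (e v))
  (mem_G : ∀ v (g : 𝔻0.G), φ (g : F0) ∈ (𝔓.side v).G)
  (red_comm : ∀ v (g : 𝔻0.G), (𝔓.side v).red ⟨φ (g : F0), mem_G v g⟩ = bar v (𝔻0.red g))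

/-- **the degeneracy datum built from chart-level data.** -/
def build : PDegen 𝔓.toAssemblyData.toSemiRedDatum 𝔻0 where
  φ := φ
  down := fun P' => P'.restrictAlong φ hφ
  pb := Divisor.pullbackAlong φ hφ
  pb_divOf := fun g hg P' => pb_divOf_of 𝔻0.HL φ hφ hg P'
  pb_nonneg := pb_nonneg_of φ hφ
  pb_supp := pb_supp_of φ hφ
  n := finrankAlong Qbar φ
  degree_pb := fun D => Divisor.degree_pullbackAlong φ hφ hFI D
  bar := bar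
  mem_G := mem_G
  red_comm := red_comm
  ψ := fun v Q' => s v • Q'
  ψ_bij := fun v => (hsb v).ψ_bijective
  e := e
  ord_bar := fun v Q' f => (hsb v).ord_bar Q' f
  val_bar := fun v Q' f hf => (hsb v).val_bar 𝔓.Hk Q' hf
  r_compat := by
    intro P' v Q' h
    rw [hr]
    refine r_compat_of 𝔓 T hxt0 𝔻0.HL Hk0 φ hφ hmap0 hmap1 v (hsb v) ?_ ?_ h
    · intro b hb
      rw [hS0 b hb, ← red_comm v ⟨b, hB0 b hb⟩]
    · intro b hb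
      rw [hS1 b hb, ← red_comm v ⟨b, hB1 b hb⟩]
  node_compat := by
    intro n
    show s (𝔓.src n) • 𝔓.Qs n = s (𝔓.tgt n) • 𝔓.Qt n
    refine node_compat_of 𝔓 T hxt0 Hk0 φ hmap0 hmap1 hsurj n (hsb (𝔓.src n)) (hsb (𝔓.tgt n))
      ?_ ?_ ?_ ?_
    · intro b hb
      rw [hS0 b hb, ← red_comm (𝔓.src n) ⟨b, hB0 b hb⟩]
    · intro b hb
      rw [hS1 b hb, ← red_comm (𝔓.src n) ⟨b, hB1 b hb⟩]
    · intro b hb
      rw [hS0 b hb, ← red_comm (𝔓.tgt n) ⟨b, hB0 b hb⟩]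
    · intro b hb
      rw [hS1 b hb, ← red_comm (𝔓.tgt n) ⟨b, hB1 b hb⟩]

end Build

end

end Fermat.Agent.MP.TAU.Build9
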