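/-
PROGRAMME MP (row 38 via S44), chapter TAU (helper9): **(H1) for the second degeneracy map `β_p`
(`q ↦ q^p`) on the two-chart model of `X₀(M' p)`** (`p` odd, `4 ∣ M'`, `p ∤ M'`).

For `Y : Fbar (M' * p)` with `q`-expansion `t(q^p)`, `t = tq · 4 8` :

  **`betaP_t_mem_charts`** : `Y ∈ chart A (tB p M' h4)`  and  `Y⁻¹ ∈ chart A (tB p M' h4)⁻¹`,

in particular for `Y = β_p (tF M' _)` (`heckeBetaBar_t_mem_chart0`, `heckeBetaBar_t_inv_mem_chart1`).
This is `ModelN4.ModEqItems` (S2 of the N34 model: `ItemsAd6.modEqItems_four`) at a large normal finite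
level, transported by `BadLevelOne8.baseChangeHom_mem_chart0/1`.
-/
import Mathlib
import Fermat.Agent.ORD.IFACEN.BadFamily8
import Fermat.Agent.ES.N34.ModelEnd4
import Fermat.Agent.ORD.IFACEN.ChartOne1

set_option autoImplicit false
set_option linter.unusedSectionVars false
set_option linter.unusedVariables false
set_option linter.style.longLine false
set_option synthInstance.maxHeartbeats 400000
set_option maxHeartbeats 1000000

open HahnSeries ModularCurve IntermediateField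

noncomputable section

namespace Fermat.Agent.MP.TAU.ChartBetaP9

open Fermat.Agent.RED.Interface4 Fermat.Agent.RED.DESC.PlaceExtend27
  Fermat.Agent.RED.PUR.GaussGen8 Fermat.Agent.RED.PUR.GaussBridge10
  Fermat.Agent.RED.PUR.ChartGeneric22
  Fermat.Agent.RED.DESC.NumberFieldDVR27
  Fermat.Agent.RED.BASE.Interface12 Fermat.Agent.RED.BASE.EtaQuot12
  Fermat.Agent.RED.BASE.Hauptmodul12
  Fermat.Agent.ES.N34.ModelDefs9 Fermat.Agent.ES.N34.ModelN4 Fermat.Agent.ES.N34.ModelTop4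
  Fermat.Agent.ORD.IFACEN.BadLevelOne8 Fermat.Agent.ORD.IFACEN.BadFamily8
  Fermat.Agent.ORD.IFACEN.ChartOne1

variable (p M' : ℕ) [Fact p.Prime] [NeZero M'] (A : ValuationSubring Qbar)
  (hA : A.LiesOverPrime p) (hpM : ¬ p ∣ M') (h4 : 4 ∣ M') (hp2 : p ≠ 2)

include hA hpM h4 hp2 in
/-- S2 of the N34 model for all large normal number fields. -/
theorem large_modEqItems : Large (ModEqItems 4 8 p M' A) := by
  have hp : p.Prime := Fact.out
  exact Fermat.Agent.ES.N34.ItemsAd6.modEqItems_four hp hp2 hpM hA (chartItems_four h4 hp hA)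
    (Fermat.Agent.ES.N34.ModelEnd4.glueItems hp hpM hA
      (Fermat.Agent.RED.ModelFinal4.jTarget
        (Fermat.Agent.RED.BASE.MainCusp12.base_four M' h4).1.genBase))

include hA hpM h4 hp2 in
/-- **(H1) for `β_p`** : an element with `q`-expansion `t(q^p)` lies in the chart `t ≠ ∞`, and its
inverse in the chart `t ≠ 0`. -/
theorem betaP_t_mem_charts (Y : ↥(Fbar (M' * p)))
    (hY : (Y : LaurentSeries Qbar) = qExpand Qbar p (tq Qbar 4 8)) :
    Y ∈ chart0 p M' A h4 ∧ Y⁻¹ ∈ chart1 p M' A h4 := by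
  have hmem : TMem 4 8 M' := (Fermat.Agent.RED.BASE.MainCusp12.base_four M' h4).1.mem
  obtain ⟨K₁, hK₁, hT⟩ := Fermat.Agent.RED.BASE.TBridge15.exists_tq_mem 4 8 M' hmem
  obtain ⟨K₀, hK₀, H⟩ := large_modEqItems p M' A hA hpM h4 hp2
  have := hK₀
  have := hK₁
  obtain ⟨i, hi⟩ := exists_lvl_ge (K₀ ⊔ K₁) (K₀ ⊔ K₁) le_rfl
  have hfd : FiniteDimensional ℚ i.K := i.fd
  have hnor : Normal ℚ i.K := i.nor
  have ht : tq ↥i.K 4 8 ∈ FK M' i.K := hT i.K (le_sup_right.trans hi)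
  obtain ⟨h0, h1⟩ := H i.K hfd (le_sup_left.trans hi) ht
  have e : baseChangeHom (M' * p) i.K (yN p ht) = Y := by
    apply Subtype.ext
    rw [coe_baseChangeHom, hY]
    show coeffMap _ (qExpand ↥i.K p (tq ↥i.K 4 8)) = _
    rw [ModularCurve.coeffMap_qExpand, coeffMap_tq]
  refine ⟨?_, ?_⟩
  · rw [← e]
    exact baseChangeHom_mem_chart0 p M' A h4 i.K ht h0
  · rw [← e, ← map_inv₀]
    exact baseChangeHom_mem_chart1 p M' A h4 i.K ht h1

include hA hpM hp2 in
/-- `β_p t ∈ chart0`. -/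
theorem heckeBetaBar_t_mem_chart0 :
    heckeBetaBar Qbar M' p (tF M' (tMem_good M' h4)) ∈ chart0 p M' A h4 :=
  (betaP_t_mem_charts p M' A hA hpM h4 hp2 _
    (by rw [coe_heckeBetaBar, Fermat.Agent.ES.RED.TqIntF5.coe_tF])).1

include hA hpM hp2 in
/-- `(β_p t)⁻¹ ∈ chart1`. -/
theorem heckeBetaBar_t_inv_mem_chart1 :
    (heckeBetaBar Qbar M' p (tF M' (tMem_good M' h4)))⁻¹ ∈ chart1 p M' A h4 :=
  (betaP_t_mem_charts p M' A hA hpM h4 hp2 _
    (by rw [coe_heckeBetaBar, Fermat.Agent.ES.RED.TqIntF5.coe_tF])).2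

end Fermat.Agent.MP.TAU.ChartBetaP9
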