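/-
PROGRAMME MP (row 38 via S44), chapter TAU (helper9): **semilinear power maps on a function field and
their action on places.**

`Ft / k` a function field (`LHyp k Ft`), `s : SemilinearAut k Ft` (Prelude), `e ≥ 1`.  A ring
endomorphism `bar` of `Ft` is a *semilinear power map* (`SemiBar bar s e`) if it fixes the constants
and `bar f = (s⁻¹ • f) ^ e`.  Examples: `e = 1`, `s⁻¹` a `k`-automorphism (Fricke); `e = p`,
`s = ` the coefficientwise Frobenius of `k · F̃_M ⊂ k((q))` : `bar f = f(q^p)`.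

For `ψ Q' := s • Q'` (a bijection of the places):
* `SemiBar.ord_bar : Q'.ord (bar f) = e * (s • Q').ord f`;
* `SemiBar.mem_iff : f ∈ O_{s • Q'} ↔ bar f ∈ O_{Q'}`;
* `SemiBar.val_bar : f ∈ O_{s • Q'} → (bar f)(Q') = f(s • Q')`;
* `SemiBar.surjective` (`e = 1`), `SemiBar.exists_pow` (values are `e`-th powers);
* `SemiBar.comp` : composition.
-/
import Mathlib
import Fermat.Agent.RR.LSpace
import Fermat.Agent.MW.EMB.Value6
import Fermat.Agent.X0.FFPlace
import Fermat.Prelude.Def_AlgebraicCurve_BaseChangeGalois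

set_option autoImplicit false
set_option linter.unusedSectionVars false
set_option linter.style.longLine false

namespace Fermat.Agent.MP.TAU.SemiBar9

open AlgebraicCurve Fermat.Agent.X0.FF Fermat.Agent.RR.LSpace Fermat.Agent.MW.EMB.Value6

noncomputable section

variable {k Ft : Type*} [Field k] [Field Ft] [Algebra k Ft]

/-- `bar` is the semilinear power map `f ↦ (s⁻¹ • f) ^ e`, and it fixes the constants. -/
structure SemiBar (bar : Ft →+* Ft) (s : SemilinearAut k Ft) (e : ℕ) : Prop where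
  e_pos : 0 < e
  bar_eq : ∀ f : Ft, bar f = (s⁻¹ • f) ^ e
  bar_const : ∀ c : k, bar (algebraMap k Ft c) = algebraMap k Ft c

namespace SemiBar

variable {bar : Ft →+* Ft} {s : SemilinearAut k Ft} {e : ℕ} (h : SemiBar bar s e)
include h

/-- the map on places. -/
theorem ψ_bijective : Function.Bijective fun Q' : Place k Ft => s • Q' :=
  MulAction.bijective s

theorem ord_bar (Q' : Place k Ft) (f : Ft) : Q'.ord (bar f) = e * (s • Q').ord f := by
  have h1 : Q'.ord ((s⁻¹ • f) ^ e) = e * Q'.ord (s⁻¹ • f) := by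
    have := Q'.ord_zpow (s⁻¹ • f) e
    rwa [zpow_natCast] at this
  have h2 : (s • Q').ord f = Q'.ord (s⁻¹ • f) := by
    have := SemilinearAut.ord_smul s Q' (s⁻¹ • f)
    rwa [smul_inv_smul] at this
  rw [h.bar_eq, h1, h2]

theorem mem_iff (Q' : Place k Ft) (f : Ft) :
    f ∈ (s • Q').toValuationSubring ↔ bar f ∈ Q'.toValuationSubring := by
  have he : (0 : ℤ) < e := by exact_mod_cast h.e_pos
  constructor
  · intro hf
    apply ffp_mem_of_ord_nonneg
    rw [h.ord_bar]
    exact mul_nonneg he.le (ffp_ord_nonneg_of_mem _ hf)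
  · intro hf
    apply ffp_mem_of_ord_nonneg
    have h1 := ffp_ord_nonneg_of_mem _ hf
    rw [h.ord_bar] at h1
    exact nonneg_of_mul_nonneg_right h1 he

theorem bar_sub_const (f : Ft) (c : k) :
    bar (f - algebraMap k Ft c) = bar f - algebraMap k Ft c := by
  rw [map_sub, h.bar_const]

/-- **values**: `(bar f)(Q') = f(s • Q')`. -/
theorem val_bar (H : LHyp k Ft) (Q' : Place k Ft) {f : Ft}
    (hf : f ∈ (s • Q').toValuationSubring) :
    valF H Q' (bar f) = valF H (s • Q') f := by
  have he : (0 : ℤ) < e := by exact_mod_cast h.e_pos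
  set c := valF H (s • Q') f with hc
  apply valF_unique H Q' ((h.mem_iff Q' f).mp hf) c
  by_cases hne : f = algebraMap k Ft c
  · left
    rw [hne, h.bar_const]
  · right
    have h1 := ord_sub_valF_pos H (s • Q') hf hne
    rw [← h.bar_sub_const, h.ord_bar]
    exact mul_pos he h1

/-- the values of `bar` are `e`-th powers. -/
theorem exists_pow (f : Ft) : ∃ γ : Ft, bar f = γ ^ e := ⟨s⁻¹ • f, h.bar_eq f⟩

/-- for `e = 1` the map `bar` is surjective. -/
theorem surjective (he : e = 1) : Function.Surjective bar := by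
  intro g
  refine ⟨s • g, ?_⟩
  rw [h.bar_eq, he, pow_one, inv_smul_smul]

end SemiBar

/-- the identity. -/
theorem semiBar_id : SemiBar (RingHom.id Ft) (1 : SemilinearAut k Ft) 1 where
  e_pos := Nat.one_pos
  bar_eq f := by rw [inv_one, one_smul, pow_one]; rfl
  bar_const _ := rfl

/-- composition: first `bar₁`, then `bar₂`. -/
theorem SemiBar.comp {bar₁ bar₂ : Ft →+* Ft} {s₁ s₂ : SemilinearAut k Ft} {e₁ e₂ : ℕ}
    (h₁ : SemiBar bar₁ s₁ e₁) (h₂ : SemiBar bar₂ s₂ e₂) :
    SemiBar (bar₂.comp bar₁) (s₁ * s₂) (e₁ * e₂) where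
  e_pos := Nat.mul_pos h₁.e_pos h₂.e_pos
  bar_eq f := by
    rw [RingHom.comp_apply, h₁.bar_eq, map_pow, h₂.bar_eq, mul_inv_rev, mul_smul, pow_mul,
      pow_right_comm]
  bar_const c := by rw [RingHom.comp_apply, h₁.bar_const, h₂.bar_const]

/-- a `k`-algebra automorphism, as a semilinear power map with `e = 1` and `s = θ⁻¹`. -/
theorem semiBar_algEquiv (θ : Ft ≃ₐ[k] Ft) :
    SemiBar (θ : Ft →+* Ft) (SemilinearAut.ofAlgAut (K := k) (F := Ft) θ)⁻¹ 1 where
  e_pos := Nat.one_pos
  bar_eq f := by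
    rw [inv_inv, pow_one]
    rfl
  bar_const c := θ.commutes c

end

end Fermat.Agent.MP.TAU.SemiBar9
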