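/-
PROGRAMME MP (row 38 via S44), chapter TAU (helper9): **the two degeneracy maps `α_p`, `β_p` and the
Gauss valuation rings**: the component through `∞` of `X₀(M' p)`.

`A ≤ ℚbar` over `p`, `p ∤ M'`, `4 ∣ M'`.  `G0 = fracRing (gaussRedN A (resA A) M')` the Gauss valuation
ring of the GOOD level `M'` with `red0 = fracRed …`; `G1`, `red1` (`SideOne1`) the Gauss valuation ring
of the component through `∞` of the BAD level `M' p`.

* `Fq k p M : F̃ →+* F̃`, `f(q) ↦ f(q^p)` on `F̃ = modularFunctionFieldFullC k M` (`char k = p`), with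
  `coe_Fq`, `Fq_eq_pow : Fq f = (cφ⁻¹ • f) ^ p`, **`semiBar_Fq : SemiBar (Fq k p M) (frobSemi k p M) p`**;
* **(G1)** `alpha_mem_G1`, `red1_alpha : red1 (α_p g) = red0 g`;
* **(G2)** `beta_mem_G1`, `red1_beta : red1 (β_p g) = Fq (red0 g)`.
-/
import Mathlib
import Fermat.Agent.ORD.IFACEN.ChartOne1
import Fermat.Agent.ES.KRON.FrobPlace13
import Fermat.Agent.ES.KRON.KronCong24
import Fermat.Agent.MP.TAU.SemiBar9
import Fermat.Agent.ES.RED.GaussRing15

set_option autoImplicit false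
set_option linter.unusedSectionVars false
set_option linter.style.longLine false
set_option synthInstance.maxHeartbeats 400000

open HahnSeries ModularCurve Polynomial AlgebraicCurve

noncomputable section

namespace Fermat.Agent.MP.TAU.DegRed9

open Fermat.Agent.RED.Interface4 Fermat.Agent.ES.RED.ChartIntegralA1
  Fermat.Agent.ES.RED.GaussRing15 Fermat.Agent.FF.IFACE.GaussVal1
  Fermat.Agent.ORD.IFACEN.GaussBad1 Fermat.Agent.ORD.IFACEN.SideOne1
  Fermat.Agent.ES.KRON.FrobPlace13 Fermat.Agent.MP.TAU.SemiBar9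

/-! ### `f(q) ↦ f(q^p)` on the special fibre function field -/

section Fq

variable (k : Type*) [Field k] (p : ℕ) [hp : Fact p.Prime] [CharP k p] [PerfectField k]
  (M : ℕ) [NeZero M]

instance neZero_prime : NeZero p := ⟨hp.out.ne_zero⟩

local instance expChar_k : ExpChar k p := ExpChar.prime hp.out

theorem coe_frobSemi_inv_smul (f : ↥(modularFunctionFieldFullC k M)) :
    (((frobSemi k p M)⁻¹ • f : ↥(modularFunctionFieldFullC k M)) : LaurentSeries k) =
      coeffMap ((frobeniusEquiv k p).symm : k →+* k) f := rfl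

/-- `f(q^p) = (f^{φ⁻¹}(q))^p`. -/
theorem qExpand_eq_pow (f : ↥(modularFunctionFieldFullC k M)) :
    qExpand k p (f : LaurentSeries k) =
      (((frobSemi k p M)⁻¹ • f : ↥(modularFunctionFieldFullC k M)) : LaurentSeries k) ^ p := by
  rw [Fermat.Agent.ES.KRON.KronCong24.pow_char p, coe_frobSemi_inv_smul, coeffMap_coeffMap]
  have h1 : (frobenius k p).comp ((frobeniusEquiv k p).symm : k →+* k) = RingHom.id k := by
    ext a
    show frobenius k p ((frobeniusEquiv k p).symm a) = a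
    exact frobenius_apply_frobeniusEquiv_symm k p a
  rw [h1, coeffMap_id]

theorem qExpand_mem (f : ↥(modularFunctionFieldFullC k M)) :
    qExpand k p (f : LaurentSeries k) ∈ modularFunctionFieldFullC k M := by
  rw [qExpand_eq_pow]
  exact pow_mem (SetLike.coe_mem _) p

/-- **`f(q) ↦ f(q^p)`** on `k · F̃_M`. -/
def Fq : ↥(modularFunctionFieldFullC k M) →+* ↥(modularFunctionFieldFullC k M) where
  toFun f := ⟨qExpand k p (f : LaurentSeries k), qExpand_mem k p M f⟩
  map_one' := Subtype.ext (map_one (qExpand k p))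
  map_mul' _ _ := Subtype.ext (map_mul (qExpand k p) _ _)
  map_zero' := Subtype.ext (map_zero (qExpand k p))
  map_add' _ _ := Subtype.ext (map_add (qExpand k p) _ _)

@[simp] theorem coe_Fq (f : ↥(modularFunctionFieldFullC k M)) :
    ((Fq k p M f : ↥(modularFunctionFieldFullC k M)) : LaurentSeries k) =
      qExpand k p (f : LaurentSeries k) := rfl

theorem Fq_eq_pow (f : ↥(modularFunctionFieldFullC k M)) :
    Fq k p M f = ((frobSemi k p M)⁻¹ • f) ^ p :=
  Subtype.ext (qExpand_eq_pow k p M f)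

theorem Fq_algebraMap (c : k) :
    Fq k p M (algebraMap k ↥(modularFunctionFieldFullC k M) c) =
      algebraMap k ↥(modularFunctionFieldFullC k M) c := by
  apply Subtype.ext
  show qExpand k p (algebraMap k (LaurentSeries k) c) = algebraMap k (LaurentSeries k) c
  rw [algebraMap_laurentSeries_eq_single, qExpand_single, mul_zero]

/-- **`f(q) ↦ f(q^p)` is the semilinear power map of the coefficientwise Frobenius.** -/
theorem semiBar_Fq : SemiBar (Fq k p M) (frobSemi k p M) p where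
  e_pos := hp.out.pos
  bar_eq := Fq_eq_pow k p M
  bar_const := Fq_algebraMap k p M

end Fq

/-! ### the good Gauss ring inside the bad one -/

variable (p M' : ℕ) [Fact p.Prime] [NeZero M'] (A : ValuationSubring Qbar)
  (hA : A.LiesOverPrime p) (hpM : ¬ p ∣ M') (h4 : 4 ∣ M')

/-- the Gauss valuation ring of the good level. -/
abbrev G0 : Subring ↥(Fbar M') := fracRing (gaussRedN A (IsLocalRing.residue ↥A) M')

/-- its reduction. -/
abbrev red0 : ↥(G0 M' A) →+* ↥(modularFunctionFieldFullC (kA A) M') :=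
  fracRed (gaussRedN A (IsLocalRing.residue ↥A) M')

/-- `α_p`. -/
abbrev alphaP : ↥(Fbar M') →ₐ[Qbar] ↥(Fbar (M' * p)) := heckeAlphaBar Qbar M' p

/-- `β_p`. -/
abbrev betaP : ↥(Fbar M') →ₐ[Qbar] ↥(Fbar (M' * p)) := heckeBetaBar Qbar M' p

theorem alpha_mem_intF (a : ↥(gaussRingN A (IsLocalRing.residue ↥A) M')) :
    alphaP p M' (a : ↥(Fbar M')) ∈ intF A (M' * p) := by
  obtain ⟨Y, hY, -⟩ := a.2
  exact (mem_intF_iff A (M' * p)).mpr ⟨Y, hY.trans (coe_heckeAlphaBar M' p _).symm⟩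

theorem redB_alpha (a : ↥(gaussRingN A (IsLocalRing.residue ↥A) M')) :
    redB p M' A hA hpM h4 ⟨alphaP p M' (a : ↥(Fbar M')), alpha_mem_intF p M' A a⟩ =
      gaussRedN A (IsLocalRing.residue ↥A) M' a := by
  obtain ⟨Y, hY, hYt⟩ := a.2
  apply Subtype.ext
  rw [coe_redB_eq_of p M' hA hpM h4 (Y := Y) (hY.trans (coe_heckeAlphaBar M' p _).symm),
    gaussRed_eq A _ _ _ a hY]

theorem beta_mem_intF (a : ↥(gaussRingN A (IsLocalRing.residue ↥A) M')) :
    betaP p M' (a : ↥(Fbar M')) ∈ intF A (M' * p) := by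
  obtain ⟨Y, hY, -⟩ := a.2
  refine (mem_intF_iff A (M' * p)).mpr ⟨qExpand ↥A p Y, ?_⟩
  rw [Fermat.Agent.ES.RED.ResidueUnion1.coeffMap_qExpand', hY]
  rfl

theorem redB_beta [CharP (kA A) p] [PerfectField (kA A)]
    (a : ↥(gaussRingN A (IsLocalRing.residue ↥A) M')) :
    redB p M' A hA hpM h4 ⟨betaP p M' (a : ↥(Fbar M')), beta_mem_intF p M' A a⟩ =
      Fq (kA A) p M' (gaussRedN A (IsLocalRing.residue ↥A) M' a) := by
  obtain ⟨Y, hY, hYt⟩ := a.2
  apply Subtype.ext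
  have h1 : coeffMap A.subtype (qExpand ↥A p Y) =
      ((betaP p M' (a : ↥(Fbar M')) : ↥(Fbar (M' * p))) : LaurentSeries Qbar) := by
    rw [Fermat.Agent.ES.RED.ResidueUnion1.coeffMap_qExpand', hY]
    rfl
  rw [coe_redB_eq_of p M' hA hpM h4 (Y := qExpand ↥A p Y) h1, coe_Fq,
    gaussRed_eq A _ _ _ a hY, Fermat.Agent.ES.RED.ResidueUnion1.coeffMap_qExpand']

/-! ### (G1) : `α_p` -/

/-- **(G1)**: `α_p` maps the good Gauss valuation ring into `G1`. -/
theorem alpha_mem_G1 (g : ↥(G0 M' A)) :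
    alphaP p M' (g : ↥(Fbar M')) ∈ G1 p M' A hA hpM h4 := by
  obtain ⟨a, b, hb, hab, -⟩ := exists_num_den (gaussRedN A (IsLocalRing.residue ↥A) M') g
  refine ⟨⟨_, alpha_mem_intF p M' A a⟩, ⟨_, alpha_mem_intF p M' A b⟩, ?_, ?_⟩
  · rw [redB_alpha]; exact hb
  · show alphaP p M' (g : ↥(Fbar M')) * alphaP p M' (b : ↥(Fbar M')) = alphaP p M' (a : ↥(Fbar M'))
    rw [← map_mul, hab]

/-- **(G1)**: `red1 (α_p g) = red0 g`. -/
theorem red1_alpha (g : ↥(G0 M' A)) :
    red1 p M' A hA hpM h4 ⟨alphaP p M' (g : ↥(Fbar M')), alpha_mem_G1 p M' A hA hpM h4 g⟩ =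
      red0 M' A g := by
  obtain ⟨a, b, hb, hab, hred⟩ := exists_num_den (gaussRedN A (IsLocalRing.residue ↥A) M') g
  have hb' : redB p M' A hA hpM h4 ⟨_, alpha_mem_intF p M' A b⟩ ≠ 0 := by
    rw [redB_alpha]; exact hb
  have hrel : ((⟨alphaP p M' (g : ↥(Fbar M')), alpha_mem_G1 p M' A hA hpM h4 g⟩ :
      ↥(G1 p M' A hA hpM h4)) : ↥(Fbar (M' * p))) *
      ((⟨_, alpha_mem_intF p M' A b⟩ : intF A (M' * p)) : ↥(Fbar (M' * p))) =
      ((⟨_, alpha_mem_intF p M' A a⟩ : intF A (M' * p)) : ↥(Fbar (M' * p))) := by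
    show alphaP p M' (g : ↥(Fbar M')) * alphaP p M' (b : ↥(Fbar M')) = alphaP p M' (a : ↥(Fbar M'))
    rw [← map_mul, hab]
  have h1 := red1_mul_red p M' A hA hpM h4 _ hb' hrel
  rw [redB_alpha, redB_alpha] at h1
  exact mul_right_cancel₀ hb (h1.trans hred.symm)

/-! ### (G2) : `β_p` -/

variable [CharP (kA A) p] [PerfectField (kA A)]

/-- **(G2)**: `β_p` maps the good Gauss valuation ring into `G1`. -/
theorem beta_mem_G1 (g : ↥(G0 M' A)) :
    betaP p M' (g : ↥(Fbar M')) ∈ G1 p M' A hA hpM h4 := by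
  obtain ⟨a, b, hb, hab, -⟩ := exists_num_den (gaussRedN A (IsLocalRing.residue ↥A) M') g
  refine ⟨⟨_, beta_mem_intF p M' A a⟩, ⟨_, beta_mem_intF p M' A b⟩, ?_, ?_⟩
  · rw [redB_beta, Ne, map_eq_zero]; exact hb
  · show betaP p M' (g : ↥(Fbar M')) * betaP p M' (b : ↥(Fbar M')) = betaP p M' (a : ↥(Fbar M'))
    rw [← map_mul, hab]

/-- **(G2)**: `red1 (β_p g) = (red0 g)(q^p)`. -/
theorem red1_beta (g : ↥(G0 M' A)) :
    red1 p M' A hA hpM h4 ⟨betaP p M' (g : ↥(Fbar M')), beta_mem_G1 p M' A hA hpM h4 g⟩ =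
      Fq (kA A) p M' (red0 M' A g) := by
  obtain ⟨a, b, hb, hab, hred⟩ := exists_num_den (gaussRedN A (IsLocalRing.residue ↥A) M') g
  have hb' : redB p M' A hA hpM h4 ⟨_, beta_mem_intF p M' A b⟩ ≠ 0 := by
    rw [redB_beta, Ne, map_eq_zero]; exact hb
  have hb'' : Fq (kA A) p M' (gaussRedN A (IsLocalRing.residue ↥A) M' b) ≠ 0 := by
    rw [Ne, map_eq_zero]; exact hb
  have hrel : ((⟨betaP p M' (g : ↥(Fbar M')), beta_mem_G1 p M' A hA hpM h4 g⟩ :
      ↥(G1 p M' A hA hpM h4)) : ↥(Fbar (M' * p))) *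
      ((⟨_, beta_mem_intF p M' A b⟩ : intF A (M' * p)) : ↥(Fbar (M' * p))) =
      ((⟨_, beta_mem_intF p M' A a⟩ : intF A (M' * p)) : ↥(Fbar (M' * p))) := by
    show betaP p M' (g : ↥(Fbar M')) * betaP p M' (b : ↥(Fbar M')) = betaP p M' (a : ↥(Fbar M'))
    rw [← map_mul, hab]
  have h1 := red1_mul_red p M' A hA hpM h4 _ hb' hrel
  rw [redB_beta, redB_beta] at h1
  apply mul_right_cancel₀ hb''
  rw [h1, ← map_mul]
  exact congrArg _ hred.symm

end Fermat.Agent.MP.TAU.DegRed9
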