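/-
PROGRAMME MP (row 38 via S44), chapter TAU (helper9): **the automorphism of the residue field induced
by an involution preserving a valuation ring.**

`F` a field, `G ≤ F` a subring with a surjective `red : G →+* Ft` onto a field such that elements of
nonzero reduction are units of `G`; `θ : F →+* F` with `θ ∘ θ = id` and `θ G ⊆ G`.  Then `θ` preserves
`ker red` and induces `ind : Ft →+* Ft` with `ind (red g) = red (θ g)`, an involution; if constants are
reductions of `θ`-fixed elements, `indAlgEquiv : Ft ≃ₐ[k] Ft`.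
-/
import Mathlib

set_option autoImplicit false
set_option linter.unusedSectionVars false
set_option linter.style.longLine false

namespace Fermat.Agent.MP.TAU.InducedAut9

noncomputable section

variable {F Ft : Type*} [Field F] [Field Ft] {G : Subring F} (red : ↥G →+* Ft)
  (hsurj : Function.Surjective red)
  (hunit : ∀ g : ↥G, red g ≠ 0 → ((g : F))⁻¹ ∈ G)
  (θ : F →+* F) (hθθ : ∀ x, θ (θ x) = x) (hθG : ∀ g ∈ G, θ g ∈ G)

/-- `θ` restricted to `G`. -/
def restr : ↥G →+* ↥G := (θ.comp G.subtype).codRestrict G (fun g => hθG _ g.2)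

@[simp] theorem coe_restr (g : ↥G) : ((restr θ hθG g : ↥G) : F) = θ (g : F) := rfl

include hunit hθθ in
/-- `θ` preserves the kernel of the reduction. -/
theorem red_restr_eq_zero {g : ↥G} (hg : red g = 0) : red (restr θ hθG g) = 0 := by
  by_contra hne
  have h1 := hunit _ hne
  have h2 : θ (((restr θ hθG g : ↥G) : F))⁻¹ ∈ G := hθG _ h1
  rw [map_inv₀, coe_restr, hθθ] at h2
  have hg0 : (g : F) ≠ 0 := by
    intro h0
    apply hne
    have : restr θ hθG g = 0 := Subtype.ext (by rw [coe_restr, h0, map_zero]; rfl)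
    rw [this, map_zero]
  have hmul : g * ⟨_, h2⟩ = 1 := Subtype.ext (mul_inv_cancel₀ hg0)
  have := congrArg red hmul
  rw [map_mul, hg, zero_mul, map_one] at this
  exact zero_ne_one this

include hunit hθθ in
theorem ker_le : RingHom.ker red ≤ RingHom.ker (red.comp (restr θ hθG)) := by
  intro g hg
  rw [RingHom.mem_ker] at hg ⊢
  exact red_restr_eq_zero red hunit θ hθθ hθG hg

/-- **the induced endomorphism of the residue field.** -/
def ind : Ft →+* Ft :=
  RingHom.liftOfSurjective red hsurj ⟨red.comp (restr θ hθG), ker_le red hunit θ hθθ hθG⟩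

theorem ind_red (g : ↥G) :
    ind red hsurj hunit θ hθθ hθG (red g) = red ⟨θ (g : F), hθG _ g.2⟩ :=
  RingHom.liftOfRightInverse_comp_apply red _ _ ⟨red.comp (restr θ hθG), ker_le red hunit θ hθθ hθG⟩ g

theorem ind_red' {x : F} (hx : x ∈ G) :
    ind red hsurj hunit θ hθθ hθG (red ⟨x, hx⟩) = red ⟨θ x, hθG _ hx⟩ :=
  ind_red red hsurj hunit θ hθθ hθG ⟨x, hx⟩

theorem ind_ind (f : Ft) :
    ind red hsurj hunit θ hθθ hθG (ind red hsurj hunit θ hθθ hθG f) = f := by
  obtain ⟨g, rfl⟩ := hsurj f
  rw [ind_red, ind_red' red hsurj hunit θ hθθ hθG (hθG _ g.2)]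
  congr 1
  exact Subtype.ext (hθθ _)

/-- the induced automorphism as a ring equivalence. -/
def indEquiv : Ft ≃+* Ft where
  toFun := ind red hsurj hunit θ hθθ hθG
  invFun := ind red hsurj hunit θ hθθ hθG
  left_inv := ind_ind red hsurj hunit θ hθθ hθG
  right_inv := ind_ind red hsurj hunit θ hθθ hθG
  map_mul' := map_mul _
  map_add' := map_add _

section Alg

variable {k : Type*} [Field k] [Algebra k Ft]
  (hconst : ∀ c : k, ∃ g : ↥G, red g = algebraMap k Ft c ∧ θ (g : F) = (g : F))

include hconst in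
theorem ind_algebraMap (c : k) :
    ind red hsurj hunit θ hθθ hθG (algebraMap k Ft c) = algebraMap k Ft c := by
  obtain ⟨g, hg, hθg⟩ := hconst c
  rw [← hg, ind_red]
  congr 1
  exact Subtype.ext hθg

/-- **the induced `k`-algebra automorphism of the residue field.** -/
def indAlgEquiv : Ft ≃ₐ[k] Ft :=
  { indEquiv red hsurj hunit θ hθθ hθG with
    commutes' := ind_algebraMap red hsurj hunit θ hθθ hθG hconst }

theorem indAlgEquiv_red (g : ↥G) :
    indAlgEquiv red hsurj hunit θ hθθ hθG hconst (red g) = red ⟨θ (g : F), hθG _ g.2⟩ :=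
  ind_red red hsurj hunit θ hθθ hθG g

theorem indAlgEquiv_red' {x : F} (hx : x ∈ G) :
    indAlgEquiv red hsurj hunit θ hθθ hθG hconst (red ⟨x, hx⟩) = red ⟨θ x, hθG _ hx⟩ :=
  ind_red red hsurj hunit θ hθθ hθG ⟨x, hx⟩

theorem indAlgEquiv_indAlgEquiv (f : Ft) :
    indAlgEquiv red hsurj hunit θ hθθ hθG hconst
      (indAlgEquiv red hsurj hunit θ hθθ hθG hconst f) = f :=
  ind_ind red hsurj hunit θ hθθ hθG f

end Alg

end

end Fermat.Agent.MP.TAU.InducedAut9
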