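/-
PROGRAMME MP (row 38 via S44), chapter TAU (helper9): **the two degeneracy maps `α_p`, `β_p` and the
component through the cusp `0` of `X₀(M' p)`** (Gauss ring `side2.G = W⁻¹ G1`).

Hypothesis **(Y)** `hY : W_{M'} (G0) ⊆ G0` (the Fricke involution of the GOOD level preserves the Gauss
valuation ring) and `hsurj0 : red0` onto.  Then

* `wbar : F̃ ≃ₐ[k] F̃` the induced automorphism, `wbar_red0 : wbar (red0 g) = red0 (W g)`, involutive;
* `alpha_mem_side2`, **`red2_alpha : red2 (α_p g) = Fq (wbar (red0 g))`**;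
* `beta_mem_side2`, **`red2_beta : red2 (β_p g) = wbar (red0 g)`**
(from `W_{M' p} ∘ α_p = β_p ∘ W_{M'}`, `W_{M' p} ∘ β_p = α_p ∘ W_{M'}` of `MP/FUNC/FrickeDeg1` and
`DegRed9`).
-/
import Mathlib
import Fermat.Agent.MP.TAU.DegRed9
import Fermat.Agent.MP.TAU.InducedAut9
import Fermat.Agent.MP.FUNC.FrickeDeg1
import Fermat.Agent.ORD.IFACEN.GlueTwoN9

set_option autoImplicit false
set_option linter.unusedSectionVars false
set_option linter.style.longLine false
set_option synthInstance.maxHeartbeats 400000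

open HahnSeries ModularCurve Polynomial AlgebraicCurve

noncomputable section

namespace Fermat.Agent.MP.TAU.DegRedTwo9

open Fermat.Agent.RED.Interface4 Fermat.Agent.ES.RED.ChartIntegralA1
  Fermat.Agent.ES.RED.GaussRing15 Fermat.Agent.FF.IFACE.GaussVal1
  Fermat.Agent.ORD.IFACEN.GaussBad1 Fermat.Agent.ORD.IFACEN.SideOne1
  Fermat.Agent.ORD.IFACEN.SideTwo1 Fermat.Agent.ORD.IFACEN.GlueTwoN9
  Fermat.Agent.ES.KRON.FrobPlace13 Fermat.Agent.MP.TAU.SemiBar9
  Fermat.Agent.MP.TAU.DegRed9 Fermat.Agent.MP.TAU.InducedAut9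
  Fermat.Agent.ES.N34.FrickeFK8 Fermat.Agent.MP.FUNC.FrickeDeg1

local instance (priority := 100000) algKF9 (A : ValuationSubring Qbar) (M : ℕ) [NeZero M] :
    Algebra (kA A) ↥(modularFunctionFieldFullC (kA A) M) := inferInstance

variable (p M' : ℕ) [Fact p.Prime] [NeZero M'] (A : ValuationSubring Qbar)
  (hA : A.LiesOverPrime p) (hpM : ¬ p ∣ M') (h4 : 4 ∣ M')

/-- the hypothesis **(Y)**: the Fricke involution of the good level preserves the Gauss ring. -/
def FrickeStable : Prop := ∀ g ∈ G0 M' A, frickeBar M' g ∈ G0 M' A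

variable (hY : FrickeStable M' A) (hsurj0 : Function.Surjective (red0 M' A))

theorem hunit0 (g : ↥(G0 M' A)) (hg : red0 M' A g ≠ 0) : ((g : ↥(Fbar M')))⁻¹ ∈ G0 M' A :=
  inv_mem_of_fracRed_ne_zero _ hg

theorem const_mem_G0 (a : ↥A) : algebraMap Qbar ↥(Fbar M') (a : Qbar) ∈ G0 M' A :=
  le_fracRing _ (algebraMap_mem_gaussRing A _ _ _ a)

theorem red0_const (a : ↥A) :
    red0 M' A ⟨algebraMap Qbar ↥(Fbar M') (a : Qbar), const_mem_G0 M' A a⟩ =
      algebraMap (kA A) ↥(modularFunctionFieldFullC (kA A) M') (IsLocalRing.residue ↥A a) := by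
  have h := fracRed_of_mem (gaussRedN A (IsLocalRing.residue ↥A) M')
    ⟨algebraMap Qbar ↥(Fbar M') (a : Qbar), algebraMap_mem_gaussRing A _ _ _ a⟩
  rw [gaussRed_algebraMap] at h
  exact h

theorem hconst0 (c : kA A) : ∃ g : ↥(G0 M' A),
    red0 M' A g = algebraMap (kA A) ↥(modularFunctionFieldFullC (kA A) M') c ∧
      (frickeBar M' : ↥(Fbar M') →+* ↥(Fbar M')) (g : ↥(Fbar M')) = (g : ↥(Fbar M')) := by
  obtain ⟨a, rfl⟩ := IsLocalRing.residue_surjective c
  exact ⟨⟨_, const_mem_G0 M' A a⟩, red0_const M' A a, (frickeBar M').commutes _⟩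

/-- **the automorphism of `k · F̃_{M'}` induced by the Fricke involution `W_{M'}`.** -/
def wbar : ↥(modularFunctionFieldFullC (kA A) M') ≃ₐ[kA A] ↥(modularFunctionFieldFullC (kA A) M') :=
  indAlgEquiv (red0 M' A) hsurj0 (hunit0 M' A) (frickeBar M' : ↥(Fbar M') →+* ↥(Fbar M'))
    (frickeBar_frickeBar M') hY (hconst0 M' A)

theorem wbar_red0 (g : ↥(G0 M' A)) :
    wbar M' A hY hsurj0 (red0 M' A g) = red0 M' A ⟨frickeBar M' (g : ↥(Fbar M')), hY _ g.2⟩ :=
  indAlgEquiv_red _ _ _ _ _ _ _ g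

theorem wbar_wbar (f : ↥(modularFunctionFieldFullC (kA A) M')) :
    wbar M' A hY hsurj0 (wbar M' A hY hsurj0 f) = f :=
  indAlgEquiv_indAlgEquiv _ _ _ _ _ _ _ f

theorem red1_congr {x y : ↥(Fbar (M' * p))} (h : x = y) (hx : x ∈ G1 p M' A hA hpM h4)
    (hy : y ∈ G1 p M' A hA hpM h4) :
    red1 p M' A hA hpM h4 ⟨x, hx⟩ = red1 p M' A hA hpM h4 ⟨y, hy⟩ := by
  subst h; rfl

variable [CharP (kA A) p] [PerfectField (kA A)]

include hY in
/-- `α_p` maps the good Gauss ring into the Gauss ring of the second component. -/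
theorem alpha_mem_side2 (g : ↥(G0 M' A)) :
    alphaP p M' (g : ↥(Fbar M')) ∈ (side2 p M' A hA hpM h4).G := by
  rw [mem_side2_iff, frickeBar_heckeAlphaBar]
  exact beta_mem_G1 p M' A hA hpM h4 ⟨_, hY _ g.2⟩

/-- **`red2 (α_p g) = (w̄ (red0 g))(q^p)`.** -/
theorem red2_alpha (g : ↥(G0 M' A)) :
    (side2 p M' A hA hpM h4).red ⟨alphaP p M' (g : ↥(Fbar M')), alpha_mem_side2 p M' A hA hpM h4 hY g⟩ =
      Fq (kA A) p M' (wbar M' A hY hsurj0 (red0 M' A g)) := by
  rw [side2_red_eq, wbar_red0, ← red1_beta p M' A hA hpM h4 ⟨_, hY _ g.2⟩]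
  exact red1_congr p M' A hA hpM h4 (frickeBar_heckeAlphaBar M' p _) _ _

include hY in
/-- `β_p` maps the good Gauss ring into the Gauss ring of the second component. -/
theorem beta_mem_side2 (g : ↥(G0 M' A)) :
    betaP p M' (g : ↥(Fbar M')) ∈ (side2 p M' A hA hpM h4).G := by
  rw [mem_side2_iff, frickeBar_heckeBetaBar]
  exact alpha_mem_G1 p M' A hA hpM h4 ⟨_, hY _ g.2⟩

/-- **`red2 (β_p g) = w̄ (red0 g)`.** -/
theorem red2_beta (g : ↥(G0 M' A)) :
    (side2 p M' A hA hpM h4).red ⟨betaP p M' (g : ↥(Fbar M')), beta_mem_side2 p M' A hA hpM h4 hY g⟩ =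
      wbar M' A hY hsurj0 (red0 M' A g) := by
  rw [side2_red_eq, wbar_red0, ← red1_alpha p M' A hA hpM h4 ⟨_, hY _ g.2⟩]
  exact red1_congr p M' A hA hpM h4 (frickeBar_heckeBetaBar M' p _) _ _

end Fermat.Agent.MP.TAU.DegRedTwo9
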