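/-
PROGRAMME MP (row 38 via S44), chapter TAU (helper9): **the two degeneracy data `α_p`, `β_p` from
`GoodDatum9.goodDatum` (level `M₀`) to `MainDatum6.datum` (level `M₀ p`)**, modulo **(Y)** (`FrickeStable`:
the Fricke involution `W_{M₀}` preserves the Gauss valuation ring of the good level).

* `𝔓 hpM h4 hp2` : the two-chart data of the bad level (`datum = 𝔓.toAssemblyData.toSemiRedDatum`, rfl);
* `aDeg hpM h4 hp2 hY`, `bDeg hpM h4 hp2 hY : PDegen (datum hpM h4 hp2) (goodDatum hpM h4)` with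
  `φ = heckeAlphaBar / heckeBetaBar ℚ̄ M₀ p`, `pb = Divisor.pullbackAlong`, `n = finrankAlong = p + 1`,
  `bar = (id, Fq ∘ w̄)` / `(Fq, w̄)`, `e = (1, 1 * p)` / `(p, 1)`.
-/
import Mathlib
import Fermat.Agent.MP.FINAL.MainDatum6
import Fermat.Agent.MP.TAU.GoodDatum9
import Fermat.Agent.MP.TAU.DegRedTwo9
import Fermat.Agent.MP.TAU.ChartBetaP9
import Fermat.Agent.MP.TAU.Build9
import Fermat.Agent.ES.HECKE.InputsMain19
import Fermat.Agent.MP.FUNC.PtsMap1

set_option autoImplicit false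
set_option linter.unusedSectionVars false
set_option linter.unusedVariables false
set_option linter.style.longLine false
set_option synthInstance.maxHeartbeats 400000
set_option maxHeartbeats 1000000

open AlgebraicCurve ModularCurve IntermediateField

noncomputable section

namespace Fermat.Agent.MP.TAU.Inst9

open Fermat.Agent.X0.FF Fermat.Agent.RR.LSpace
open Fermat.Agent.RED.Interface4 Fermat.Agent.ES.RED.ChartIntegralA1
open Fermat.Agent.RED.BASE.Hauptmodul12 Fermat.Agent.RED.BASE.Interface12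
open Fermat.Agent.RED.PUR.ChartGeneric22
open Fermat.Agent.ES.RED.GaussRing15 Fermat.Agent.FF.IFACE.GaussVal1
open Fermat.Agent.ES.RED.ModelInstFinal4 Fermat.Agent.ES.RED.TwoCharts8
open Fermat.Agent.FF.BASE.Place2 Fermat.Agent.FF.RED.RedDatum7
open Fermat.Agent.ORD.ANN.Side3 Fermat.Agent.ORD.SEMIRED.SemiRedDatum9
open Fermat.Agent.ORD.IFACEN.SideOne1 Fermat.Agent.ORD.IFACEN.SideTwo1
open Fermat.Agent.ORD.IFACEN.ChartOne1 Fermat.Agent.ORD.IFACEN.PtsAssembly3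
open Fermat.Agent.ORD.IFACEN.TwoCompInst6 Fermat.Agent.ORD.IFACEN.TwoCompAssembly3
open Fermat.Agent.ES.KRON.FrobPlace13 Fermat.Agent.ES.HECKE
open Fermat.Agent.MP.FINAL.MainDatum6
open Fermat.Agent.MP.TAU.PDegen9 Fermat.Agent.MP.TAU.SemiBar9 Fermat.Agent.MP.TAU.GoodDatum9
open Fermat.Agent.MP.TAU.DegRed9 Fermat.Agent.MP.TAU.DegRedTwo9 Fermat.Agent.MP.TAU.ChartBetaP9
open Fermat.Agent.MP.TAU.Build9

local instance (priority := 100000) algKF9i (A : ValuationSubring Qbar) (M : ℕ) [NeZero M] :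
    Algebra (kA A) ↥(modularFunctionFieldFullC (kA A) M) := inferInstance

variable {p M₀ : ℕ} [Fact p.Prime] [NeZero M₀] (hpM : ¬ p ∣ M₀) (h4 : 4 ∣ M₀) (hp2 : p ≠ 2)

instance isAlgClosed_k : IsAlgClosed (kA (padicPlace p)) :=
  Fermat.Agent.ES.KRON.KronInst10.isAlgClosed_residueField (padicPlace p)

instance charP_k : CharP (kA (padicPlace p)) p :=
  Fermat.Agent.ORD.IFACEN.ResidueFacts7.charP_residueField (padicPlace p) (Fact.out : p.Prime)
    (liesOverPrime p)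

/-- **the two-chart data of the model of `X₀(M₀ p)` along `padicPlace p`.** -/
def 𝔓 : PtsData (base (padicPlace p)) ↥(Fbar (M₀ * p))
    ↥(modularFunctionFieldFullC (kA (padicPlace p)) M₀) (Fin 2) (Nodes hpM h4 hp2) :=
  (hypMain hpM h4 hp2).ptsData (lHyp_bad (M₀ * p))
    (lHyp_good p M₀ (padicPlace p) (liesOverPrime (ℓ := p)) hpM h4)

theorem datum_eq_𝔓 : datum hpM h4 hp2 = (𝔓 hpM h4 hp2).toAssemblyData.toSemiRedDatum := rfl

theorem 𝔓_B0 : (𝔓 hpM h4 hp2).B0 = chart0 p M₀ (padicPlace p) h4 := rfl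

theorem 𝔓_B1 : (𝔓 hpM h4 hp2).B1 = chart1 p M₀ (padicPlace p) h4 := rfl

theorem 𝔓_side_zero : (𝔓 hpM h4 hp2).side 0 =
    side1 p M₀ (padicPlace p) (liesOverPrime (ℓ := p)) hpM h4 := rfl

theorem 𝔓_side_one : (𝔓 hpM h4 hp2).side 1 =
    side2 p M₀ (padicPlace p) (liesOverPrime (ℓ := p)) hpM h4 := rfl

/-! ### the good level: chart-level facts -/

theorem cc0 : Fermat.Agent.ES.RED.GaloisInst21.CoeffChart (F₀ := modularFunctionFieldFull M₀)
    (goodT hpM h4).S0 :=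
  coeffChart0_final 4 8 M₀ p hpM (tMem4 h4) (tGenBase' baseHyp_four) (padicPlace p)
    (liesOverPrime (ℓ := p))

theorem cc1 : Fermat.Agent.ES.RED.GaloisInst21.CoeffChart (F₀ := modularFunctionFieldFull M₀)
    (goodT hpM h4).S1 :=
  coeffChart1_final 4 8 M₀ p hpM (tMem4 h4) (tGenBase' baseHyp_four) (padicPlace p)
    (liesOverPrime (ℓ := p))

/-- the generator of the special fibre function field. -/
theorem isGen_xt0 :
    IsGen (kA (padicPlace p)) ((goodT hpM h4).S0.red (goodT hpM h4).S0.sB) :=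
  (Fermat.Agent.ES.RED.RedInst15.chartInputs_both 4 8 M₀ p hpM (tMem4 h4) (tGenBase' baseHyp_four)
    (padicPlace p) (liesOverPrime (ℓ := p)) (goodT hpM h4) (cc0 hpM h4) (cc1 hpM h4) rfl
    (peelA0_final 4 8 M₀ p hpM (tMem4 h4) (tGenBase' baseHyp_four) (padicPlace p)
      (liesOverPrime (ℓ := p)) baseHyp_four h4 (cv4 h4) (hcv4 h4))
    (peelA1_final 4 8 M₀ p hpM (tMem4 h4) (tGenBase' baseHyp_four) (padicPlace p)
      (liesOverPrime (ℓ := p)) baseHyp_four h4 (cv4 h4) (hcv4 h4))).1.gent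

theorem hB0 : ∀ b ∈ (goodT hpM h4).S0.B, b ∈ (goodDatum hpM h4).G := fun b hb =>
  le_fracRing _ (Fermat.Agent.FF.IFACE.Inst1.chart_le_gauss (cc0 hpM h4) hb)

theorem hB1 : ∀ b ∈ (goodT hpM h4).S1.B, b ∈ (goodDatum hpM h4).G := fun b hb =>
  le_fracRing _ (Fermat.Agent.FF.IFACE.Inst1.chart_le_gauss (cc1 hpM h4) hb)

theorem hS0red (b : ↥(Fbar M₀)) (hb : b ∈ (goodT hpM h4).S0.B) :
    (goodT hpM h4).S0.red ⟨b, hb⟩ = (goodDatum hpM h4).red ⟨b, hB0 hpM h4 b hb⟩ :=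
  ((fracRed_of_mem _ ⟨b, Fermat.Agent.FF.IFACE.Inst1.chart_le_gauss (cc0 hpM h4) hb⟩).trans
    (Fermat.Agent.FF.IFACE.Inst1.gaussRed_of_chart (cc0 hpM h4) ⟨b, hb⟩)).symm

theorem hS1red (b : ↥(Fbar M₀)) (hb : b ∈ (goodT hpM h4).S1.B) :
    (goodT hpM h4).S1.red ⟨b, hb⟩ = (goodDatum hpM h4).red ⟨b, hB1 hpM h4 b hb⟩ :=
  ((fracRed_of_mem _ ⟨b, Fermat.Agent.FF.IFACE.Inst1.chart_le_gauss (cc1 hpM h4) hb⟩).trans
    (Fermat.Agent.FF.IFACE.Inst1.gaussRed_of_chart (cc1 hpM h4) ⟨b, hb⟩)).symm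

theorem goodT_r_surj : Function.Surjective (goodT hpM h4).r := (goodDatum hpM h4).r_surj

/-! ### the reduction data on the two components -/

section Bars

variable (hY : FrickeStable M₀ (padicPlace p))

/-- the automorphism of the special fibre function field induced by `W_{M₀}`. -/
abbrev wb : ↥(modularFunctionFieldFullC (kA (padicPlace p)) M₀) ≃ₐ[kA (padicPlace p)]
    ↥(modularFunctionFieldFullC (kA (padicPlace p)) M₀) :=
  wbar M₀ (padicPlace p) hY (goodDatum_red_surjective hpM h4)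

/-- `f ↦ f(q^p)` on the special fibre function field. -/
abbrev fq : ↥(modularFunctionFieldFullC (kA (padicPlace p)) M₀) →+*
    ↥(modularFunctionFieldFullC (kA (padicPlace p)) M₀) :=
  Fq (kA (padicPlace p)) p M₀

/-- the reductions of `α_p` on the two components. -/
def barA : Fin 2 → ↥(modularFunctionFieldFullC (kA (padicPlace p)) M₀) →+*
    ↥(modularFunctionFieldFullC (kA (padicPlace p)) M₀) :=
  ![RingHom.id _, (fq (p := p) (M₀ := M₀)).comp (wb hpM h4 hY : _ →+* _)]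

def sA : Fin 2 → SemilinearAut (kA (padicPlace p))
    ↥(modularFunctionFieldFullC (kA (padicPlace p)) M₀) :=
  ![1, (SemilinearAut.ofAlgAut (wb hpM h4 hY))⁻¹ * frobSemi (kA (padicPlace p)) p M₀]

def eA : Fin 2 → ℕ := ![1, 1 * p]

theorem semiBarA (v : Fin 2) :
    SemiBar (barA hpM h4 hY v) (sA hpM h4 hY v) (eA (p := p) v) := by
  fin_cases v
  · exact semiBar_id
  · exact (semiBar_algEquiv (wb hpM h4 hY)).comp (semiBar_Fq (kA (padicPlace p)) p M₀)

/-- the reductions of `β_p` on the two components. -/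
def barB : Fin 2 → ↥(modularFunctionFieldFullC (kA (padicPlace p)) M₀) →+*
    ↥(modularFunctionFieldFullC (kA (padicPlace p)) M₀) :=
  ![fq (p := p) (M₀ := M₀), (wb hpM h4 hY : _ →+* _)]

def sB : Fin 2 → SemilinearAut (kA (padicPlace p))
    ↥(modularFunctionFieldFullC (kA (padicPlace p)) M₀) :=
  ![frobSemi (kA (padicPlace p)) p M₀, (SemilinearAut.ofAlgAut (wb hpM h4 hY))⁻¹]

def eB : Fin 2 → ℕ := ![p, 1]

theorem semiBarB (v : Fin 2) :
    SemiBar (barB hpM h4 hY v) (sB hpM h4 hY v) (eB (p := p) v) := by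
  fin_cases v
  · exact semiBar_Fq (kA (padicPlace p)) p M₀
  · exact semiBar_algEquiv (wb hpM h4 hY)

end Bars

/-! ### (H1) -/

theorem hmap0_alpha : ∀ b ∈ (goodT hpM h4).S0.B,
    heckeAlphaBar Qbar M₀ p b ∈ (𝔓 hpM h4 hp2).B0 := fun b hb =>
  alphaA_mem_chart0 p M₀ (padicPlace p) h4 (y := b) hb

theorem hmap1_alpha : ∀ b ∈ (goodT hpM h4).S1.B,
    heckeAlphaBar Qbar M₀ p b ∈ (𝔓 hpM h4 hp2).B1 := fun b hb =>
  alphaA_mem_chart1 p M₀ (padicPlace p) h4 (y := b) hb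

theorem chart0_intcl (z : ↥(Fbar (M₀ * p)))
    (hz : IsIntegral (chart0 p M₀ (padicPlace p) h4) z) : z ∈ chart0 p M₀ (padicPlace p) h4 :=
  chart_intcl _ z hz

theorem chart1_intcl (z : ↥(Fbar (M₀ * p)))
    (hz : IsIntegral (chart1 p M₀ (padicPlace p) h4) z) : z ∈ chart1 p M₀ (padicPlace p) h4 :=
  chart_intcl _ z hz

theorem const_mem_chart0 (a : ↥(padicPlace p)) :
    algebraMap Qbar ↥(Fbar (M₀ * p)) (a : Qbar) ∈ chart0 p M₀ (padicPlace p) h4 := by
  have h := (chart0 p M₀ (padicPlace p) h4).algebraMap_mem a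
  rwa [IsScalarTower.algebraMap_apply ↥(padicPlace p) Qbar ↥(Fbar (M₀ * p))] at h

theorem const_mem_chart1 (a : ↥(padicPlace p)) :
    algebraMap Qbar ↥(Fbar (M₀ * p)) (a : Qbar) ∈ chart1 p M₀ (padicPlace p) h4 := by
  have h := (chart1 p M₀ (padicPlace p) h4).algebraMap_mem a
  rwa [IsScalarTower.algebraMap_apply ↥(padicPlace p) Qbar ↥(Fbar (M₀ * p))] at h

include hpM hp2 in
theorem hmap0_beta : ∀ b ∈ (goodT hpM h4).S0.B,
    heckeBetaBar Qbar M₀ p b ∈ (𝔓 hpM h4 hp2).B0 := fun b hb =>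
  Fermat.Agent.MP.FUNC.PtsMap1.map_chart_mem (A := padicPlace p) (heckeBetaBar Qbar M₀ p)
    (C := (chart0 p M₀ (padicPlace p) h4).toSubring)
    (chart0_intcl h4) (const_mem_chart0 h4)
    (heckeBetaBar_t_mem_chart0 p M₀ (padicPlace p) (liesOverPrime (ℓ := p)) hpM h4 hp2) hb

include hpM hp2 in
theorem hmap1_beta : ∀ b ∈ (goodT hpM h4).S1.B,
    heckeBetaBar Qbar M₀ p b ∈ (𝔓 hpM h4 hp2).B1 := fun b hb =>
  Fermat.Agent.MP.FUNC.PtsMap1.map_chart_mem (A := padicPlace p) (heckeBetaBar Qbar M₀ p)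
    (C := (chart1 p M₀ (padicPlace p) h4).toSubring)
    (chart1_intcl h4) (const_mem_chart1 h4)
    (by
      rw [map_inv₀]
      exact heckeBetaBar_t_inv_mem_chart1 p M₀ (padicPlace p) (liesOverPrime (ℓ := p)) hpM h4 hp2)
    hb

/-! ### (H2) -/

section H2

variable (hY : FrickeStable M₀ (padicPlace p))

include hY in
theorem memG_alpha (v : Fin 2) (g : (goodDatum hpM h4).G) :
    heckeAlphaBar Qbar M₀ p (g : ↥(Fbar M₀)) ∈ ((𝔓 hpM h4 hp2).side v).G := by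
  fin_cases v
  · exact alpha_mem_G1 p M₀ (padicPlace p) (liesOverPrime (ℓ := p)) hpM h4 g
  · exact alpha_mem_side2 p M₀ (padicPlace p) (liesOverPrime (ℓ := p)) hpM h4 hY g

theorem redComm_alpha (v : Fin 2) (g : (goodDatum hpM h4).G) :
    ((𝔓 hpM h4 hp2).side v).red ⟨heckeAlphaBar Qbar M₀ p (g : ↥(Fbar M₀)),
      memG_alpha hpM h4 hp2 hY v g⟩ = barA hpM h4 hY v ((goodDatum hpM h4).red g) := by
  fin_cases v
  · exact red1_alpha p M₀ (padicPlace p) (liesOverPrime (ℓ := p)) hpM h4 g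
  · exact red2_alpha p M₀ (padicPlace p) (liesOverPrime (ℓ := p)) hpM h4 hY
      (goodDatum_red_surjective hpM h4) g

include hY in
theorem memG_beta (v : Fin 2) (g : (goodDatum hpM h4).G) :
    heckeBetaBar Qbar M₀ p (g : ↥(Fbar M₀)) ∈ ((𝔓 hpM h4 hp2).side v).G := by
  fin_cases v
  · exact beta_mem_G1 p M₀ (padicPlace p) (liesOverPrime (ℓ := p)) hpM h4 g
  · exact beta_mem_side2 p M₀ (padicPlace p) (liesOverPrime (ℓ := p)) hpM h4 hY g

theorem redComm_beta (v : Fin 2) (g : (goodDatum hpM h4).G) :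
    ((𝔓 hpM h4 hp2).side v).red ⟨heckeBetaBar Qbar M₀ p (g : ↥(Fbar M₀)),
      memG_beta hpM h4 hp2 hY v g⟩ = barB hpM h4 hY v ((goodDatum hpM h4).red g) := by
  fin_cases v
  · exact red1_beta p M₀ (padicPlace p) (liesOverPrime (ℓ := p)) hpM h4 g
  · exact red2_beta p M₀ (padicPlace p) (liesOverPrime (ℓ := p)) hpM h4 hY
      (goodDatum_red_surjective hpM h4) g

end H2

/-! ### the two degeneracy data -/

section Deg

variable (hY : FrickeStable M₀ (padicPlace p))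

instance hasPD : HasPrincipalDivisors Qbar ↥(Fbar (M₀ * p)) :=
  InputsMain19.hasPrincipalDivisors_level M₀ p

/-- **the degeneracy datum of `α_p`.** -/
def aDeg : PDegen (datum hpM h4 hp2) (goodDatum hpM h4) :=
  build (𝔓 hpM h4 hp2) (goodT hpM h4) (isGen_xt0 hpM h4) (goodDatum hpM h4).Hk
    (heckeAlphaBar Qbar M₀ p)
    (AlongDegree25.heckeAlphaBarIntegral Qbar M₀ p (Fact.out : p.Prime) hpM)
    (hmap0_alpha hpM h4 hp2) (hmap1_alpha hpM h4 hp2)
    (goodDatum hpM h4) (fun _ => rfl) (goodT_r_surj hpM h4)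
    (hB0 hpM h4) (hB1 hpM h4) (hS0red hpM h4) (hS1red hpM h4)
    (InputsMain19.fundamentalIdentityAlong_alpha M₀ p (Fact.out : p.Prime) hpM)
    (barA hpM h4 hY) (sA hpM h4 hY) eA (semiBarA hpM h4 hY)
    (memG_alpha hpM h4 hp2 hY) (redComm_alpha hpM h4 hp2 hY)

/-- **the degeneracy datum of `β_p`.** -/
def bDeg : PDegen (datum hpM h4 hp2) (goodDatum hpM h4) :=
  build (𝔓 hpM h4 hp2) (goodT hpM h4) (isGen_xt0 hpM h4) (goodDatum hpM h4).Hk
    (heckeBetaBar Qbar M₀ p)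
    (AlongDegree25.heckeBetaBarIntegral Qbar M₀ p (Fact.out : p.Prime) hpM)
    (hmap0_beta hpM h4 hp2) (hmap1_beta hpM h4 hp2)
    (goodDatum hpM h4) (fun _ => rfl) (goodT_r_surj hpM h4)
    (hB0 hpM h4) (hB1 hpM h4) (hS0red hpM h4) (hS1red hpM h4)
    (InputsMain19.fundamentalIdentityAlong_beta M₀ p (Fact.out : p.Prime) hpM)
    (barB hpM h4 hY) (sB hpM h4 hY) eB (semiBarB hpM h4 hY)
    (memG_beta hpM h4 hp2 hY) (redComm_beta hpM h4 hp2 hY)

end Deg

end Fermat.Agent.MP.TAU.Inst9
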