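/-
PROGRAMME MP (row 38 via S44), chapter TAU (helper9): **membership in the kernel of reduction from a
tuple of functions on the components** (the criterion (K1) of the (α-weak) step).

`mem_kerRed_of_tuple` : let `𝔻` be a semistable datum with a non-special system `S` and Riemann's
inequality `hRR`.  Let `Z` be a divisor of degree `0` off the annuli and `h = (h v)` a tuple of nonzero
functions on the components, units at all branches, such that
(a) the reduction of `Z` on the smooth points of the component `v` is `div (h v)`,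
(c) the values of `h` at the two branches of every node coincide.
Then the class of `Z` lies in `kerRed 𝔻`.

This is helper2's twisted non-special lemma (`TwistedNSAdapt2.twistedNS`) for a divisor off the annuli
(torus coordinate `1`) followed by `KerN9.exists_kap_eq_of_twisted`.
-/
import Mathlib
import Fermat.Agent.ORD.KERN.KerN9
import Fermat.Agent.ORD.ANN.TwistedNSAdapt2

set_option autoImplicit false
set_option linter.unusedSectionVars false
set_option linter.style.longLine false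

namespace Fermat.Agent.MP.TAU.KerCrit9

open AlgebraicCurve Fermat.Agent.X0.FF Fermat.Agent.RR.LSpace Fermat.Agent.MW.EMB.Value6
open Fermat.Agent.ORD.ANN.Side3 Fermat.Agent.ORD.ANN.Node3 Fermat.Agent.ORD.ANN.SemiRed3
open Fermat.Agent.ORD.ANN.TwistedNSAdapt2
open Fermat.Agent.ORD.SEMIRED.SemiRedDatum9 Fermat.Agent.ORD.SEMIRED.ToSemiRed9
open Fermat.Agent.ORD.KERN.KerDefs9 Fermat.Agent.ORD.KERN.KerN9

noncomputable section

variable {L F k Ft : Type*} [Field L] [Field F] [Algebra L F] [Field k] [Field Ft] [Algebra k Ft]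
variable {ι E : Type*} {𝔻 : SemiRedDatum L F k Ft ι E} {g : ℕ}

open Classical in
/-- the annulus sum of a divisor off the annuli vanishes. -/
theorem annSum_eq_zero_of_offAnn {Z : Divisor L F} (hZ : OffAnn 𝔻 Z) (e : E) :
    (toSemiRed 𝔻).annSum Z e = 0 := by
  unfold SemiRed.annSum
  refine Finset.sum_eq_zero fun P hP => ?_
  have hmem : P ∈ ((toSemiRed 𝔻).node e).ann := (Finset.mem_filter.mp hP).2
  exact hZ P e ((𝔻.r_ann e P).mp hmem)

open Classical in
/-- the torus coordinate of a divisor off the annuli is `1`. -/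
theorem annProd_eq_one_of_offAnn {Z : Divisor L F} (hZ : OffAnn 𝔻 Z) (e : E) :
    (toSemiRed 𝔻).annProd Z e = 1 := by
  unfold SemiRed.annProd
  refine Finset.prod_eq_one fun P hP => ?_
  have hmem : P ∈ ((toSemiRed 𝔻).node e).ann := (Finset.mem_filter.mp hP).2
  rw [hZ P e ((𝔻.r_ann e P).mp hmem), zpow_zero]

/-- **(K1)** membership in the kernel of reduction from a matched tuple. -/
theorem mem_kerRed_of_tuple [Finite ι] [Nonempty ι] (S : NSSystemN 𝔻 g)
    (hRR : ∀ E' : Divisor L F, Divisor.degree E' = g → ∃ f : F, f ≠ 0 ∧ ∀ P, -(E' P) ≤ P.ord f)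
    (Z : Divisor.degZero (K := L) (F := F)) (hoff : OffAnn 𝔻 (Z : Divisor L F))
    (h : ι → Ft) (hh0 : ∀ v, h v ≠ 0)
    (hbs : ∀ e, (𝔻.Qs e).ord (h (𝔻.src e)) = 0) (hbt : ∀ e, (𝔻.Qt e).ord (h (𝔻.tgt e)) = 0)
    (ha : ∀ v Q, 𝔻.IsSm v Q →
      Finsupp.mapDomain 𝔻.r (Z : Divisor L F) (Sum.inl (v, Q)) = Q.ord (h v))
    (hc : ∀ e, valF 𝔻.Hk (𝔻.Qt e) (h (𝔻.tgt e)) = valF 𝔻.Hk (𝔻.Qs e) (h (𝔻.src e))) :
    Pic0.mk Z ∈ kerRed 𝔻 := by
  have hRR' : ∀ D : Divisor L F, Divisor.degree D = Divisor.degree S.D0 →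
      ∃ (φ : F) (hφ : φ ≠ 0), 0 ≤ D + divOf 𝔻.HL hφ := by
    intro D hD
    rw [S.degree_D0] at hD
    obtain ⟨f, hf, hfD⟩ := hRR D hD
    refine ⟨f, hf, fun P => ?_⟩
    rw [Finsupp.add_apply, divOf_apply]
    have := hfD P
    simp only [Finsupp.coe_zero, Pi.zero_apply]
    omega
  obtain ⟨φ, hφ, hE0, hEsm, hEfib⟩ := twistedNS (toSemiRed 𝔻) S.D0 S.D0_nonneg
    (fun P hP => S.smooth_of_D0_ne_zero hP) S.nonSpecial_D0 hRR' (Z : Divisor L F)
    (Divisor.mem_degZero.mp Z.2) h hh0 hbs hbt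
    (fun v Q hvQ => by
      rw [toSemiRed_fibSum]
      exact ha v Q ((toSemiRed_nonBranch_iff 𝔻).mp hvQ))
    (fun e => annSum_eq_zero_of_offAnn hoff e)
    (fun e => by
      rw [annProd_eq_one_of_offAnn hoff e]
      exact (𝔻.B).isU_one)
    (fun e => by
      rw [annProd_eq_one_of_offAnn hoff e, (𝔻.B).resL_one, one_mul]
      exact hc e)
  obtain ⟨T, hT⟩ := exists_kap_eq_of_twisted S Z hφ hE0 hEsm hEfib
  rw [← hT]
  exact kap_mem_kerRed S T

end

end Fermat.Agent.MP.TAU.KerCrit9
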