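/-
PROGRAMME MP (row 38 via S44), chapter TAU (helper9): **the step (α-weak), abstract form.**

`𝔻` a semistable datum with two components `v1 ≠ v2` over a residue field of characteristic `p`,
`𝔻0` a good-reduction datum, `a b : PDegen 𝔻 𝔻0` the two degeneracy maps (`α_p` : isomorphism on
`v1`, Frobenius on `v2`; `β_p` : Frobenius on `v1`, isomorphism on `v2`).

`alpha_weak` : let `D` be a divisor off the annuli with `p • D = div f`, `f` normalised by ONE constant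
`c` on both components, the reductions of `c f` being units at all branches (`τ = 0`).  Then with
`Du := α_* (part of D on v1)`, `Dw := β_* (part of D on v2)` (divisors of degree `0` of the good level)
the class of `D - α^* Du - β^* Dw` lies in the kernel of reduction `kerRed 𝔻`.

Proof: the reduction of `Z = D - α^* Du - β^* Dw` is `-p ·` (transfer of the reduction of `D` on the
other component) (`PDegen9.pb_push`), which is the divisor of `h v1 = γ1⁻¹`, `h v2 = γ2⁻¹` with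
`γ1 ^ p = β̄_{v1} (β̄_{v2}⁻¹ f̄_{v2})`, `γ2 ^ p = ᾱ_{v2} (ᾱ_{v1}⁻¹ f̄_{v1})`; the branch values of `h` are
matched because those of `f̄` are ((NODE) for `c f`) and the Frobenius of `k` is injective; conclude by
`KerCrit9.mem_kerRed_of_tuple`.
-/
import Mathlib
import Fermat.Agent.MP.TAU.KerCrit9
import Fermat.Agent.MP.TAU.PDegen9
import Fermat.Agent.ORD.ANN.MatchedDatum3

set_option autoImplicit false
set_option linter.unusedSectionVars false
set_option linter.style.longLine false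

namespace Fermat.Agent.MP.TAU.AlphaWeak9

open AlgebraicCurve Fermat.Agent.X0.FF Fermat.Agent.RR.LSpace Fermat.Agent.MW.EMB.Value6
open Fermat.Agent.ORD.ANN.Side3 Fermat.Agent.ORD.ANN.Node3
open Fermat.Agent.ORD.SEMIRED.SemiRedDatum9
open Fermat.Agent.ORD.KERN.KerDefs9 Fermat.Agent.ORD.KERN.KerN9
open Fermat.Agent.FF.RED.RedDatum7
open Fermat.Agent.FF.KER.Ker0 (mapDomain_sub')
open Fermat.Agent.MP.TAU.KerCrit9 Fermat.Agent.MP.TAU.PDegen9

noncomputable section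

variable {L F F0 k Ft Ft0 : Type*} [Field L] [Field F] [Algebra L F] [Field F0] [Algebra L F0]
  [Field k] [Field Ft] [Algebra k Ft] [Field Ft0] [Algebra k Ft0]
variable {ι E : Type*} {𝔻 : SemiRedDatum L F k Ft ι E} {𝔻0 : RedDatum L F0 k Ft0}

/-- the value of the inverse of a unit. -/
theorem valF_inv_of_ord_eq_zero (H : LHyp k Ft) (Q : Place k Ft) {γ : Ft} (hγ : γ ≠ 0)
    (hord : Q.ord γ = 0) : valF H Q γ⁻¹ = (valF H Q γ)⁻¹ := by
  have hm : γ ∈ Q.toValuationSubring := ffp_mem_of_ord_nonneg _ (le_of_eq hord.symm)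
  have hm' : γ⁻¹ ∈ Q.toValuationSubring :=
    ffp_mem_of_ord_nonneg _ (by rw [Q.ord_inv, hord, neg_zero])
  have h1 := valF_mul H Q hm hm'
  rw [mul_inv_cancel₀ hγ, valF_one] at h1
  exact eq_inv_of_mul_eq_one_right h1.symm

/-- `p`-th roots are unique in characteristic `p`. -/
theorem eq_of_pow_eq {p : ℕ} [Fact p.Prime] [CharP k p] {x y : k} (h : x ^ p = y ^ p) : x = y :=
  frobenius_inj k p h

/-- the order of a `p`-th root. -/
theorem ord_of_pow_eq {p : ℕ} (hp : p ≠ 0) (Q : Place k Ft) {γ x : Ft} (h : x = γ ^ p) {m : ℤ}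
    (hm : Q.ord x = p * m) : Q.ord γ = m := by
  have h1 : Q.ord (γ ^ p) = p * Q.ord γ := by
    have := Q.ord_zpow γ p
    rwa [zpow_natCast] at this
  rw [h, h1] at hm
  have hp' : (p : ℤ) ≠ 0 := by exact_mod_cast hp
  exact mul_left_cancel₀ hp' hm

section Main

variable {p : ℕ} [Fact p.Prime] [CharP k p]
variable (a b : PDegen 𝔻 𝔻0) {v1 v2 : ι} (h12 : v1 ≠ v2) (hι : ∀ v : ι, v = v1 ∨ v = v2)

include h12 hι in
/-- **(α-weak), abstract form.** -/
theorem alpha_weak [Finite ι] [Nonempty ι]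
    (ha1 : a.e v1 = 1) (ha2 : a.e v2 = p) (hb1 : b.e v1 = p) (hb2 : b.e v2 = 1)
    (han : a.n = p + 1) (hbn : b.n = p + 1)
    (hasurj : Function.Surjective (a.bar v1)) (hbsurj : Function.Surjective (b.bar v2))
    (hapow : ∀ f0 : Ft0, ∃ γ : Ft, a.bar v2 f0 = γ ^ p)
    (hbpow : ∀ f0 : Ft0, ∃ γ : Ft, b.bar v1 f0 = γ ^ p)
    {g : ℕ} (S : NSSystemN 𝔻 g)
    (hRR : ∀ E' : Divisor L F, Divisor.degree E' = g → ∃ f : F, f ≠ 0 ∧ ∀ P, -(E' P) ≤ P.ord f)
    (D : Divisor L F) (hoff : OffAnn 𝔻 D) {f : F} (hf : f ≠ 0)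
    (hdiv : ∀ P : Place L F, (p : ℤ) * D P = P.ord f)
    {c : L} (hc : ∀ v, (𝔻.side v).IsNorm c f)
    (hbs : ∀ e, (𝔻.Qs e).ord ((𝔻.side (𝔻.src e)).nred c f) = 0)
    (hbt : ∀ e, (𝔻.Qt e).ord ((𝔻.side (𝔻.tgt e)).nred c f) = 0) :
    ∃ (Du Dw : Divisor.degZero (K := L) (F := F0)) (Z : Divisor.degZero (K := L) (F := F)),
      (Z : Divisor L F) = D - a.pb Du - b.pb Dw ∧ Pic0.mk Z ∈ kerRed 𝔻 := by
  classical
  have hp : p.Prime := Fact.out
  have hp0 : p ≠ 0 := hp.ne_zero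
  have hpz : (p : ℤ) ≠ 0 := by exact_mod_cast hp0
  -- the reductions of `f`
  set fb : ι → Ft := fun v => (𝔻.side v).nred c f with hfb
  have hfb0 : ∀ v, fb v ≠ 0 := fun v => (hc v).nred_ne_zero
  have hdivf : divOf 𝔻.HL hf = (p : ℤ) • D := by
    ext P
    rw [divOf_apply, Finsupp.smul_apply, smul_eq_mul, hdiv]
  have hord_sm : ∀ v Q', 𝔻.IsSm v Q' →
      Q'.ord (fb v) = p * Finsupp.mapDomain 𝔻.r D (Sum.inl (v, Q')) := by
    intro v Q' hsm
    rw [← mapDomain_divOf_of_isNorm 𝔻 hf (hc v) hsm, hdivf, Finsupp.mapDomain_smul,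
      Finsupp.smul_apply, smul_eq_mul]
  have hord_br : ∀ v Q', 𝔻.IsBranch v Q' → Q'.ord (fb v) = 0 := by
    rintro v Q' (⟨e, rfl, rfl⟩ | ⟨e, rfl, rfl⟩)
    · exact hbs e
    · exact hbt e
  -- (NODE) for `c f`
  have hnode : ∀ e, valF 𝔻.Hk (𝔻.Qs e) (fb (𝔻.src e)) = valF 𝔻.Hk (𝔻.Qt e) (fb (𝔻.tgt e)) := by
    intro e
    have hpf : 𝔻.PoleFreeAnn (algebraMap L F c * f) e := by
      intro P hP
      rw [ord_const_mul P (hc (𝔻.src e)).c_ne_zero hf, ← hdiv, hoff P e hP, mul_zero]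
    have h3 := (Fermat.Agent.ORD.ANN.MatchedDatum3.nodeMatched 𝔻 e _ (hc (𝔻.src e)).mem
      (hc (𝔻.tgt e)).mem hpf).2.2.1
    show valF 𝔻.Hk (𝔻.Qs e) ((𝔻.side (𝔻.src e)).nred c f) =
      valF 𝔻.Hk (𝔻.Qt e) ((𝔻.side (𝔻.tgt e)).nred c f)
    rw [(hc (𝔻.src e)).nred_eq, (hc (𝔻.tgt e)).nred_eq]
    exact h3
  -- the functions on the good fibre and the `p`-th roots
  obtain ⟨gu, hgu⟩ := hasurj (fb v1)
  obtain ⟨gw, hgw⟩ := hbsurj (fb v2)
  obtain ⟨γ1, hγ1⟩ := hbpow gw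
  obtain ⟨γ2, hγ2⟩ := hapow gu
  have hgu0 : gu ≠ 0 := by
    rintro rfl
    rw [map_zero] at hgu
    exact hfb0 v1 hgu.symm
  have hgw0 : gw ≠ 0 := by
    rintro rfl
    rw [map_zero] at hgw
    exact hfb0 v2 hgw.symm
  have hγ10 : γ1 ≠ 0 := by
    rintro rfl
    rw [zero_pow hp0] at hγ1
    exact b.bar_ne_zero v1 hgw0 hγ1
  have hγ20 : γ2 ≠ 0 := by
    rintro rfl
    rw [zero_pow hp0] at hγ2
    exact a.bar_ne_zero v2 hgu0 hγ2
  have hordgu : ∀ Q', (a.ψ v1 Q').ord gu = Q'.ord (fb v1) := by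
    intro Q'
    have := a.ord_bar v1 Q' gu
    rw [hgu, ha1] at this
    simpa using this.symm
  have hordgw : ∀ Q', (b.ψ v2 Q').ord gw = Q'.ord (fb v2) := by
    intro Q'
    have := b.ord_bar v2 Q' gw
    rw [hgw, hb2] at this
    simpa using this.symm
  have hordγ1 : ∀ Q', Q'.ord γ1 = (b.tr v1 v2 Q').ord (fb v2) := by
    intro Q'
    apply ord_of_pow_eq hp0 Q' hγ1
    rw [b.ord_bar, hb1, ← hordgw (b.tr v1 v2 Q'), b.ψ_tr]
  have hordγ2 : ∀ Q', Q'.ord γ2 = (a.tr v2 v1 Q').ord (fb v1) := by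
    intro Q'
    apply ord_of_pow_eq hp0 Q' hγ2
    rw [a.ord_bar, ha2, ← hordgu (a.tr v2 v1 Q'), a.ψ_tr]
  -- the tuple
  set h : ι → Ft := fun v => if v = v1 then γ1⁻¹ else γ2⁻¹ with hh
  have hh1 : h v1 = γ1⁻¹ := by rw [hh]; simp
  have hh2 : h v2 = γ2⁻¹ := by rw [hh]; simp [h12.symm]
  have hh0 : ∀ v, h v ≠ 0 := by
    intro v
    rcases hι v with hv | hv
    · rw [hv, hh1]; exact inv_ne_zero hγ10
    · rw [hv, hh2]; exact inv_ne_zero hγ20
  -- the reductions of the pulled-back divisors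
  have hn_a : a.e v1 + a.e v2 = a.n := by rw [ha1, ha2, han]; ring
  have hn_b : b.e v1 + b.e v2 = b.n := by rw [hb1, hb2, hbn]
  obtain ⟨hoffa, hreda⟩ := a.pb_push h12 hι hn_a D v1
  obtain ⟨hoffb, hredb⟩ := b.pb_push h12 hι hn_b D v2
  -- degrees
  have hredOn : ∀ w, (p : ℤ) • redOn 𝔻 D w = divOf 𝔻.Hk (hfb0 w) := by
    intro w
    ext Q'
    rw [Finsupp.smul_apply, smul_eq_mul, redOn_apply, divOf_apply]
    by_cases hbr : 𝔻.IsBranch w Q'
    · rw [hord_br w Q' hbr, mapDomain_r_apply_of_isBranch 𝔻 D hbr, mul_zero]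
    · exact (hord_sm w Q' hbr).symm
  have hdegred : ∀ w, Divisor.degree (redOn 𝔻 D w) = 0 := by
    intro w
    have := congrArg Divisor.degree (hredOn w)
    rw [map_zsmul, degree_divOf, smul_eq_mul] at this
    exact (mul_eq_zero.mp this).resolve_left hpz
  have hdegD : Divisor.degree D = 0 := by
    have := congrArg Divisor.degree hdivf
    rw [degree_divOf, map_zsmul, smul_eq_mul] at this
    exact (mul_eq_zero.mp this.symm).resolve_left hpz
  have hdegu : Divisor.degree (a.push D v1) = 0 := by rw [a.degree_push, hdegred]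
  have hdegw : Divisor.degree (b.push D v2) = 0 := by rw [b.degree_push, hdegred]
  set Z0 : Divisor L F := D - a.pb (a.push D v1) - b.pb (b.push D v2) with hZ0
  have hdegZ : Divisor.degree Z0 = 0 := by
    rw [hZ0, map_sub, map_sub, a.degree_pb, b.degree_pb, hdegu, hdegw, hdegD]
    simp
  -- the tuple is made of units at the branches
  have hunit : ∀ v Q', 𝔻.IsBranch v Q' → Q'.ord (h v) = 0 := by
    intro v Q' hbr
    rcases hι v with hv | hv
    · rw [hv] at hbr ⊢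
      rw [hh1, Place.ord_inv, hordγ1, neg_eq_zero]
      apply hord_br
      by_contra hsm
      exact (b.isSm_of_ψ_eq h12 hι (b.ψ_tr v1 v2 Q') hsm) hbr
    · rw [hv] at hbr ⊢
      rw [hh2, Place.ord_inv, hordγ2, neg_eq_zero]
      apply hord_br
      by_contra hsm
      exact (a.isSm_of_ψ_eq h12 hι (a.ψ_tr v2 v1 Q') hsm) hbr
  -- the branch values
  have hcore : ∀ Q1 Q2 : Place k Ft, 𝔻.IsBranch v1 Q1 → 𝔻.IsBranch v2 Q2 →
      a.ψ v1 Q1 = a.ψ v2 Q2 → b.ψ v1 Q1 = b.ψ v2 Q2 →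
      valF 𝔻.Hk Q1 (fb v1) = valF 𝔻.Hk Q2 (fb v2) →
      valF 𝔻.Hk Q1 (h v1) = valF 𝔻.Hk Q2 (h v2) := by
    intro Q1 Q2 hbr1 hbr2 haψ hbψ hval
    have ho1 : Q1.ord γ1 = 0 := by
      have := hunit v1 Q1 hbr1
      rwa [hh1, Place.ord_inv, neg_eq_zero] at this
    have ho2 : Q2.ord γ2 = 0 := by
      have := hunit v2 Q2 hbr2
      rwa [hh2, Place.ord_inv, neg_eq_zero] at this
    have hm1 : γ1 ∈ Q1.toValuationSubring := ffp_mem_of_ord_nonneg _ (le_of_eq ho1.symm)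
    have hm2 : γ2 ∈ Q2.toValuationSubring := ffp_mem_of_ord_nonneg _ (le_of_eq ho2.symm)
    have hgwm : gw ∈ (b.ψ v1 Q1).toValuationSubring := by
      apply ffp_mem_of_ord_nonneg
      rw [hbψ, hordgw, hord_br v2 Q2 hbr2]
    have hgum : gu ∈ (a.ψ v2 Q2).toValuationSubring := by
      apply ffp_mem_of_ord_nonneg
      rw [← haψ, hordgu, hord_br v1 Q1 hbr1]
    have e1 : valF 𝔻.Hk Q1 γ1 ^ p = valF 𝔻.Hk Q2 (fb v2) := by
      rw [← valF_pow 𝔻.Hk Q1 hm1, ← hγ1, b.val_bar v1 Q1 gw hgwm, ← hgw,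
        b.val_bar v2 Q2 gw (hbψ ▸ hgwm), hbψ]
    have e2 : valF 𝔻.Hk Q2 γ2 ^ p = valF 𝔻.Hk Q1 (fb v1) := by
      rw [← valF_pow 𝔻.Hk Q2 hm2, ← hγ2, a.val_bar v2 Q2 gu hgum, ← hgu,
        a.val_bar v1 Q1 gu (haψ ▸ hgum), haψ]
    have e3 : valF 𝔻.Hk Q1 γ1 = valF 𝔻.Hk Q2 γ2 := by
      apply eq_of_pow_eq (p := p)
      rw [e1, e2, hval]
    rw [hh1, hh2, valF_inv_of_ord_eq_zero 𝔻.Hk Q1 hγ10 ho1,
      valF_inv_of_ord_eq_zero 𝔻.Hk Q2 hγ20 ho2, e3]
  refine ⟨⟨a.push D v1, Divisor.mem_degZero.mpr hdegu⟩, ⟨b.push D v2, Divisor.mem_degZero.mpr hdegw⟩,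
    ⟨Z0, Divisor.mem_degZero.mpr hdegZ⟩, rfl, ?_⟩
  refine mem_kerRed_of_tuple S hRR ⟨Z0, Divisor.mem_degZero.mpr hdegZ⟩
    ((hoff.sub hoffa).sub hoffb) h hh0
    (fun e => hunit _ _ (Or.inl ⟨e, rfl, rfl⟩)) (fun e => hunit _ _ (Or.inr ⟨e, rfl, rfl⟩)) ?_ ?_
  · -- (a) the reduction of `Z0`
    have hA1 : ∀ Q', 𝔻.IsSm v1 Q' →
        Finsupp.mapDomain 𝔻.r Z0 (Sum.inl (v1, Q')) = Q'.ord (h v1) := by
      intro Q' hsm
      have hsm2 : 𝔻.IsSm v2 (b.tr v1 v2 Q') :=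
        b.isSm_of_ψ_eq h12 hι (b.ψ_tr v1 v2 Q').symm hsm
      rw [hZ0, mapDomain_sub', mapDomain_sub', Finsupp.sub_apply, Finsupp.sub_apply, hreda, hredb,
        a.tr_self, ha1, hb1, hh1, Place.ord_inv, hordγ1, hord_sm v2 _ hsm2]
      push_cast
      ring
    have hA2 : ∀ Q', 𝔻.IsSm v2 Q' →
        Finsupp.mapDomain 𝔻.r Z0 (Sum.inl (v2, Q')) = Q'.ord (h v2) := by
      intro Q' hsm
      have hsm1 : 𝔻.IsSm v1 (a.tr v2 v1 Q') :=
        a.isSm_of_ψ_eq h12 hι (a.ψ_tr v2 v1 Q').symm hsm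
      rw [hZ0, mapDomain_sub', mapDomain_sub', Finsupp.sub_apply, Finsupp.sub_apply, hreda, hredb,
        b.tr_self, ha2, hb2, hh2, Place.ord_inv, hordγ2, hord_sm v1 _ hsm1]
      push_cast
      ring
    intro v Q' hsm
    rcases hι v with hv | hv
    · rw [hv] at hsm ⊢
      exact hA1 Q' hsm
    · rw [hv] at hsm ⊢
      exact hA2 Q' hsm
  · -- (c) the branch values
    intro e
    rcases hι (𝔻.src e) with hs | hs
    · have ht : 𝔻.tgt e = v2 := by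
        rcases hι (𝔻.tgt e) with ht | ht
        · exact absurd (hs.trans ht.symm) (a.src_ne_tgt e)
        · exact ht
      have hbr1 : 𝔻.IsBranch v1 (𝔻.Qs e) := Or.inl ⟨e, hs, rfl⟩
      have hbr2 : 𝔻.IsBranch v2 (𝔻.Qt e) := Or.inr ⟨e, ht, rfl⟩
      have haψ : a.ψ v1 (𝔻.Qs e) = a.ψ v2 (𝔻.Qt e) := by
        have := a.node_compat e
        rwa [show a.ψ (𝔻.src e) = a.ψ v1 from congrArg a.ψ hs,
          show a.ψ (𝔻.tgt e) = a.ψ v2 from congrArg a.ψ ht] at this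
      have hbψ : b.ψ v1 (𝔻.Qs e) = b.ψ v2 (𝔻.Qt e) := by
        have := b.node_compat e
        rwa [show b.ψ (𝔻.src e) = b.ψ v1 from congrArg b.ψ hs,
          show b.ψ (𝔻.tgt e) = b.ψ v2 from congrArg b.ψ ht] at this
      have hval : valF 𝔻.Hk (𝔻.Qs e) (fb v1) = valF 𝔻.Hk (𝔻.Qt e) (fb v2) := by
        have := hnode e
        rwa [show fb (𝔻.src e) = fb v1 from congrArg fb hs,
          show fb (𝔻.tgt e) = fb v2 from congrArg fb ht] at this
      rw [show h (𝔻.tgt e) = h v2 from congrArg h ht, show h (𝔻.src e) = h v1 from congrArg h hs]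
      exact (hcore _ _ hbr1 hbr2 haψ hbψ hval).symm
    · have ht : 𝔻.tgt e = v1 := by
        rcases hι (𝔻.tgt e) with ht | ht
        · exact ht
        · exact absurd (hs.trans ht.symm) (a.src_ne_tgt e)
      have hbr1 : 𝔻.IsBranch v1 (𝔻.Qt e) := Or.inr ⟨e, ht, rfl⟩
      have hbr2 : 𝔻.IsBranch v2 (𝔻.Qs e) := Or.inl ⟨e, hs, rfl⟩
      have haψ : a.ψ v1 (𝔻.Qt e) = a.ψ v2 (𝔻.Qs e) := by
        have := a.node_compat e
        rw [show a.ψ (𝔻.src e) = a.ψ v2 from congrArg a.ψ hs,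
          show a.ψ (𝔻.tgt e) = a.ψ v1 from congrArg a.ψ ht] at this
        exact this.symm
      have hbψ : b.ψ v1 (𝔻.Qt e) = b.ψ v2 (𝔻.Qs e) := by
        have := b.node_compat e
        rw [show b.ψ (𝔻.src e) = b.ψ v2 from congrArg b.ψ hs,
          show b.ψ (𝔻.tgt e) = b.ψ v1 from congrArg b.ψ ht] at this
        exact this.symm
      have hval : valF 𝔻.Hk (𝔻.Qt e) (fb v1) = valF 𝔻.Hk (𝔻.Qs e) (fb v2) := by
        have := hnode e
        rw [show fb (𝔻.src e) = fb v2 from congrArg fb hs,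
          show fb (𝔻.tgt e) = fb v1 from congrArg fb ht] at this
        exact this.symm
      rw [show h (𝔻.tgt e) = h v1 from congrArg h ht, show h (𝔻.src e) = h v2 from congrArg h hs]
      exact hcore _ _ hbr1 hbr2 haψ hbψ hval

end Main

end

end Fermat.Agent.MP.TAU.AlphaWeak9
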