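/-
PROGRAMME MP (row 38 via S44), chapter TAU (helper3): **the good representative on `ker τ`**.

On a datum with TWO components (every component is the source or the target of one fixed node `e0`)
and a **slope supply** (functions of Gauss norm `1` on every component with prescribed slopes
`(n e, p · n e)` resp. `(p · n e, n e)` at the two branches of every node — for `X_0(pM0)` these are
the pull-backs along `α_p`, `β_p` of functions of the good level `M0` with prescribed orders at the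
supersingular points), every class `y` killed by `p` with `τ(y) = 0` has a FLAT Kummer pair for `-y`:

  `exists_flat : ∃ (K : Kum p (-y)) (c : L), Flat 𝔻 K c`.

Proof.  `(D, f)` a Kummer pair of `y`, slopes `p σ_e`, `p σ'_e` (`τ(y) = 0` and (N1)).
 Step A (slopes): `f₁ := f ^ (p² − 1) / (g_α g_β) ^ p` with `g_α`, `g_β` from the supply for
   `n_α = p σ' − σ`, `n_β = p σ − σ'` has all slopes `0` (the lattice spanned by `(1, p)`, `(p, 1)` has
   index `p² − 1`, prime to `p`); it is a Kummer function of `(p² − 1) • y = -y`.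
 Step B (Gauss norms): `ϱ := ∏_{P ∈ ann e0} (x − a_P) ^ D₁(P)` is a unit with reduction `1` on both
   components (normalisers `1` and `∏ (−a_P)^{-D₁(P)}`; Σ D₁(P) = 0 by (N1)), and (N2) for `f₁` says that
   `f₂ := f₁ / ϱ ^ p` has the same Gauss norm on the two components.
-/
import Mathlib
import Fermat.Agent.MP.TAU.KumCrit3

set_option autoImplicit false
set_option linter.unusedSectionVars false
set_option linter.style.longLine false

namespace Fermat.Agent.MP.TAU.GoodRep3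

open AlgebraicCurve Fermat.Agent.X0.FF Fermat.Agent.RR.LSpace Fermat.Agent.MW.EMB.Value6
open Fermat.Agent.ORD.ANN.Side3 Fermat.Agent.ORD.ANN.Node3 Fermat.Agent.ORD.ANN.SemiRed3
open Fermat.Agent.ORD.SEMIRED.SemiRedDatum9 Fermat.Agent.ORD.SEMIRED.ToSemiRed9
open Fermat.Agent.ORD.REDN.DiscC9 Fermat.Agent.ORD.KERN.KerDefs9 Fermat.Agent.ORD.KERN.KerN9
open Fermat.Agent.MP.TAU.TauDefs3 Fermat.Agent.MP.TAU.KumCrit3

noncomputable section

variable {L F k Ft : Type*} [Field L] [Field F] [Algebra L F] [Field k] [Field Ft] [Algebra k Ft]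
variable {ι E : Type*}

/-! ### twisting a Kummer pair by a function -/

/-- change the representative: `(D, f) ↦ (D − div h, f / h ^ p)`. -/
def twist (H : LHyp L F) {p : ℕ} {y : Pic0 L F} (K : Kum p y) {h : F} (hh : h ≠ 0) : Kum p y where
  D := K.D - ⟨divOf H hh, degree_divOf H hh⟩
  f := K.f * (h ^ p)⁻¹
  f_ne := mul_ne_zero K.f_ne (inv_ne_zero (pow_ne_zero _ hh))
  div_eq P := by
    have h2 : P.ord (h ^ p) = (p : ℤ) * P.ord h := by
      have := P.ord_zpow h p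
      rwa [zpow_natCast] at this
    rw [P.ord_mul K.f_ne (inv_ne_zero (pow_ne_zero _ hh)), Place.ord_inv, h2, ← K.div_eq P]
    show (p : ℤ) * ((K.D : Divisor L F) - divOf H hh) P = _
    rw [Finsupp.sub_apply, divOf_apply]
    ring
  mk_eq := by
    have h1 : Pic0.mk (K.D - ⟨divOf H hh, degree_divOf H hh⟩) = Pic0.mk K.D := by
      rw [Fermat.Agent.FF.KER.Ker0.NSSystem.mk_eq_mk_iff]
      refine ⟨h, hh, fun P => ?_⟩
      show ((K.D : Divisor L F) - ((K.D : Divisor L F) - divOf H hh)) P = _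
      rw [Finsupp.sub_apply, Finsupp.sub_apply, divOf_apply]
      ring
    exact h1.trans K.mk_eq

@[simp] theorem twist_f (H : LHyp L F) {p : ℕ} {y : Pic0 L F} (K : Kum p y) {h : F} (hh : h ≠ 0) :
    (twist H K hh).f = K.f * (h ^ p)⁻¹ := rfl

theorem twist_D_apply (H : LHyp L F) {p : ℕ} {y : Pic0 L F} (K : Kum p y) {h : F} (hh : h ≠ 0)
    (P : Place L F) :
    ((twist H K hh).D : Divisor L F) P = (K.D : Divisor L F) P - P.ord h := by
  show ((K.D : Divisor L F) - divOf H hh) P = _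
  rw [Finsupp.sub_apply, divOf_apply]

/-- transport of a Kummer pair along an equality of classes. -/
def castKum {p : ℕ} {y y' : Pic0 L F} (h : y = y') (K : Kum p y) : Kum p y' where
  D := K.D
  f := K.f
  f_ne := K.f_ne
  div_eq := K.div_eq
  mk_eq := K.mk_eq.trans h

@[simp] theorem castKum_f {p : ℕ} {y y' : Pic0 L F} (h : y = y') (K : Kum p y) :
    (castKum h K).f = K.f := rfl

@[simp] theorem castKum_D {p : ℕ} {y y' : Pic0 L F} (h : y = y') (K : Kum p y) :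
    (castKum h K).D = K.D := rfl

variable (𝔻 : SemiRedDatum L F k Ft ι E)

theorem slS_twist {p : ℕ} {y : Pic0 L F} (K : Kum p y) {h : F} (hh : h ≠ 0) (e : E) :
    slS 𝔻 e (twist 𝔻.HL K hh).f = slS 𝔻 e K.f - p * slS 𝔻 e h := by
  rw [twist_f, slS_mul 𝔻 e K.f_ne (inv_ne_zero (pow_ne_zero _ hh)), slS_inv, slS_pow]
  ring

theorem slT_twist {p : ℕ} {y : Pic0 L F} (K : Kum p y) {h : F} (hh : h ≠ 0) (e : E) :
    slT 𝔻 e (twist 𝔻.HL K hh).f = slT 𝔻 e K.f - p * slT 𝔻 e h := by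
  rw [twist_f, slT_mul 𝔻 e K.f_ne (inv_ne_zero (pow_ne_zero _ hh)), slT_inv, slT_pow]
  ring

/-! ### the slope supply -/

/-- **Slope supply**: functions of Gauss norm `1` on every component with prescribed slopes
`(n e, p · n e)` (type `α`) resp. `(p · n e, n e)` (type `β`) at the two branches of every node. -/
structure SlopeSupply (p : ℕ) : Prop where
  alpha : ∀ n : E → ℤ, ∃ g : F, g ≠ 0 ∧ ∀ e, slS 𝔻 e g = n e ∧ slT 𝔻 e g = p * n e
  beta : ∀ n : E → ℤ, ∃ g : F, g ≠ 0 ∧ ∀ e, slS 𝔻 e g = p * n e ∧ slT 𝔻 e g = n e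

/-! ### Step A : killing the slopes -/

/-- **Step A.**  On `ker τ`, with a slope supply, `(p² − 1) • y` has a Kummer pair all of whose slopes
vanish. -/
theorem exists_kum_slopes_zero {p : ℕ} [NeZero p] (hsup : SlopeSupply 𝔻 p) {y : Pic0 L F}
    (hy : p • y = 0) (hτ : tau 𝔻 p y = 0) :
    ∃ K : Kum p (((p : ℤ) ^ 2 - 1) • y), ∀ e, slS 𝔻 e K.f = 0 ∧ slT 𝔻 e K.f = 0 := by
  obtain ⟨K0⟩ := exists_kum hy
  choose σ hσ using fun e => dvd_slS 𝔻 K0 hτ e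
  choose σ' hσ' using fun e => dvd_slT 𝔻 K0 hτ e
  obtain ⟨ga, hga0, hga⟩ := hsup.alpha fun e => p * σ' e - σ e
  obtain ⟨gb, hgb0, hgb⟩ := hsup.beta fun e => p * σ e - σ' e
  have hh0 : ga * gb ≠ 0 := mul_ne_zero hga0 hgb0
  refine ⟨twist 𝔻.HL (K0.zsmul ((p : ℤ) ^ 2 - 1)) hh0, fun e => ⟨?_, ?_⟩⟩
  · rw [slS_twist, Kum.zsmul_f, slS_zpow, slS_mul 𝔻 e hga0 hgb0, (hga e).1, (hgb e).1, hσ e]
    ring
  · rw [slT_twist, Kum.zsmul_f, slT_zpow, slT_mul 𝔻 e hga0 hgb0, (hga e).2, (hgb e).2, hσ' e]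
    ring

/-! ### Step B : equalising the Gauss norms -/

section StepB

/-- a normalised function with reduction `1` has slope `0` everywhere. -/
theorem sl_eq_zero_of_nred_eq_one {B : Base L k} {S : Side B F Ft} (Q : Place k Ft) {c : L} {φ : F}
    (h : S.IsNorm c φ) (h1 : S.nred c φ = 1) : sl S Q φ = 0 := by
  rw [sl_eq Q h, h1, Place.ord_one]

variable {p : ℕ} {y : Pic0 L F} (K : Kum p y) (e0 : E)

/-- the correcting function `ϱ = ∏_{P ∈ ann e0} (x − a_P) ^ D(P)`. -/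
def rho : F := ∏ P ∈ (𝔻.node e0).supp K.f_ne, (𝔻.node e0).lin P ^ (K.D : Divisor L F) P

theorem rho_ne_zero : rho 𝔻 K e0 ≠ 0 :=
  Finset.prod_ne_zero_iff.mpr fun _ hP =>
    zpow_ne_zero _ ((𝔻.node e0).lin_ne_zero ((𝔻.node e0).mem_ann_of_mem_supp K.f_ne hP))

/-- the normaliser of `ϱ` on the target component. -/
def rhoC : L := ∏ P ∈ (𝔻.node e0).supp K.f_ne, ((-((𝔻.node e0).a P))⁻¹) ^ (K.D : Divisor L F) P

/-- if the two slopes of `f` at `e0` vanish, `D` has degree `0` on the annulus of `e0`. -/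
theorem sum_D_eq_zero [NeZero p] (hs : slS 𝔻 e0 K.f = 0) (ht : slT 𝔻 e0 K.f = 0) :
    ∑ P ∈ (𝔻.node e0).supp K.f_ne, (K.D : Divisor L F) P = 0 := by
  have h1 := slS_add_slT 𝔻 e0 K.f_ne
  rw [hs, ht, add_zero] at h1
  have h2 : ∑ P ∈ (𝔻.node e0).supp K.f_ne, P.ord K.f =
      (p : ℤ) * ∑ P ∈ (𝔻.node e0).supp K.f_ne, (K.D : Divisor L F) P := by
    rw [Finset.mul_sum]
    exact Finset.sum_congr rfl fun P _ => (K.div_eq P).symm
  rw [h2] at h1
  have hp : (p : ℤ) ≠ 0 := by exact_mod_cast NeZero.ne p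
  rcases mul_eq_zero.mp h1.symm with h | h
  · exact absurd h hp
  · exact h

/-- `ϱ` on the source component: normaliser `1`, reduction `1`. -/
theorem isNorm_rho_src [NeZero p] (hs : slS 𝔻 e0 K.f = 0) (ht : slT 𝔻 e0 K.f = 0) :
    (𝔻.side (𝔻.src e0)).IsNorm 1 (rho 𝔻 K e0) ∧ (𝔻.side (𝔻.src e0)).nred 1 (rho 𝔻 K e0) = 1 := by
  have h := Side.IsNorm.prod (S := 𝔻.side (𝔻.src e0)) ((𝔻.node e0).supp K.f_ne)
    (c := fun P => (1 : L) ^ (K.D : Divisor L F) P)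
    (φ := fun P => (𝔻.node e0).lin P ^ (K.D : Divisor L F) P)
    (fun P hP => (((𝔻.node e0).isNorm_lin
      ((𝔻.node e0).mem_ann_of_mem_supp K.f_ne hP)).1.zpow _).1)
  have hc : ∏ P ∈ (𝔻.node e0).supp K.f_ne, (1 : L) ^ (K.D : Divisor L F) P = 1 :=
    Finset.prod_eq_one fun P _ => one_zpow _
  rw [hc] at h
  refine ⟨h.1, ?_⟩
  show (𝔻.side (𝔻.src e0)).nred 1 (∏ P ∈ (𝔻.node e0).supp K.f_ne,
    (𝔻.node e0).lin P ^ (K.D : Divisor L F) P) = 1
  rw [h.2]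
  have h3 : ∀ P ∈ (𝔻.node e0).supp K.f_ne,
      (𝔻.side (𝔻.src e0)).nred ((1 : L) ^ (K.D : Divisor L F) P)
        ((𝔻.node e0).lin P ^ (K.D : Divisor L F) P) = (𝔻.node e0).xb ^ (K.D : Divisor L F) P := by
    intro P hP
    have hP' := (𝔻.node e0).mem_ann_of_mem_supp K.f_ne hP
    rw [(((𝔻.node e0).isNorm_lin hP').1.zpow _).2, ((𝔻.node e0).isNorm_lin hP').2]
  rw [Finset.prod_congr rfl h3, prod_zpow_base (𝔻.node e0).xb_ne_zero, sum_D_eq_zero 𝔻 K e0 hs ht,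
    zpow_zero]

/-- `ϱ` on the target component: normaliser `rhoC`, reduction `1`. -/
theorem isNorm_rho_tgt :
    (𝔻.side (𝔻.tgt e0)).IsNorm (rhoC 𝔻 K e0) (rho 𝔻 K e0) ∧
      (𝔻.side (𝔻.tgt e0)).nred (rhoC 𝔻 K e0) (rho 𝔻 K e0) = 1 := by
  have h := Side.IsNorm.prod (S := 𝔻.side (𝔻.tgt e0)) ((𝔻.node e0).supp K.f_ne)
    (c := fun P => ((-((𝔻.node e0).a P))⁻¹) ^ (K.D : Divisor L F) P)
    (φ := fun P => (𝔻.node e0).lin P ^ (K.D : Divisor L F) P)
    (fun P hP => (((𝔻.node e0).isNorm_lin'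
      ((𝔻.node e0).mem_ann_of_mem_supp K.f_ne hP)).1.zpow _).1)
  refine ⟨h.1, ?_⟩
  show (𝔻.side (𝔻.tgt e0)).nred (∏ P ∈ (𝔻.node e0).supp K.f_ne,
      ((-((𝔻.node e0).a P))⁻¹) ^ (K.D : Divisor L F) P)
    (∏ P ∈ (𝔻.node e0).supp K.f_ne, (𝔻.node e0).lin P ^ (K.D : Divisor L F) P) = 1
  rw [h.2]
  refine Finset.prod_eq_one fun P hP => ?_
  have hP' := (𝔻.node e0).mem_ann_of_mem_supp K.f_ne hP
  rw [(((𝔻.node e0).isNorm_lin' hP').1.zpow _).2, ((𝔻.node e0).isNorm_lin' hP').2, one_zpow]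

theorem rhoC_ne_zero : rhoC 𝔻 K e0 ≠ 0 :=
  Finset.prod_ne_zero_iff.mpr fun P hP =>
    zpow_ne_zero _ (inv_ne_zero (neg_ne_zero.mpr
      ((𝔻.node e0).a_ne P ((𝔻.node e0).mem_ann_of_mem_supp K.f_ne hP))))

/-- (N2) for a function with zero slopes at `e0` : the two Gauss norms differ by `|rhoC| ^ p`. -/
theorem val_normaliser [NeZero p] (hs : slS 𝔻 e0 K.f = 0) (ht : slT 𝔻 e0 K.f = 0) {c c' : L}
    (hc : (𝔻.side (𝔻.src e0)).IsNorm c K.f) (hc' : (𝔻.side (𝔻.tgt e0)).IsNorm c' K.f) :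
    𝔻.B.A.valuation c' = 𝔻.B.A.valuation c * 𝔻.B.A.valuation (rhoC 𝔻 K e0) ^ p := by
  have h2 := (𝔻.node e0).val_jump K.f_ne hc hc'
  rw [← slS_eq 𝔻 hc, hs, zpow_zero, mul_one] at h2
  rw [h2]
  congr 1
  have hπ : 𝔻.B.A.valuation (𝔻.node e0).π ≠ 0 := (Valuation.ne_zero_iff _).mpr (𝔻.node e0).π_ne
  -- each factor
  have e1 : ∀ P ∈ (𝔻.node e0).supp K.f_ne,
      𝔻.B.A.valuation ((𝔻.node e0).π / (𝔻.node e0).a P) ^ P.ord K.f =
        (𝔻.B.A.valuation (𝔻.node e0).π ^ (K.D : Divisor L F) P *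
          𝔻.B.A.valuation ((-((𝔻.node e0).a P))⁻¹) ^ (K.D : Divisor L F) P) ^ p := by
    intro P _
    rw [← K.div_eq P, map_div₀, map_inv₀, Valuation.map_neg, div_eq_mul_inv, ← mul_zpow,
      ← zpow_natCast, ← zpow_mul, mul_comm ((K.D : Divisor L F) P) (p : ℤ)]
  rw [Finset.prod_congr rfl e1, Finset.prod_pow, Finset.prod_mul_distrib, prod_zpow_base hπ,
    sum_D_eq_zero 𝔻 K e0 hs ht, zpow_zero, one_mul, rhoC, map_prod]
  congr 1
  refine Finset.prod_congr rfl fun P _ => ?_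
  rw [map_zpow₀]

end StepB

/-! ### the theorem -/

/-- **The good representative.**  Two components (every component is the source or the target of the
node `e0`), a slope supply: every `y` killed by `p` with `τ(y) = 0` has a flat Kummer pair for `-y`. -/
theorem exists_flat (e0 : E) (hι : ∀ v, v = 𝔻.src e0 ∨ v = 𝔻.tgt e0) {p : ℕ} [NeZero p]
    (hsup : SlopeSupply 𝔻 p) {y : Pic0 L F} (hy : p • y = 0) (hτ : tau 𝔻 p y = 0) :
    ∃ (K : Kum p (-y)) (c : L), Flat 𝔻 K c := by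
  obtain ⟨K1, hK1⟩ := exists_kum_slopes_zero 𝔻 hsup hy hτ
  have hs := (hK1 e0).1
  have ht := (hK1 e0).2
  -- `(p² − 1) • y = -y`
  have hneg : (((p : ℤ) ^ 2 - 1) • y) = -y := by
    have h1 : ((p : ℤ) ^ 2) • y = 0 := by
      rw [pow_two, mul_smul, natCast_zsmul, natCast_zsmul, hy, smul_zero]
    rw [sub_smul, h1, one_smul, zero_sub]
  -- normalisers of `f₁` on the two components
  obtain ⟨c1, hc1⟩ := (𝔻.side (𝔻.src e0)).exists_isNorm K1.f_ne
  obtain ⟨c2, hc2⟩ := (𝔻.side (𝔻.tgt e0)).exists_isNorm K1.f_ne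
  have hρ0 := rho_ne_zero 𝔻 K1 e0
  have hρs := isNorm_rho_src 𝔻 K1 e0 hs ht
  have hρt := isNorm_rho_tgt 𝔻 K1 e0
  -- the twisted pair
  set K2 := twist 𝔻.HL K1 hρ0 with hK2
  -- normalisers of `f₂ = f₁ * (ϱ ^ p)⁻¹`
  have n1 := hc1.mul ((hρs.1.pow p).1.inv).1
  have n2 := hc2.mul ((hρt.1.pow p).1.inv).1
  have hc1' : c1 * ((1 : L) ^ p)⁻¹ = c1 := by rw [one_pow, inv_one, mul_one]
  rw [hc1'] at n1
  -- the Gauss norms agree
  have hval : 𝔻.B.A.valuation (c1 / (c2 * (rhoC 𝔻 K1 e0 ^ p)⁻¹)) = 1 := by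
    have h1 := val_normaliser 𝔻 K1 e0 hs ht hc1 hc2
    have hc20 : 𝔻.B.A.valuation c2 ≠ 0 := (Valuation.ne_zero_iff _).mpr hc2.c_ne_zero
    have hr0 : 𝔻.B.A.valuation (rhoC 𝔻 K1 e0) ^ p ≠ 0 :=
      pow_ne_zero _ ((Valuation.ne_zero_iff _).mpr (rhoC_ne_zero 𝔻 K1 e0))
    have hc10 : 𝔻.B.A.valuation c1 ≠ 0 := (Valuation.ne_zero_iff _).mpr hc1.c_ne_zero
    rw [map_div₀, map_mul, map_inv₀, map_pow, h1, mul_assoc, mul_inv_cancel₀ hr0, mul_one,
      div_self hc10]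
  have n2' := n2.1.of_isU_mul (u := c1 / (c2 * (rhoC 𝔻 K1 e0 ^ p)⁻¹)) hval
  have hcc : c1 / (c2 * (rhoC 𝔻 K1 e0 ^ p)⁻¹) * (c2 * (rhoC 𝔻 K1 e0 ^ p)⁻¹) = c1 :=
    div_mul_cancel₀ _ (mul_ne_zero hc2.c_ne_zero
      (inv_ne_zero (pow_ne_zero _ (rhoC_ne_zero 𝔻 K1 e0))))
  rw [hcc] at n2'
  have hnorm : ∀ v, (𝔻.side v).IsNorm c1 K2.f := by
    intro v
    rcases hι v with rfl | rfl
    · exact n1.1
    · exact n2'.1
  -- the slopes of `ϱ` vanish
  have hslρ : ∀ v (Q : Place k Ft), sl (𝔻.side v) Q (rho 𝔻 K1 e0) = 0 := by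
    intro v Q
    rcases hι v with rfl | rfl
    · exact sl_eq_zero_of_nred_eq_one Q hρs.1 hρs.2
    · exact sl_eq_zero_of_nred_eq_one Q hρt.1 hρt.2
  refine ⟨castKum hneg K2, c1, ⟨hnorm, fun e => ?_, fun e => ?_⟩⟩
  · rw [castKum_f, ← slS_eq 𝔻 (hnorm (𝔻.src e)), hK2, slS_twist, (hK1 e).1,
      show slS 𝔻 e (rho 𝔻 K1 e0) = 0 from hslρ _ _]
    ring
  · rw [castKum_f, ← slT_eq 𝔻 (hnorm (𝔻.tgt e)), hK2, slT_twist, (hK1 e).2,
      show slT 𝔻 e (rho 𝔻 K1 e0) = 0 from hslρ _ _]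
    ring

end

end Fermat.Agent.MP.TAU.GoodRep3
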