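/-
PROGRAMME MP (row 38 via S44), chapter TAU (helper9): **the slope supply from the two degeneracy maps,
and the step (α-weak) on `ker τ`, abstract form.**

`𝔻` a semistable datum all of whose nodes go from the component `v1` to the component `v2 ≠ v1`,
`𝔻0` a good-reduction datum with surjective reduction, `a b : PDegen 𝔻 𝔻0` the two degeneracy maps
(`α_p` : degrees `(1, p)` on `(v1, v2)`; `β_p` : degrees `(p, 1)`).

* `slS_φ`, `slT_φ` : the slopes of a pulled-back function `φ g0` at the two branches of a node are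
  `e_src · ord_P (red0 g0)`, `e_tgt · ord_P (red0 g0)`, `P` the point of the good fibre under the node;
* `exists_lift_ord` : a function of the good level, integral with nonzero reduction, whose reduction
  has prescribed orders at the points under the nodes (weak approximation on the good fibre + a lift);
* `slopeSupply` : helper3's `GoodRep3.SlopeSupply 𝔻 p`;
* **`alpha_weak_tau`** : every class `y` killed by `p` with `τ(y) = 0` is of the form
  `[α^* Du + β^* Dw] + z`, `z ∈ kerRed 𝔻`  (`GoodRep3.exists_flat` + `AlphaFlat9.alpha_weak_flat`).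
-/
import Mathlib
import Fermat.Agent.MP.TAU.AlphaFlat9
import Fermat.Agent.MP.TAU.GoodRep3
import Fermat.Agent.ES.HECKE.WeakApprox25

set_option autoImplicit false
set_option linter.unusedSectionVars false
set_option linter.style.longLine false

namespace Fermat.Agent.MP.TAU.Supply9

open AlgebraicCurve Fermat.Agent.X0.FF Fermat.Agent.RR.LSpace Fermat.Agent.MW.EMB.Value6
open Fermat.Agent.ORD.ANN.Side3 Fermat.Agent.ORD.ANN.Node3
open Fermat.Agent.ORD.SEMIRED.SemiRedDatum9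
open Fermat.Agent.ORD.KERN.KerDefs9 Fermat.Agent.ORD.KERN.KerN9
open Fermat.Agent.FF.RED.RedDatum7
open Fermat.Agent.MP.TAU.PDegen9 Fermat.Agent.MP.TAU.AlphaFlat9
open Fermat.Agent.MP.TAU.TauDefs3 Fermat.Agent.MP.TAU.KumCrit3 Fermat.Agent.MP.TAU.GoodRep3

noncomputable section

variable {L F F0 k Ft Ft0 : Type*} [Field L] [Field F] [Algebra L F] [Field F0] [Algebra L F0]
  [Field k] [Field Ft] [Algebra k Ft] [Field Ft0] [Algebra k Ft0]
variable {ι E : Type*} {𝔻 : SemiRedDatum L F k Ft ι E} {𝔻0 : RedDatum L F0 k Ft0}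

/-! ### slopes of pulled-back functions -/

/-- a pulled-back integral function with nonzero reduction is normalised by `1` on every component,
with reduction `bar v (red0 g0)`. -/
theorem isNorm_φ (a : PDegen 𝔻 𝔻0) (g0 : 𝔻0.G) (h0 : 𝔻0.red g0 ≠ 0) (v : ι) :
    (𝔻.side v).IsNorm 1 (a.φ (g0 : F0)) ∧
      (𝔻.side v).nred 1 (a.φ (g0 : F0)) = a.bar v (𝔻0.red g0) := by
  have hred : (𝔻.side v).red ⟨a.φ (g0 : F0), a.mem_G v g0⟩ = a.bar v (𝔻0.red g0) := a.red_comm v g0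
  refine ⟨Side.isNorm_one_of_mem (𝔻.side v) (a.mem_G v g0) ?_, ?_⟩
  · rw [hred]
    exact a.bar_ne_zero v h0
  · rw [Side.nred_one_of_mem (𝔻.side v) (a.mem_G v g0), hred]

/-- the slope of a pulled-back function at the source branch of a node. -/
theorem slS_φ (a : PDegen 𝔻 𝔻0) (g0 : 𝔻0.G) (h0 : 𝔻0.red g0 ≠ 0) (e : E) :
    slS 𝔻 e (a.φ (g0 : F0)) =
      a.e (𝔻.src e) * (a.ψ (𝔻.src e) (𝔻.Qs e)).ord (𝔻0.red g0) := by
  obtain ⟨h1, h2⟩ := isNorm_φ a g0 h0 (𝔻.src e)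
  rw [slS_eq 𝔻 h1, h2, a.ord_bar]

/-- the slope of a pulled-back function at the target branch of a node (in terms of the point of the
good fibre under the SOURCE branch: `node_compat`). -/
theorem slT_φ (a : PDegen 𝔻 𝔻0) (g0 : 𝔻0.G) (h0 : 𝔻0.red g0 ≠ 0) (e : E) :
    slT 𝔻 e (a.φ (g0 : F0)) =
      a.e (𝔻.tgt e) * (a.ψ (𝔻.src e) (𝔻.Qs e)).ord (𝔻0.red g0) := by
  obtain ⟨h1, h2⟩ := isNorm_φ a g0 h0 (𝔻.tgt e)
  rw [slT_eq 𝔻 h1, h2, a.ord_bar, a.node_compat e]

/-! ### functions of the good level with prescribed orders under the nodes -/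

/-- the points of the good fibre under distinct nodes with the same source are distinct. -/
theorem ψ_Qs_injective (a : PDegen 𝔻 𝔻0) {v1 : ι} (hsrc : ∀ e, 𝔻.src e = v1) :
    Function.Injective fun e : E => a.ψ (𝔻.src e) (𝔻.Qs e) := by
  intro e e' h
  have h1 : a.ψ v1 (𝔻.Qs e) = a.ψ v1 (𝔻.Qs e') := by
    have h' : a.ψ (𝔻.src e) (𝔻.Qs e) = a.ψ (𝔻.src e') (𝔻.Qs e') := h
    rwa [hsrc e, hsrc e'] at h'
  exact 𝔻.branch_s_inj e e' ((hsrc e).trans (hsrc e').symm) ((a.ψ_bij v1).1 h1)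

/-- **a lift with prescribed orders**: an integral function of the good level with nonzero reduction
whose reduction has the order `n e` at the point under the node `e`. -/
theorem exists_lift_ord [Finite E] (a : PDegen 𝔻 𝔻0) {v1 : ι} (hsrc : ∀ e, 𝔻.src e = v1)
    (hsurj0 : Function.Surjective 𝔻0.red) (n : E → ℤ) :
    ∃ g0 : 𝔻0.G, 𝔻0.red g0 ≠ 0 ∧ ∀ e, (a.ψ (𝔻.src e) (𝔻.Qs e)).ord (𝔻0.red g0) = n e := by
  classical
  have : Fintype E := Fintype.ofFinite E
  have hinj := ψ_Qs_injective a hsrc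
  set pt : E → Place k Ft0 := fun e => a.ψ (𝔻.src e) (𝔻.Qs e) with hpt
  set m : Place k Ft0 → ℤ := fun Q => if h : ∃ e, pt e = Q then n h.choose else 0 with hm
  have hm' : ∀ e, m (pt e) = n e := by
    intro e
    have hex : ∃ e', pt e' = pt e := ⟨e, rfl⟩
    rw [hm]
    simp only
    rw [dif_pos hex]
    exact congrArg n (hinj hex.choose_spec)
  obtain ⟨f0, hf0, hf⟩ := Fermat.Agent.ES.HECKE.WeakApprox25.exists_ord_eq
    (Finset.univ.image pt) m
  obtain ⟨g0, hg0⟩ := hsurj0 f0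
  refine ⟨g0, by rw [hg0]; exact hf0, fun e => ?_⟩
  rw [hg0]
  exact (hf (pt e) (Finset.mem_image_of_mem pt (Finset.mem_univ e))).trans (hm' e)

/-! ### the slope supply -/

/-- **the slope supply** from the two degeneracy maps. -/
theorem slopeSupply [Finite E] {p : ℕ} (a b : PDegen 𝔻 𝔻0) {v1 v2 : ι}
    (hsrc : ∀ e, 𝔻.src e = v1) (htgt : ∀ e, 𝔻.tgt e = v2)
    (ha1 : a.e v1 = 1) (ha2 : a.e v2 = p) (hb1 : b.e v1 = p) (hb2 : b.e v2 = 1)
    (hsurj0 : Function.Surjective 𝔻0.red) : SlopeSupply 𝔻 p := by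
  refine ⟨fun n => ?_, fun n => ?_⟩
  · obtain ⟨g0, h0, hn⟩ := exists_lift_ord a hsrc hsurj0 n
    refine ⟨a.φ (g0 : F0), a.φ_ne_zero (𝔻0.coe_ne_zero_of_red_ne_zero h0), fun e => ⟨?_, ?_⟩⟩
    · rw [slS_φ a g0 h0 e, hn e, hsrc e, ha1]
      push_cast
      ring
    · rw [slT_φ a g0 h0 e, hn e, htgt e, ha2]
  · obtain ⟨g0, h0, hn⟩ := exists_lift_ord b hsrc hsurj0 n
    refine ⟨b.φ (g0 : F0), b.φ_ne_zero (𝔻0.coe_ne_zero_of_red_ne_zero h0), fun e => ⟨?_, ?_⟩⟩
    · rw [slS_φ b g0 h0 e, hn e, hsrc e, hb1]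
    · rw [slT_φ b g0 h0 e, hn e, htgt e, hb2]
      push_cast
      ring

/-! ### (α-weak) on `ker τ` -/

section Main

variable {p : ℕ} [Fact p.Prime] [CharP k p]

/-- **(α-weak) on `ker τ`, abstract form.**  All nodes go from `v1` to `v2 ≠ v1`, these are the only
components, there is at least one node; `a`, `b` the two degeneracy maps with degrees `(1, p)`, `(p, 1)`,
`ā_{v1}`, `b̄_{v2}` surjective, `ā_{v2}`, `b̄_{v1}` with values in the `p`-th powers; the reduction of the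
good level is surjective.  Then every class `y` killed by `p` with `τ(y) = 0` is
`[α^* Du + β^* Dw] + z` with `z` in the kernel of reduction. -/
theorem alpha_weak_tau [Finite ι] [Nonempty ι] [Finite E] (a b : PDegen 𝔻 𝔻0) {v1 v2 : ι}
    (h12 : v1 ≠ v2) (hι : ∀ v : ι, v = v1 ∨ v = v2)
    (hsrc : ∀ e, 𝔻.src e = v1) (htgt : ∀ e, 𝔻.tgt e = v2) (e0 : E)
    (ha1 : a.e v1 = 1) (ha2 : a.e v2 = p) (hb1 : b.e v1 = p) (hb2 : b.e v2 = 1)
    (han : a.n = p + 1) (hbn : b.n = p + 1)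
    (hasurj : Function.Surjective (a.bar v1)) (hbsurj : Function.Surjective (b.bar v2))
    (hapow : ∀ f0 : Ft0, ∃ γ : Ft, a.bar v2 f0 = γ ^ p)
    (hbpow : ∀ f0 : Ft0, ∃ γ : Ft, b.bar v1 f0 = γ ^ p)
    (hsurj0 : Function.Surjective 𝔻0.red)
    {g : ℕ} (S : NSSystemN 𝔻 g)
    (hRR : ∀ E' : Divisor L F, Divisor.degree E' = g → ∃ f : F, f ≠ 0 ∧ ∀ P, -(E' P) ≤ P.ord f)
    {y : Pic0 L F} (hy : p • y = 0) (hτ : tau 𝔻 p y = 0) :
    ∃ (Du Dw : Divisor.degZero (K := L) (F := F0)) (A : Divisor.degZero (K := L) (F := F)),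
      (A : Divisor L F) = a.pb Du + b.pb Dw ∧ ∃ z ∈ kerRed 𝔻, y = Pic0.mk A + z := by
  have hp : p.Prime := Fact.out
  have : NeZero p := ⟨hp.ne_zero⟩
  have hsup : SlopeSupply 𝔻 p := slopeSupply a b hsrc htgt ha1 ha2 hb1 hb2 hsurj0
  have hι0 : ∀ v, v = 𝔻.src e0 ∨ v = 𝔻.tgt e0 := by
    intro v
    rw [hsrc e0, htgt e0]
    exact hι v
  obtain ⟨K, c, hK⟩ := exists_flat 𝔻 e0 hι0 hsup hy hτ
  obtain ⟨Du, Dw, A, hA, z, hz, hyz⟩ := alpha_weak_flat a b h12 hι ha1 ha2 hb1 hb2 han hbn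
    hasurj hbsurj hapow hbpow S hRR K hK
  refine ⟨-Du, -Dw, -A, ?_, -z, (kerRed 𝔻).neg_mem hz, ?_⟩
  · show -(A : Divisor L F) = a.pb (-(Du : Divisor L F0)) + b.pb (-(Dw : Divisor L F0))
    rw [hA, map_neg, map_neg, neg_add]
  · have h1 : y = -(Pic0.mk A + z) := by rw [← hyz, neg_neg]
    rw [h1, neg_add]
    rfl

end Main

end

end Fermat.Agent.MP.TAU.Supply9
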