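/-
PROGRAMME MP (row 38 via S44), chapter TAU (helper9): **(α-weak) on the concrete datum**, modulo **(Y)**
(`DegRedTwo9.FrickeStable M₀ (padicPlace p)`: the Fricke involution `W_{M₀}` preserves the Gauss valuation
ring of the good level).

`𝔻 = MainDatum6.datum hpM h4 hp2` (level `M₀ p`, `p` odd, `4 ∣ M₀`, `p ∤ M₀`).

* **`alpha_weak_datum`** : every `y ∈ J₀(M₀ p)(ℚ̄)` with `p • y = 0` and `τ(y) = 0`
  (`TauDefs3.tau 𝔻 p y = 0`) is `a + c` with `a ∈ Iface5.Old` (`= α_p^* J₀(M₀) + β_p^* J₀(M₀)`) and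
  `c ∈ kerRed 𝔻`;
* `halpha_datum` : the same in the literal shape of the hypothesis `hα` of
  `FinalMain6.false_of_tau_datum` (`τ := fun y e => tau 𝔻 p y e`, `Old := Iface5.Old`).
-/
import Mathlib
import Fermat.Agent.MP.TAU.Inst9
import Fermat.Agent.MP.TAU.Supply9
import Fermat.Agent.MP.FINAL.DatumFacts6
import Fermat.Agent.MP.HECKE.Iface5

set_option autoImplicit false
set_option linter.unusedSectionVars false
set_option linter.unusedVariables false
set_option linter.style.longLine false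
set_option synthInstance.maxHeartbeats 400000
set_option maxHeartbeats 1000000

open AlgebraicCurve ModularCurve IntermediateField

noncomputable section

namespace Fermat.Agent.MP.TAU.Main9

open Fermat.Agent.X0.FF Fermat.Agent.RR.LSpace
open Fermat.Agent.RED.Interface4 Fermat.Agent.ES.RED.ChartIntegralA1
open Fermat.Agent.FF.BASE.Place2 Fermat.Agent.FF.RED.RedDatum7
open Fermat.Agent.TW.FLAT.FlatModule6
open Fermat.Agent.ORD.KERN.KerDefs9 Fermat.Agent.ORD.KERN.KerN9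
open Fermat.Agent.ORD.SEMIRED.SemiRedDatum9
open Fermat.Agent.ES.KRON.FrobPlace13 Fermat.Agent.ES.HECKE Fermat.Agent.ES.HECKE.LevelPullback12
open Fermat.Agent.MP.FINAL.MainDatum6 Fermat.Agent.MP.FINAL.DatumFacts6
open Fermat.Agent.MP.HECKE.Iface5
open Fermat.Agent.MP.TAU.TauDefs3
open Fermat.Agent.MP.TAU.PDegen9 Fermat.Agent.MP.TAU.SemiBar9 Fermat.Agent.MP.TAU.GoodDatum9
open Fermat.Agent.MP.TAU.DegRed9 Fermat.Agent.MP.TAU.DegRedTwo9
open Fermat.Agent.MP.TAU.Inst9 Fermat.Agent.MP.TAU.Supply9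

local instance (priority := 100000) algKF9m (A : ValuationSubring Qbar) (M : ℕ) [NeZero M] :
    Algebra (kA A) ↥(modularFunctionFieldFullC (kA A) M) := inferInstance

variable {p M₀ : ℕ} [Fact p.Prime] [NeZero M₀] (hpM : ¬ p ∣ M₀) (h4 : 4 ∣ M₀) (hp2 : p ≠ 2)
  (hY : FrickeStable M₀ (padicPlace p))

include hY in
/-- **(α-weak) on the concrete datum.** -/
theorem alpha_weak_datum {y : Pic0 Qbar ↥(Fbar (M₀ * p))} (hy : p • y = 0)
    (hτ : tau (datum hpM h4 hp2) p y = 0) :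
    ∃ a ∈ Old (Fact.out : p.Prime) hpM, ∃ c ∈ kerRed (datum hpM h4 hp2), y = a + c := by
  have hp : p.Prime := Fact.out
  obtain ⟨g, S, hRR⟩ := exists_system_hRR_datum hpM h4 hp2
  have hne : Nonempty (Nodes hpM h4 hp2) :=
    Fermat.Agent.ORD.IFACEN.GlueTwoN9.nonempty_edges (assembly hpM h4 hp2)
  obtain ⟨e0⟩ := hne
  have hι : ∀ v : Fin 2, v = 0 ∨ v = 1 := by decide
  obtain ⟨Du, Dw, A, hA, z, hz, hyz⟩ :=
    alpha_weak_tau (aDeg hpM h4 hp2 hY) (bDeg hpM h4 hp2 hY) (v1 := 0) (v2 := 1) (by decide) hι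
      (fun _ => rfl) (fun _ => rfl) e0 rfl (one_mul p) rfl rfl
      (AlongDegree25.finrankAlong_alpha Qbar M₀ p hp hpM)
      (AlongDegree25.finrankAlong_beta Qbar M₀ p hp hpM)
      Function.surjective_id (wb hpM h4 hY).surjective
      (fun f0 => ⟨_, Fq_eq_pow (kA (padicPlace p)) p M₀ (wb hpM h4 hY f0)⟩)
      (fun f0 => ⟨_, Fq_eq_pow (kA (padicPlace p)) p M₀ f0⟩)
      (goodDatum_red_surjective hpM h4) S hRR hy hτ
  refine ⟨alphaPull hp hpM (Pic0.mk Du) + betaPull hp hpM (Pic0.mk Dw),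
    (Old hp hpM).add_mem (alphaPull_mem_old hp hpM _) (betaPull_mem_old hp hpM _), z, hz, ?_⟩
  rw [hyz]
  congr 1
  show Pic0.mk A = Pic0.mk _ + Pic0.mk _
  rw [← Pic0.mk_add]
  congr 1
  exact Subtype.ext hA

include hY in
/-- **(α-weak)** in the literal shape of the hypothesis `hα` of `FinalMain6.false_of_tau_datum`
(with `τ := fun y e => tau (datum hpM h4 hp2) p y e` and `Old := Iface5.Old _ hpM`). -/
theorem halpha_datum (V : AddSubgroup (JZero (M₀ * p))) (hVp : ∀ y ∈ V, (p : ℤ) • y = 0) :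
    ∀ y ∈ V, (∀ e, tau (datum hpM h4 hp2) p y e = 0) →
      ∃ a ∈ Old (Fact.out : p.Prime) hpM, ∃ c ∈ kerRed (datum hpM h4 hp2), y = a + c := by
  intro y hyV hτ
  refine alpha_weak_datum hpM h4 hp2 hY ?_ (funext hτ)
  have := hVp y hyV
  rwa [natCast_zsmul] at this

end Fermat.Agent.MP.TAU.Main9
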