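/-
PROGRAMME MP (row 38 via S44), chapter TAU (helper9): **(Y) the Fricke involution of a GOOD level preserves
the Gauss valuation ring** : `frickeStable : FrickeStable M A` for `A ≤ ℚbar` over `p ∤ M`.

`G0 M A = fracRing (gaussRedN A (residue A) M)` (fractions of `A`-integral `q`-expansions, denominator of
nonzero reduction).

* `intF_le_gaussRingN` : at a good level every `A`-integral `q`-expansion lies in the `q`-expansion Gauss
  ring ((R0a): its reduction lies in `k · F̃_M`);
* level comparison (`x ∈ K · F_M`, `K` a number field):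
  `baseChange_mem_G0_iff : baseChangeHom x ∈ G0 M A ↔ (x : K((q))) ∈ gaussRing (A ∩ K)`;
* **`frickeStable`** : from the `K`-level isometry `ES/N34/IsoM25.isoM` and
  `FrickeFK8.baseChangeHom_frickeFK`.
-/
import Mathlib
import Fermat.Agent.MP.TAU.DegRedTwo9
import Fermat.Agent.ORD.IFACEN.IntFrac1
import Fermat.Agent.ES.N34.IsoM25
import Fermat.Agent.RED.DESC.UnifDescent14

set_option autoImplicit false
set_option linter.unusedSectionVars false
set_option linter.style.longLine false
set_option synthInstance.maxHeartbeats 400000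

open HahnSeries ModularCurve Polynomial

noncomputable section

namespace Fermat.Agent.MP.TAU.FrickeGood9

open Fermat.Agent.RED.Interface4 Fermat.Agent.RED.DESC.PlaceExtend27
  Fermat.Agent.RED.DESC Fermat.Agent.RED.NumInst4
  Fermat.Agent.RED.PUR.GaussGen8 Fermat.Agent.RED.PUR.GaussBridge10
  Fermat.Agent.RED.DESC.NumberFieldDVR27
  Fermat.Agent.ES.RED.ChartIntegralA1 Fermat.Agent.ES.RED.GaussUnit25
  Fermat.Agent.ES.RED.GaussRing15
  Fermat.Agent.ES.N34.FrickeFK8
  Fermat.Agent.FF.IFACE.GaussVal1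
  Fermat.Agent.ORD.IFACEN.IntFrac1
  Fermat.Agent.MP.TAU.DegRed9 Fermat.Agent.MP.TAU.DegRedTwo9

local instance (priority := 100000) algKF9f (A : ValuationSubring Qbar) (M : ℕ) [NeZero M] :
    Algebra (kA A) ↥(modularFunctionFieldFullC (kA A) M) := inferInstance

variable (p M : ℕ) [Fact p.Prime] [NeZero M] (A : ValuationSubring Qbar)
  (hA : A.LiesOverPrime p) (hpM : ¬ p ∣ M)

include hA hpM in
/-- at a good level, `A`-integral `q`-expansions lie in the `q`-expansion Gauss ring. -/
theorem intF_le_gaussRingN (y : intF A M) :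
    ((y : intF A M) : ↥(Fbar M)) ∈ gaussRingN A (IsLocalRing.residue ↥A) M :=
  ⟨seriesHom A M y, coeffMap_seriesHom A M y, redSeries_mem_fullC A M p hA hpM y⟩

theorem coe_gaussRedN_intF (y : intF A M) :
    ((gaussRedN A (IsLocalRing.residue ↥A) M ⟨_, intF_le_gaussRingN p M A hA hpM y⟩ :
      ↥(modularFunctionFieldFullC (kA A) M)) : LaurentSeries (kA A)) = redSeries A M y :=
  gaussRed_eq A _ _ _ _ (coeffMap_seriesHom A M y)

theorem gaussRedN_intF_ne_zero {y : intF A M} (hy : redSeries A M y ≠ 0) :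
    gaussRedN A (IsLocalRing.residue ↥A) M ⟨_, intF_le_gaussRingN p M A hA hpM y⟩ ≠ 0 := by
  intro h0
  apply hy
  rw [← coe_gaussRedN_intF p M A hA hpM y, h0]
  rfl

include hA hpM in
theorem red0_eq_zero_of_fraction (y : ↥(G0 M A)) {a b : intF A M} (hb : redSeries A M b ≠ 0)
    (h : (y : ↥(Fbar M)) * ((b : intF A M) : ↥(Fbar M)) = ((a : intF A M) : ↥(Fbar M)))
    (ha : redSeries A M a = 0) : red0 M A y = 0 := by
  have hb' := gaussRedN_intF_ne_zero p M A hA hpM hb
  have e := fracRed_mul_red (gaussRedN A (IsLocalRing.residue ↥A) M) y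
    (a := ⟨_, intF_le_gaussRingN p M A hA hpM a⟩) (b := ⟨_, intF_le_gaussRingN p M A hA hpM b⟩) hb' h
  have ha' : gaussRedN A (IsLocalRing.residue ↥A) M ⟨_, intF_le_gaussRingN p M A hA hpM a⟩ = 0 := by
    apply Subtype.ext
    rw [coe_gaussRedN_intF p M A hA hpM a, ha]
    rfl
  rw [ha'] at e
  exact (mul_eq_zero.mp e).resolve_right hb'

section Level

variable (K : IntermediateField ℚ Qbar) [FiniteDimensional ℚ K]

include hA hpM in
/-- **(⇐)**: the Gauss valuation ring of `K · F_M` maps into `G0`. -/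
theorem baseChange_mem_G0 (x : FK M K) (hx : (x : LaurentSeries K) ∈ gaussRing (AK A K)) :
    baseChangeHom M K x ∈ G0 M A := by
  obtain ⟨a, b, hb, h, -⟩ := exists_fraction_of_mem_gaussRing A M p hA K x hx
  exact ⟨⟨_, intF_le_gaussRingN p M A hA hpM a⟩, ⟨_, intF_le_gaussRingN p M A hA hpM b⟩,
    gaussRedN_intF_ne_zero p M A hA hpM hb, h⟩

/-- an element of zero Gauss reduction at the level `K` has zero reduction. -/
theorem red0_baseChange_eq_zero (x : FK M K) (hx : (x : LaurentSeries K) ∈ gaussRing (AK A K))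
    (h0 : gaussRed (AK A K) ⟨_, hx⟩ = 0) :
    red0 M A ⟨baseChangeHom M K x, baseChange_mem_G0 p M A hA hpM K x hx⟩ = 0 := by
  obtain ⟨a, b, hb, h, hr⟩ := exists_fraction_of_mem_gaussRing A M p hA K x hx
  refine red0_eq_zero_of_fraction p M A hA hpM _ hb h ?_
  rw [hr, h0, map_zero, zero_mul]

include hA hpM in
/-- **(⇒)**: `G0 ∩ (K · F_M)` is the Gauss valuation ring of `K · F_M`. -/
theorem mem_gaussRing_of_baseChange_mem_G0 (x : FK M K) (hX : baseChangeHom M K x ∈ G0 M A) :
    (x : LaurentSeries K) ∈ gaussRing (AK A K) := by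
  have : IsDiscreteValuationRing ↥(AK A K) :=
    isDiscreteValuationRing_AK A K (Fact.out : p.Prime).ne_zero hA
  obtain ⟨π, hπ⟩ := IsDiscreteValuationRing.exists_irreducible ↥(AK A K)
  have hu := isUnif_of_irreducible (AK A K) hπ
  by_contra hx
  have hx0 : x ≠ 0 := by
    rintro rfl
    exact hx (zero_mem _)
  have hinv : ((x⁻¹ : FK M K) : LaurentSeries K) ∈ gaussRing (AK A K) := by
    have h1 := mem_or_inv_mem hu (FK_le_fracField A K M x.2)
    exact h1.resolve_left hx
  have hred : gaussRed (AK A K) ⟨_, hinv⟩ = 0 := by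
    by_contra hne
    apply hx
    have := inv_mem_of_gaussRed_ne_zero (AK A K) ⟨_, hinv⟩ hne
    simpa using this
  have h0 := red0_baseChange_eq_zero p M A hA hpM K x⁻¹ hinv hred
  have hmul : (⟨baseChangeHom M K x, hX⟩ : ↥(G0 M A)) *
      ⟨baseChangeHom M K x⁻¹, baseChange_mem_G0 p M A hA hpM K x⁻¹ hinv⟩ = 1 := by
    apply Subtype.ext
    show baseChangeHom M K x * baseChangeHom M K x⁻¹ = 1
    rw [← map_mul, mul_inv_cancel₀ hx0, map_one]
  have h1 := congrArg (red0 M A) hmul
  rw [map_mul, h0, mul_zero, map_one] at h1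
  exact zero_ne_one h1

include hA hpM in
theorem baseChange_mem_G0_iff (x : FK M K) :
    baseChangeHom M K x ∈ G0 M A ↔ (x : LaurentSeries K) ∈ gaussRing (AK A K) :=
  ⟨mem_gaussRing_of_baseChange_mem_G0 p M A hA hpM K x, baseChange_mem_G0 p M A hA hpM K x⟩

end Level

include hA hpM in
/-- **(Y)**: the Fricke involution `W_M` of a good level preserves the Gauss valuation ring. -/
theorem frickeStable : FrickeStable M A := by
  intro g hg
  have hp : p.Prime := Fact.out
  obtain ⟨K, hfin, -, HK⟩ := UnifDescent14.exists_descent_ge M (⊥ : IntermediateField ℚ Qbar) g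
  have := hfin
  obtain ⟨x, rfl⟩ := HK K le_rfl
  have hx := mem_gaussRing_of_baseChange_mem_G0 p M A hA hpM K x hg
  have : IsDiscreteValuationRing ↥(AK A K) := isDiscreteValuationRing_AK A K hp.ne_zero hA
  have : CharP (Res (AK A K)) p := charP_residueField_AK A K hp hA
  obtain ⟨ϖ, hϖ⟩ := IsDiscreteValuationRing.exists_irreducible ↥(AK A K)
  have hx' := (Fermat.Agent.ES.N34.IsoM25.isoM A K M p hϖ hpM x).1 hx
  rw [← baseChangeHom_frickeFK]
  exact baseChange_mem_G0 p M A hA hpM K _ hx'

end Fermat.Agent.MP.TAU.FrickeGood9
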