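/-
PROGRAMME MP (row 38 via S44), chapter TAU (helper9): **(α-weak) on the concrete datum, unconditional.**

`𝔻 = MainDatum6.datum hpM h4 hp2` (level `M₀ p`, `p` odd, `4 ∣ M₀`, `p ∤ M₀`), `τ = TauDefs3.tau 𝔻 p`,
`Old = Iface5.Old _ hpM = α_p^* J₀(M₀) + β_p^* J₀(M₀)`.

* `frickeStable_padic` : (Y) for `padicPlace p`;
* `aDeg'`, `bDeg'` : the two degeneracy data `PDegen 𝔻 (goodDatum hpM h4)`;
* **`alpha_weak`** : `p • y = 0`, `τ(y) = 0` ⟹ `y ∈ Old + kerRed 𝔻`;
* **`halpha`** : the hypothesis `hα` of `FinalMain6.false_of_tau_datum`, literally.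
-/
import Mathlib
import Fermat.Agent.MP.TAU.Main9
import Fermat.Agent.MP.TAU.FrickeGood9

set_option autoImplicit false
set_option linter.unusedSectionVars false
set_option linter.style.longLine false
set_option synthInstance.maxHeartbeats 400000

open AlgebraicCurve ModularCurve

noncomputable section

namespace Fermat.Agent.MP.TAU.Final9

open Fermat.Agent.RED.Interface4 Fermat.Agent.ES.RED.ChartIntegralA1
open Fermat.Agent.FF.BASE.Place2
open Fermat.Agent.ORD.KERN.KerN9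
open Fermat.Agent.MP.FINAL.MainDatum6 Fermat.Agent.MP.HECKE.Iface5
open Fermat.Agent.MP.TAU.TauDefs3 Fermat.Agent.MP.TAU.PDegen9 Fermat.Agent.MP.TAU.GoodDatum9
open Fermat.Agent.MP.TAU.DegRedTwo9

variable {p M₀ : ℕ} [Fact p.Prime] [NeZero M₀] (hpM : ¬ p ∣ M₀) (h4 : 4 ∣ M₀) (hp2 : p ≠ 2)

include hpM in
/-- **(Y)** along `padicPlace p`. -/
theorem frickeStable_padic : FrickeStable M₀ (padicPlace p) :=
  Fermat.Agent.MP.TAU.FrickeGood9.frickeStable p M₀ (padicPlace p) (liesOverPrime (ℓ := p)) hpM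

/-- the degeneracy datum of `α_p`. -/
def aDeg' : PDegen (datum hpM h4 hp2) (goodDatum hpM h4) :=
  Fermat.Agent.MP.TAU.Inst9.aDeg hpM h4 hp2 (frickeStable_padic hpM)

/-- the degeneracy datum of `β_p`. -/
def bDeg' : PDegen (datum hpM h4 hp2) (goodDatum hpM h4) :=
  Fermat.Agent.MP.TAU.Inst9.bDeg hpM h4 hp2 (frickeStable_padic hpM)

/-- **(α-weak) on the concrete datum.** -/
theorem alpha_weak {y : Pic0 Qbar ↥(Fbar (M₀ * p))} (hy : p • y = 0)
    (hτ : tau (datum hpM h4 hp2) p y = 0) :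
    ∃ a ∈ Old (Fact.out : p.Prime) hpM, ∃ c ∈ kerRed (datum hpM h4 hp2), y = a + c :=
  Fermat.Agent.MP.TAU.Main9.alpha_weak_datum hpM h4 hp2 (frickeStable_padic hpM) hy hτ

/-- **(α-weak)** in the literal shape of the hypothesis `hα` of `FinalMain6.false_of_tau_datum`
(with `τ := fun y e => tau (datum hpM h4 hp2) p y e` and `Old := Iface5.Old _ hpM`). -/
theorem halpha (V : AddSubgroup (JZero (M₀ * p))) (hVp : ∀ y ∈ V, (p : ℤ) • y = 0) :
    ∀ y ∈ V, (∀ e, tau (datum hpM h4 hp2) p y e = 0) →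
      ∃ a ∈ Old (Fact.out : p.Prime) hpM, ∃ c ∈ kerRed (datum hpM h4 hp2), y = a + c :=
  Fermat.Agent.MP.TAU.Main9.halpha_datum hpM h4 hp2 (frickeStable_padic hpM) V hVp

end Fermat.Agent.MP.TAU.Final9
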