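/-
PROGRAMME MP (row 38 via S44), chapter TAU (helper9): **the pull-back along a degeneracy map sends the
kernel of reduction of the good level into the kernel of reduction of the semistable datum** (abstract).

`a : PDegen 𝔻 𝔻0`, two components `v1 ≠ v2`, `e v1 + e v2 = n`.

* `pb_eq_sum` : `pb E = Σ_P E(P) • pb (P)`;
* **`pb_mem_kerRed`** : if `E` has degree `0`, `mapDomain r0 E = 0` and the reductions of the points of
  `E` lie under smooth points only, then `[pb E] ∈ kerRed 𝔻`;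
* **`pb_kap_mem_kerRed`** : for a non-special system `S0` of the good level all of whose discs lie under
  smooth points only, `[pb (E(T) − D0)] ∈ kerRed 𝔻` for every `T`;
* **`pull_ker_le_kerRed`** : hence (with Riemann's inequality at the good level) for every map `pull` on
  `Pic⁰` computed on representatives by `pb`, `pull (ker (redPic 𝔻0)) ⊆ kerRed 𝔻`;
* `pull_ker_le_kerRed_of_exists` : the same from the existence of non-special systems off any finite set
  of discs of the good level (`Bad` = the images of the nodes).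
-/
import Mathlib
import Fermat.Agent.MP.TAU.PDegen9
import Fermat.Agent.FF.KER.Ker0

set_option autoImplicit false
set_option linter.unusedSectionVars false
set_option linter.style.longLine false

namespace Fermat.Agent.MP.TAU.PullKer9

open AlgebraicCurve Fermat.Agent.X0.FF Fermat.Agent.RR.LSpace Fermat.Agent.MW.EMB.Value6
open Fermat.Agent.ORD.ANN.Side3 Fermat.Agent.ORD.ANN.Node3
open Fermat.Agent.ORD.SEMIRED.SemiRedDatum9
open Fermat.Agent.ORD.KERN.KerDefs9 Fermat.Agent.ORD.KERN.KerN9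
open Fermat.Agent.FF.RED.RedDatum7
open Fermat.Agent.MP.TAU.PDegen9

noncomputable section

variable {L F F0 k Ft Ft0 : Type*} [Field L] [Field F] [Algebra L F] [Field F0] [Algebra L F0]
  [Field k] [Field Ft] [Algebra k Ft] [Field Ft0] [Algebra k Ft0]
variable {ι E : Type*} {𝔻 : SemiRedDatum L F k Ft ι E} {𝔻0 : RedDatum L F0 k Ft0}
  (a : PDegen 𝔻 𝔻0)

/-- `pb E = Σ_P E(P) • pb (P)`. -/
theorem pb_eq_sum (E0 : Divisor L F0) :
    a.pb E0 = ∑ P ∈ E0.support, E0 P • a.pb (Finsupp.single P 1) := by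
  conv_lhs => rw [← Finsupp.sum_single E0]
  rw [Finsupp.sum, map_sum]
  refine Finset.sum_congr rfl fun P _ => ?_
  rw [← map_zsmul, Finsupp.smul_single_one]

variable {v1 v2 : ι} (h12 : v1 ≠ v2) (hι : ∀ v : ι, v = v1 ∨ v = v2)

open Classical in
include h12 hι in
/-- **the pull-back of a divisor with zero reduction and support over smooth points only is off the
annuli with zero reduction.** -/
theorem pb_offAnn_mapDomain (hn : a.e v1 + a.e v2 = a.n) (E0 : Divisor L F0)
    (hE0 : Finsupp.mapDomain 𝔻0.r E0 = 0)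
    (hgood : ∀ P, E0 P ≠ 0 → ∀ v Q', a.ψ v Q' = 𝔻0.r P → 𝔻.IsSm v Q') :
    OffAnn 𝔻 (a.pb E0) ∧ Finsupp.mapDomain 𝔻.r (a.pb E0) = 0 := by
  have hg : ∀ P ∈ E0.support, ∀ v Q', a.ψ v Q' = 𝔻0.r P → 𝔻.IsSm v Q' :=
    fun P hP => hgood P (Finsupp.mem_support_iff.mp hP)
  have hoff : OffAnn 𝔻 (a.pb E0) := by
    rw [pb_eq_sum]
    exact offAnn_sum _ fun P hP => ((a.pb_single h12 hι hn P (hg P hP)).1).zsmul _
  refine ⟨hoff, ?_⟩
  ext x
  rcases x with ⟨v, Q'⟩ | e
  · rw [Finsupp.zero_apply, pb_eq_sum, Finsupp.mapDomain_finsetSum, Finsupp.finsetSum_apply]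
    have hterm : ∀ P ∈ E0.support,
        Finsupp.mapDomain 𝔻.r (E0 P • a.pb (Finsupp.single P 1)) (Sum.inl (v, Q')) =
          if 𝔻0.r P = a.ψ v Q' then E0 P * a.e v else 0 := by
      intro P hP
      rw [Finsupp.mapDomain_smul, Finsupp.smul_apply, (a.pb_single h12 hι hn P (hg P hP)).2 v Q',
        smul_eq_mul]
      by_cases hc : a.ψ v Q' = 𝔻0.r P
      · rw [if_pos hc, if_pos hc.symm]
      · rw [if_neg hc, if_neg (fun h => hc h.symm), mul_zero]
    rw [Finset.sum_congr rfl hterm, ← Finset.sum_filter, ← Finset.sum_mul]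
    have h0 := congrArg (fun m => m (a.ψ v Q')) hE0
    simp only [Finsupp.zero_apply] at h0
    rw [RedDatum.mapDomain_apply_eq_sum] at h0
    rw [h0, zero_mul]
  · rw [Finsupp.zero_apply]
    exact hoff.mapDomain_inr e

include h12 hι in
/-- **`[pb E] ∈ kerRed 𝔻`** for `E` of degree `0` with zero reduction and support over smooth points
only. -/
theorem pb_mem_kerRed (hn : a.e v1 + a.e v2 = a.n)
    (E0 : Divisor.degZero (K := L) (F := F0))
    (hE0 : Finsupp.mapDomain 𝔻0.r (E0 : Divisor L F0) = 0)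
    (hgood : ∀ P, (E0 : Divisor L F0) P ≠ 0 → ∀ v Q', a.ψ v Q' = 𝔻0.r P → 𝔻.IsSm v Q')
    (Z : Divisor.degZero (K := L) (F := F)) (hZ : (Z : Divisor L F) = a.pb (E0 : Divisor L F0)) :
    Pic0.mk Z ∈ kerRed 𝔻 := by
  obtain ⟨h1, h2⟩ := pb_offAnn_mapDomain a h12 hι hn (E0 : Divisor L F0) hE0 hgood
  exact ⟨Z, by rw [hZ]; exact h1, by rw [hZ]; exact h2, rfl⟩

open Fermat.Agent.FF.KER.Ker0

/-- a point in the support of `Σ_i (f i)` is one of the `f i`. -/
theorem exists_eq_of_sum_single_ne_zero {X : Type*} {g : ℕ} (f : Fin g → X) (P : X)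
    (h : (∑ i, Finsupp.single (f i) (1 : ℤ)) P ≠ 0) : ∃ i, f i = P := by
  classical
  by_contra hne
  push Not at hne
  apply h
  rw [Finsupp.finsetSum_apply]
  exact Finset.sum_eq_zero fun i _ => Finsupp.single_eq_of_ne' (hne i)

include h12 hι in
/-- **`[pb (E(T) − D0)] ∈ kerRed 𝔻`** for a non-special system of the good level all of whose discs lie
under smooth points only. -/
theorem pb_kap_mem_kerRed (hn : a.e v1 + a.e v2 = a.n) {g : ℕ} (S0 : NSSystem 𝔻0 g)
    (hS : ∀ i v Q', a.ψ v Q' = S0.Q i → 𝔻.IsSm v Q') (T : Fin g → mA 𝔻0)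
    (Z : Divisor.degZero (K := L) (F := F))
    (hZ : (Z : Divisor L F) = a.pb ((S0.kapDiv T : Divisor.degZero (K := L) (F := F0)) : Divisor L F0)) :
    Pic0.mk Z ∈ kerRed 𝔻 := by
  refine pb_mem_kerRed a h12 hι hn (S0.kapDiv T) (S0.mapDomain_kapDiv T) ?_ Z hZ
  intro P hP v Q' hψ
  have hP' : (S0.Ediv T - S0.D0) P ≠ 0 := hP
  rw [Finsupp.sub_apply] at hP'
  have hor : S0.Ediv T P ≠ 0 ∨ S0.D0 P ≠ 0 := by
    by_contra hc
    push Not at hc
    apply hP'
    rw [hc.1, hc.2, sub_zero]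
  rcases hor with h | h
  · obtain ⟨i, hi⟩ := exists_eq_of_sum_single_ne_zero (fun i => S0.pt i (T i)) P h
    refine hS i v Q' ?_
    rw [hψ, ← hi]
    exact S0.r_pt i (T i)
  · obtain ⟨i, hi⟩ := exists_eq_of_sum_single_ne_zero (fun i => S0.P i) P h
    refine hS i v Q' ?_
    rw [hψ, ← hi]
    rfl

include h12 hι in
/-- **the pull-back along a degeneracy map sends the kernel of reduction of the good level into the
kernel of reduction of the semistable datum**: `pull` is any additive map on `Pic⁰` computed on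
representatives by `pb`. -/
theorem pull_ker_le_kerRed (hn : a.e v1 + a.e v2 = a.n) {g : ℕ} (S0 : NSSystem 𝔻0 g)
    (hS : ∀ i v Q', a.ψ v Q' = S0.Q i → 𝔻.IsSm v Q')
    (hRR : ∀ E : Divisor L F0, Divisor.degree E = g → ∃ f : F0, f ≠ 0 ∧ ∀ P, -(E P) ≤ P.ord f)
    (pull : Pic0 L F0 → Pic0 L F)
    (hpull : ∀ E0 : Divisor.degZero (K := L) (F := F0), ∃ Z : Divisor.degZero (K := L) (F := F),
      (Z : Divisor L F) = a.pb (E0 : Divisor L F0) ∧ pull (Pic0.mk E0) = Pic0.mk Z)
    (u : Pic0 L F0) (hu : u ∈ (redPic 𝔻0).ker) : pull u ∈ kerRed 𝔻 := by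
  obtain ⟨E, rfl⟩ := Pic0.mk_surjective u
  rw [AddMonoidHom.mem_ker, redPic_mk_eq_zero_iff] at hu
  obtain ⟨T, hT⟩ := S0.exists_kap_eq hRR E hu
  rw [← hT]
  obtain ⟨Z, hZ, hpZ⟩ := hpull (S0.kapDiv T)
  show pull (Pic0.mk (S0.kapDiv T)) ∈ kerRed 𝔻
  rw [hpZ]
  exact pb_kap_mem_kerRed a h12 hι hn S0 hS T Z hZ

/-- a point of the component `v` which is not over the image of a node is smooth. -/
theorem isSm_of_ψ_ne (v : ι) (Q' : Place k Ft)
    (h : ∀ e, a.ψ (𝔻.src e) (𝔻.Qs e) ≠ a.ψ v Q') : 𝔻.IsSm v Q' := by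
  rw [𝔻.isSm_iff]
  constructor
  · rintro e ⟨rfl, rfl⟩
    exact h e rfl
  · rintro e ⟨rfl, rfl⟩
    exact h e (a.node_compat e)

include h12 hι in
/-- **the pull-back sends the kernel of reduction of the good level into `kerRed 𝔻`**, from the
existence of non-special systems of the good level off any finite set of discs. -/
theorem pull_ker_le_kerRed_of_exists [Finite E] (hn : a.e v1 + a.e v2 = a.n) {g : ℕ}
    (hex : ∀ Bad : Finset (Place k Ft0), ∃ S : NSSystem 𝔻0 g, ∀ i, 𝔻0.r (S.P i) ∉ Bad)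
    (hRR : ∀ E : Divisor L F0, Divisor.degree E = g → ∃ f : F0, f ≠ 0 ∧ ∀ P, -(E P) ≤ P.ord f)
    (pull : Pic0 L F0 → Pic0 L F)
    (hpull : ∀ E0 : Divisor.degZero (K := L) (F := F0), ∃ Z : Divisor.degZero (K := L) (F := F),
      (Z : Divisor L F) = a.pb (E0 : Divisor L F0) ∧ pull (Pic0.mk E0) = Pic0.mk Z)
    (u : Pic0 L F0) (hu : u ∈ (redPic 𝔻0).ker) : pull u ∈ kerRed 𝔻 := by
  classical
  have := Fintype.ofFinite E
  obtain ⟨S0, hS0⟩ := hex (Finset.univ.image fun e => a.ψ (𝔻.src e) (𝔻.Qs e))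
  refine pull_ker_le_kerRed a h12 hι hn S0 ?_ hRR pull hpull u hu
  intro i v Q' hψ
  refine isSm_of_ψ_ne a v Q' fun e he => hS0 i ?_
  rw [Finset.mem_image]
  exact ⟨e, Finset.mem_univ e, he.trans hψ⟩

end

end Fermat.Agent.MP.TAU.PullKer9
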