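/-
PROGRAMME MP (row 38 via S44), chapter TAU (helper9): **the two degeneracy pull-backs `α_p^*`, `β_p^*` send
the kernel of reduction of the good level `M₀` into the kernel of reduction of the semistable datum of
level `M₀ p`** (an input of `hΞO`).

`𝔻 = MainDatum6.datum hpM h4 hp2`, `𝔻0 = GoodDatum9.goodDatum hpM h4`.

* `exists_nsSystem_good` : non-special systems of the good level off any finite set of discs;
* `hRR_good` : Riemann's inequality at the good level;
* **`alphaPull_mem_kerRed`**, **`betaPull_mem_kerRed`** :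
  `u ∈ (Ker0.redPic (goodDatum hpM h4)).ker → Iface5.alphaPull _ hpM u ∈ kerRed (datum hpM h4 hp2)`;
* `alphaPull_ker_le`, `betaPull_ker_le` : the same as `AddSubgroup.map … ≤ kerRed …`;
* `old_ker_le` : `α_p^* u + β_p^* w ∈ kerRed` for `u, w` in the kernel of reduction.
-/
import Mathlib
import Fermat.Agent.MP.TAU.Final9
import Fermat.Agent.MP.TAU.PullKer9
import Fermat.Agent.FF.NS.NSFinal5
import Fermat.Agent.FF.INST.RRInst0
import Fermat.Agent.X0.HasCanDivInst

set_option autoImplicit false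
set_option linter.unusedSectionVars false
set_option linter.unusedVariables false
set_option linter.style.longLine false
set_option synthInstance.maxHeartbeats 400000
set_option maxHeartbeats 1000000

open AlgebraicCurve ModularCurve IntermediateField

noncomputable section

namespace Fermat.Agent.MP.TAU.PullKerInst9

open Fermat.Agent.X0.FF Fermat.Agent.RR.LSpace
open Fermat.Agent.RED.Interface4 Fermat.Agent.ES.RED.ChartIntegralA1
open Fermat.Agent.RED.BASE.Hauptmodul12 Fermat.Agent.RED.BASE.Interface12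
open Fermat.Agent.ES.RED.ModelInstFinal4
open Fermat.Agent.FF.BASE.Place2 Fermat.Agent.FF.RED.RedDatum7 Fermat.Agent.FF.KER.Ker0
open Fermat.Agent.ORD.KERN.KerN9
open Fermat.Agent.ES.HECKE Fermat.Agent.ES.HECKE.LevelPullback12
open Fermat.Agent.MP.FINAL.MainDatum6 Fermat.Agent.MP.HECKE.Iface5
open Fermat.Agent.MP.TAU.PDegen9 Fermat.Agent.MP.TAU.GoodDatum9
open Fermat.Agent.MP.TAU.Inst9 Fermat.Agent.MP.TAU.Final9 Fermat.Agent.MP.TAU.PullKer9

local instance (priority := 100000) algKF9k (A : ValuationSubring Qbar) (M : ℕ) [NeZero M] :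
    Algebra (kA A) ↥(modularFunctionFieldFullC (kA A) M) := inferInstance

variable {p M₀ : ℕ} [Fact p.Prime] [NeZero M₀] (hpM : ¬ p ∣ M₀) (h4 : 4 ∣ M₀) (hp2 : p ≠ 2)

/-- **non-special systems of the good level off any finite set of discs.** -/
theorem exists_nsSystem_good
    (Bad : Finset (Place (kA (padicPlace p)) ↥(modularFunctionFieldFullC (kA (padicPlace p)) M₀))) :
    ∃ S : NSSystem (goodDatum hpM h4) (genus Qbar (X0.FF M₀)),
      ∀ i, (goodDatum hpM h4).r (S.P i) ∉ Bad := by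
  have := Fermat.Agent.X0.HasCanDivInst.hasCanonicalDivisor M₀
  have : Infinite (kA (padicPlace p)) := Fermat.Agent.FF.IFACE.NSInst9.infinite_kA (padicPlace p)
  obtain ⟨S, hS, -⟩ := Fermat.Agent.FF.NS.NSFinal5.exists_nsSystem
    (Fermat.Agent.ES.RED.SpecialInv25.isGen_tF 4 8 M₀ (tMem4 h4))
    (goodDatum_red_surjective hpM h4)
    (Fermat.Agent.FF.IFACE.NSInst9.chartCover 4 8 p hpM (tMem4 h4) (tGenBase' baseHyp_four)
      (padicPlace p) (liesOverPrime (ℓ := p)) (goodT hpM h4) (cc0 hpM h4) (cc1 hpM h4) rfl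
      (peelA0_final 4 8 M₀ p hpM (tMem4 h4) (tGenBase' baseHyp_four) (padicPlace p)
        (liesOverPrime (ℓ := p)) baseHyp_four h4 (cv4 h4) (hcv4 h4))
      (peelA1_final 4 8 M₀ p hpM (tMem4 h4) (tGenBase' baseHyp_four) (padicPlace p)
        (liesOverPrime (ℓ := p)) baseHyp_four h4 (cv4 h4) (hcv4 h4))) Bad
  exact ⟨S, hS⟩

include h4 in
/-- Riemann's inequality at the good level. -/
theorem hRR_good (E : Divisor Qbar (X0.FF M₀)) (hE : Divisor.degree E = genus Qbar (X0.FF M₀)) :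
    ∃ f : X0.FF M₀, f ≠ 0 ∧ ∀ P : Place Qbar (X0.FF M₀), -(E P) ≤ P.ord f := by
  have := Fermat.Agent.X0.HasCanDivInst.hasCanonicalDivisor M₀
  exact Fermat.Agent.FF.INST.RRInst0.hRR_of_isGen
    (Fermat.Agent.ES.RED.SpecialInv25.isGen_tF 4 8 M₀ (tMem4 h4)) E hE

/-- **`α_p^*` sends the kernel of reduction of the good level into `kerRed`.** -/
theorem alphaPull_mem_kerRed (u : Pic0 Qbar (X0.FF M₀))
    (hu : u ∈ (redPic (goodDatum hpM h4)).ker) :
    alphaPull (Fact.out : p.Prime) hpM u ∈ kerRed (datum hpM h4 hp2) := by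
  have hp : p.Prime := Fact.out
  have hι : ∀ v : Fin 2, v = 0 ∨ v = 1 := by decide
  refine pull_ker_le_kerRed_of_exists (aDeg' hpM h4 hp2) (v1 := 0) (v2 := 1) (by decide) hι ?_
    (exists_nsSystem_good hpM h4) (hRR_good h4) (alphaPull hp hpM) ?_ u hu
  · show (1 : ℕ) + 1 * p = finrankAlong Qbar (heckeAlphaBar Qbar M₀ p)
    rw [AlongDegree25.finrankAlong_alpha Qbar M₀ p hp hpM, one_mul, add_comm]
  · intro E0
    exact ⟨_, rfl, rfl⟩

/-- **`β_p^*` sends the kernel of reduction of the good level into `kerRed`.** -/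
theorem betaPull_mem_kerRed (u : Pic0 Qbar (X0.FF M₀))
    (hu : u ∈ (redPic (goodDatum hpM h4)).ker) :
    betaPull (Fact.out : p.Prime) hpM u ∈ kerRed (datum hpM h4 hp2) := by
  have hp : p.Prime := Fact.out
  have hι : ∀ v : Fin 2, v = 0 ∨ v = 1 := by decide
  refine pull_ker_le_kerRed_of_exists (bDeg' hpM h4 hp2) (v1 := 0) (v2 := 1) (by decide) hι ?_
    (exists_nsSystem_good hpM h4) (hRR_good h4) (betaPull hp hpM) ?_ u hu
  · show p + (1 : ℕ) = finrankAlong Qbar (heckeBetaBar Qbar M₀ p)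
    rw [AlongDegree25.finrankAlong_beta Qbar M₀ p hp hpM]
  · intro E0
    exact ⟨_, rfl, rfl⟩

/-- `α_p^* (ker redPic) ≤ kerRed`. -/
theorem alphaPull_ker_le :
    (redPic (goodDatum hpM h4)).ker.map (alphaPull (Fact.out : p.Prime) hpM) ≤
      kerRed (datum hpM h4 hp2) := by
  rintro _ ⟨u, hu, rfl⟩
  exact alphaPull_mem_kerRed hpM h4 hp2 u hu

/-- `β_p^* (ker redPic) ≤ kerRed`. -/
theorem betaPull_ker_le :
    (redPic (goodDatum hpM h4)).ker.map (betaPull (Fact.out : p.Prime) hpM) ≤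
      kerRed (datum hpM h4 hp2) := by
  rintro _ ⟨u, hu, rfl⟩
  exact betaPull_mem_kerRed hpM h4 hp2 u hu

/-- `α_p^* u + β_p^* w ∈ kerRed` for `u`, `w` in the kernel of reduction of the good level. -/
theorem old_ker_le (u w : Pic0 Qbar (X0.FF M₀))
    (hu : u ∈ (redPic (goodDatum hpM h4)).ker) (hw : w ∈ (redPic (goodDatum hpM h4)).ker) :
    alphaPull (Fact.out : p.Prime) hpM u + betaPull (Fact.out : p.Prime) hpM w ∈
      kerRed (datum hpM h4 hp2) :=
  (kerRed (datum hpM h4 hp2)).add_mem (alphaPull_mem_kerRed hpM h4 hp2 u hu)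
    (betaPull_mem_kerRed hpM h4 hp2 w hw)

end Fermat.Agent.MP.TAU.PullKerInst9
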